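/-
IHARA track, package [H4](i) (helper1): **the groups `Γ_H(M)`**.

For a subgroup `H ≤ (ℤ/M)ˣ`:  `ihfGammaH M H = {γ ∈ Γ₀(M) | (d mod M) ∈ H}`, so that
`Γ₁(M) = Γ_⊥(M) ≤ Γ_H(M) ≤ Γ_⊤(M) = Γ₀(M)` and `Γ₀(M) / Γ_H(M) ≅ (ℤ/M)ˣ / H`.

Coset systems (in the sense of `tdmCosetSys`, Lib/T1/Mono) on `Γ_H(M)`:
* `ihfSysT M H hℓ hℓM` : `T_ℓ` (`ℓ ∤ M`), representatives `γ_ℓ diag(ℓ, 1)`, `[[1, b], [0, ℓ]]`
  (the same representatives `tgmRepT` as on `Γ₁(M)`);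
* `ihfSysU M H hrM hr0` : `U_r` (`r ∣ M`);
* `ihfSysC M H g hg`   : conjugation by `g ∈ Γ₀(M)`, `φ ↦ (δ ↦ φ (g δ g⁻¹))`;
* `ihfSysD M H d`      : the diamond operator `⟨d⟩` = conjugation by `γ_d = dshGammaU M d`.
-/
import Mathlib
import Fermat.Agent.Lib.DS.Hecke.Forms
import Fermat.Agent.Lib.T1.Mono.Coset
import Fermat.Agent.Lib.T1G.ES.Coset

set_option autoImplicit false
set_option linter.unusedSectionVars false
set_option linter.unusedVariables false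

namespace Fermat.Agent.Ihara

open Matrix MatrixGroups CongruenceSubgroup ModularCurve ModularCurve.Period
open Fermat.Agent.DS Fermat.Agent.T1 Fermat.Agent.T1G

/-! ### The group `Γ_H(M)` -/

/-- `Γ_H(M) = {γ ∈ Γ₀(M) | (d mod M) ∈ H}` -/
def ihfGammaH (M : ℕ) (H : Subgroup (ZMod M)ˣ) : Subgroup SL(2, ℤ) where
  carrier := {γ | γ ∈ Gamma0 M ∧ ∃ h ∈ H, dshD M γ = ((h : (ZMod M)ˣ) : ZMod M)}
  one_mem' := ⟨one_mem _, 1, one_mem _, by simp⟩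
  mul_mem' := by
    rintro a b ⟨ha, h, hh, e⟩ ⟨hb, h', hh', e'⟩
    exact ⟨mul_mem ha hb, h * h', mul_mem hh hh', by rw [dshD_mul ha, e, e', Units.val_mul]⟩
  inv_mem' := by
    rintro a ⟨ha, h, hh, e⟩
    refine ⟨inv_mem ha, h⁻¹, inv_mem hh, ?_⟩
    have h1 := dshD_mul_inv ha
    rw [e] at h1
    have h2 : ((h : (ZMod M)ˣ) : ZMod M) * ((h⁻¹ : (ZMod M)ˣ) : ZMod M) = 1 := by
      rw [← Units.val_mul, mul_inv_cancel, Units.val_one]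
    exact (h.isUnit.mul_right_inj).mp (h1.trans h2.symm)

variable {M : ℕ} {H H' : Subgroup (ZMod M)ˣ}

theorem ihf_mem_GammaH_iff {γ : SL(2, ℤ)} :
    γ ∈ ihfGammaH M H ↔ γ ∈ Gamma0 M ∧ ∃ h ∈ H, dshD M γ = ((h : (ZMod M)ˣ) : ZMod M) :=
  Iff.rfl

theorem ihfGammaH_le_Gamma0 : ihfGammaH M H ≤ Gamma0 M := fun _ h => h.1

theorem ihfGamma1_le_GammaH : Gamma1 M ≤ ihfGammaH M H := by
  intro γ hγ
  obtain ⟨h0, h1⟩ := dsh_mem_Gamma1_iff.mp hγ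
  exact ⟨h0, 1, one_mem _, by rw [h1, Units.val_one]⟩

theorem ihfGammaH_mono (hle : H ≤ H') : ihfGammaH M H ≤ ihfGammaH M H' := by
  rintro γ ⟨h0, h, hh, e⟩
  exact ⟨h0, h, hle hh, e⟩

/-- membership only depends on `d mod M` -/
theorem ihf_mem_GammaH_of_dshD_eq {γ γ' : SL(2, ℤ)} (hγ : γ ∈ ihfGammaH M H)
    (hγ' : γ' ∈ Gamma0 M) (hd : dshD M γ' = dshD M γ) : γ' ∈ ihfGammaH M H := by
  obtain ⟨-, h, hh, e⟩ := hγ
  exact ⟨hγ', h, hh, hd.trans e⟩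

/-- conjugation by `Γ₀(M)` preserves `d mod M` -/
theorem ihf_dshD_conj {g γ : SL(2, ℤ)} (hg : g ∈ Gamma0 M) (hγ : γ ∈ Gamma0 M) :
    dshD M (g * γ * g⁻¹) = dshD M γ := by
  rw [dshD_mul (mul_mem hg hγ), dshD_mul hg, mul_comm (dshD M g), mul_assoc, dshD_mul_inv hg,
    mul_one]

theorem ihf_conj_mem_GammaH {g γ : SL(2, ℤ)} (hg : g ∈ Gamma0 M) (hγ : γ ∈ ihfGammaH M H) :
    g * γ * g⁻¹ ∈ ihfGammaH M H :=
  ihf_mem_GammaH_of_dshD_eq hγ (mul_mem (mul_mem hg hγ.1) (inv_mem hg)) (ihf_dshD_conj hg hγ.1)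

theorem ihfGammaH_top [NeZero M] : ihfGammaH M (⊤ : Subgroup (ZMod M)ˣ) = Gamma0 M := by
  refine le_antisymm ihfGammaH_le_Gamma0 fun γ hγ => ⟨hγ, ?_⟩
  have hu : IsUnit (dshD M γ) := IsUnit.of_mul_eq_one _ (dshD_mul_inv hγ)
  exact ⟨hu.unit, Subgroup.mem_top _, rfl⟩

theorem ihf_neg_one_mem (hneg : (-1 : (ZMod M)ˣ) ∈ H) : (-1 : SL(2, ℤ)) ∈ ihfGammaH M H := by
  refine ⟨?_, -1, hneg, ?_⟩
  · rw [Gamma0_mem]; simp
  · simp [dshD]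

/-- `d mod M` as a group homomorphism `Γ₀(M) → (ℤ/M)ˣ` -/
noncomputable def ihfUnitHom (M : ℕ) : Gamma0 M →* (ZMod M)ˣ := (Gamma0Map M).toHomUnits

theorem ihfUnitHom_coe (γ : Gamma0 M) :
    ((ihfUnitHom M γ : (ZMod M)ˣ) : ZMod M) = dshD M (γ : SL(2, ℤ)) := rfl

theorem ihf_mem_GammaH_iff' {γ : SL(2, ℤ)} (hγ : γ ∈ Gamma0 M) :
    γ ∈ ihfGammaH M H ↔ ihfUnitHom M ⟨γ, hγ⟩ ∈ H := by
  constructor
  · rintro ⟨-, h, hh, e⟩
    have : ihfUnitHom M ⟨γ, hγ⟩ = h := Units.ext (by rw [ihfUnitHom_coe]; exact e)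
    rw [this]; exact hh
  · intro h
    exact ⟨hγ, _, h, (ihfUnitHom_coe ⟨γ, hγ⟩).symm⟩

theorem ihfUnitHom_dshGammaU [NeZero M] (d : (ZMod M)ˣ) :
    ihfUnitHom M ⟨dshGammaU M d, dshGammaU_mem M d⟩ = d :=
  Units.ext (by rw [ihfUnitHom_coe]; exact dshD_dshGammaU M d)

/-! ### The coset system of `T_ℓ` on `Γ_H(M)` -/

section SysT

variable (M) (H)
variable [NeZero M] {p : ℕ} (hp : p.Prime) (hpM : ¬ p ∣ M)

/-- the key computation: for `δ ∈ Γ₀(M)`, `rep i * δ = ε * rep j` with `ε ∈ Γ₀(M)` and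
`d(ε) ≡ d(δ) mod M` -/
theorem ihf_repT_exists (δ : SL(2, ℤ)) (hδ : δ ∈ Gamma0 M) (i : Option (Fin p)) :
    ∃ j : Option (Fin p), ∃ ε : SL(2, ℤ), ε ∈ Gamma0 M ∧ dshD M ε = dshD M δ ∧
      tgmRepT M hp hpM i * (δ : Matrix (Fin 2) (Fin 2) ℤ)
        = (ε : Matrix (Fin 2) (Fin 2) ℤ) * tgmRepT M hp hpM j := by
  have hD : (δ : Matrix (Fin 2) (Fin 2) ℤ).det = 1 := δ.2
  have hD10 : (((δ : Matrix (Fin 2) (Fin 2) ℤ) 1 0 : ℤ) : ZMod M) = 0 := Gamma0_mem.mp hδ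
  set D := (δ : Matrix (Fin 2) (Fin 2) ℤ) with hDdef
  have hD11 : ((D 1 1 : ℤ) : ZMod M) = dshD M δ := rfl
  set g := tgmGammaP M hp hpM with hg
  have hgmem : g ∈ Gamma0 M := tgmGammaP_mem M hp hpM
  have hgD : dshD M g = (p : ZMod M) := dshD_tgmGammaP M hp hpM
  have hpu : IsUnit (p : ZMod M) := tgm_isUnit_cast M hp hpM
  have hrp : Prime (p : ℤ) := Nat.prime_iff_prime_int.mp hp
  have hp0 : p ≠ 0 := hp.ne_zero
  rcases i with _ | b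
  · -- `γ_p * diag(p, 1)`
    by_cases hx : (p : ℤ) ∣ D 1 0
    · obtain ⟨E, hE, hE10, hE11⟩ := tgm_diag_mul_diag D hD hx
      have hE0 : ((E 1 0 : ℤ) : ZMod M) = 0 := by
        have h1 : (p : ZMod M) * ((E 1 0 : ℤ) : ZMod M) = 0 := by
          have := congrArg (Int.cast : ℤ → ZMod M) hE10
          push_cast at this
          rw [this, hD10]
        exact (hpu.mul_right_eq_zero).mp h1
      have hEmem : E ∈ Gamma0 M := tgm_mem_Gamma0_of hE0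
      have hE1 : dshD M E = dshD M δ := by rw [dshD, hE11]; rfl
      refine ⟨none, g * E * g⁻¹, mul_mem (mul_mem hgmem hEmem) (inv_mem hgmem), ?_, ?_⟩
      · rw [ihf_dshD_conj hgmem hEmem, hE1]
      · show (g : Matrix (Fin 2) (Fin 2) ℤ) * !![(p : ℤ), 0; 0, 1] * D
          = ((g * E * g⁻¹ : SL(2, ℤ)) : Matrix (Fin 2) (Fin 2) ℤ)
            * ((g : Matrix (Fin 2) (Fin 2) ℤ) * !![(p : ℤ), 0; 0, 1])
        rw [Matrix.mul_assoc, hE, tgm_SL_mul_assoc, tgm_SL_inv_mul_cancel, tgm_SL_mul_assoc]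
    · have hcop : IsCoprime (D 1 0) (p : ℤ) := by
        rw [isCoprime_comm, hrp.irreducible.coprime_iff_not_dvd]; exact hx
      obtain ⟨j, hj⟩ := tdm_exists_aff_sol hp0 hcop (D 1 1)
      obtain ⟨E, hE, hE10, hE11⟩ := tgm_diag_mul_aff D hD ((j : ℕ) : ℤ) hj
      have hE0 : ((E 1 0 : ℤ) : ZMod M) = 0 := by rw [hE10, hD10]
      have hEmem : E ∈ Gamma0 M := tgm_mem_Gamma0_of hE0
      have hE1 : (p : ZMod M) * dshD M E = dshD M δ := by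
        have := congrArg (Int.cast : ℤ → ZMod M) hE11
        push_cast at this
        rw [dshD, this, hD10, hD11, mul_zero, sub_zero]
      refine ⟨some j, g * E, mul_mem hgmem hEmem, ?_, ?_⟩
      · rw [dshD_mul hgmem, hgD, hE1]
      · show (g : Matrix (Fin 2) (Fin 2) ℤ) * !![(p : ℤ), 0; 0, 1] * D
          = ((g * E : SL(2, ℤ)) : Matrix (Fin 2) (Fin 2) ℤ) * !![1, ((j : ℕ) : ℤ); 0, (p : ℤ)]
        rw [Matrix.mul_assoc, hE, tgm_SL_mul_assoc]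
  · by_cases hx : (p : ℤ) ∣ D 0 0 + ((b : ℕ) : ℤ) * D 1 0
    · obtain ⟨E, hE, hE10, hE11⟩ := tgm_aff_mul_diag D hD ((b : ℕ) : ℤ) hx
      have hE0 : ((E 1 0 : ℤ) : ZMod M) = 0 := by rw [hE10, hD10]
      have hEmem : E ∈ Gamma0 M := tgm_mem_Gamma0_of hE0
      have hE1 : dshD M E = dshD M g * dshD M δ := by
        rw [hgD, dshD, hE11]
        push_cast
        rw [hD11]
      refine ⟨none, E * g⁻¹, mul_mem hEmem (inv_mem hgmem), ?_, ?_⟩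
      · rw [dshD_mul hEmem, hE1, mul_comm (dshD M g), mul_assoc, dshD_mul_inv hgmem, mul_one]
      · show !![1, ((b : ℕ) : ℤ); 0, (p : ℤ)] * D
          = ((E * g⁻¹ : SL(2, ℤ)) : Matrix (Fin 2) (Fin 2) ℤ)
            * ((g : Matrix (Fin 2) (Fin 2) ℤ) * !![(p : ℤ), 0; 0, 1])
        rw [hE, tgm_SL_mul_assoc, tgm_SL_inv_mul_cancel]
    · have hcop : IsCoprime (D 0 0 + ((b : ℕ) : ℤ) * D 1 0) (p : ℤ) := by
        rw [isCoprime_comm, hrp.irreducible.coprime_iff_not_dvd]; exact hx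
      obtain ⟨j, hj⟩ := tdm_exists_aff_sol hp0 hcop (D 0 1 + ((b : ℕ) : ℤ) * D 1 1)
      obtain ⟨E, hE, hE10, hE11⟩ := tgm_aff_mul_aff D hD ((b : ℕ) : ℤ) ((j : ℕ) : ℤ) hj
      have hE0 : ((E 1 0 : ℤ) : ZMod M) = 0 := by
        rw [hE10]; push_cast; rw [hD10, mul_zero]
      have hE1 : dshD M E = dshD M δ := by
        rw [dshD, hE11]; push_cast; rw [hD10, hD11, mul_zero, sub_zero]
      exact ⟨some j, E, tgm_mem_Gamma0_of hE0, hE1, hE⟩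

theorem ihfRepT_inequiv (i j : Option (Fin p)) (γ : ihfGammaH M H)
    (h : ((γ : SL(2, ℤ)) : Matrix (Fin 2) (Fin 2) ℤ) * tgmRepT M hp hpM i = tgmRepT M hp hpM j) :
    i = j := by
  rcases i with _ | b <;> rcases j with _ | b'
  · rfl
  · exfalso
    have h' : (((γ : SL(2, ℤ)) * tgmGammaP M hp hpM : SL(2, ℤ)) : Matrix (Fin 2) (Fin 2) ℤ)
        * !![(p : ℤ), 0; 0, 1] = !![1, ((b' : ℕ) : ℤ); 0, (p : ℤ)] := by
      rw [tgm_SL_mul_assoc]; exact h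
    exact tdm_diag_aff_inequiv hp.two_le _ _ h'
  · exfalso
    have h' : ((((tgmGammaP M hp hpM)⁻¹ * (γ : SL(2, ℤ)) : SL(2, ℤ)) :
        Matrix (Fin 2) (Fin 2) ℤ)) * !![1, ((b : ℕ) : ℤ); 0, (p : ℤ)] = !![(p : ℤ), 0; 0, 1] := by
      rw [tgm_SL_mul_assoc]
      have h2 : ((γ : SL(2, ℤ)) : Matrix (Fin 2) (Fin 2) ℤ) * !![1, ((b : ℕ) : ℤ); 0, (p : ℤ)]
          = (tgmGammaP M hp hpM : Matrix (Fin 2) (Fin 2) ℤ) * !![(p : ℤ), 0; 0, 1] := h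
      rw [h2, tgm_SL_inv_mul_cancel]
    exact tdm_aff_diag_inequiv hp.two_le _ _ h'
  · exact congrArg some (tdm_aff_inequiv b b' _ h)

/-- the coset system of `T_p` (`p` prime, `p ∤ M`) on `Γ_H(M)` -/
noncomputable def ihfSysT : tdmCosetSys (ihfGammaH M H) (Option (Fin p)) :=
  tdmCosetSys.ofInequiv (tgmRepT M hp hpM)
    (fun i => by rw [tgmRepT_det]; exact_mod_cast hp.pos)
    (ihfRepT_inequiv M H hp hpM)
    (fun δ i => by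
      obtain ⟨j, ε, hε, hd, he⟩ := ihf_repT_exists M hp hpM (δ : SL(2, ℤ)) δ.2.1 i
      exact ⟨j, ⟨ε, ihf_mem_GammaH_of_dshD_eq δ.2 hε hd⟩, he⟩)

@[simp] theorem ihfSysT_rep : (ihfSysT M H hp hpM).rep = tgmRepT M hp hpM := rfl

/-- `d (ε_i(δ)) ≡ d(δ) mod M` -/
theorem ihfSysT_dshD_eps (δ : ihfGammaH M H) (i : Option (Fin p)) :
    dshD M (((ihfSysT M H hp hpM).eps δ i : ihfGammaH M H) : SL(2, ℤ)) = dshD M (δ : SL(2, ℤ)) := by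
  obtain ⟨j, ε, hε, hd, he⟩ := ihf_repT_exists M hp hpM (δ : SL(2, ℤ)) δ.2.1 i
  have h := ((ihfSysT M H hp hpM).eq_of_rep_mul (δ := δ) (i := i) (j := j)
    (ε := ⟨ε, ihf_mem_GammaH_of_dshD_eq δ.2 hε hd⟩) he).2
  rw [← h]
  exact hd

end SysT

/-! ### The coset system of `U_r` on `Γ_H(M)` -/

section SysU

variable (M) (H)
variable {r : ℕ} (hrM : r ∣ M) (hr0 : r ≠ 0)

include hrM in
theorem ihf_repU_exists (δ : SL(2, ℤ)) (hδ : δ ∈ Gamma0 M) (b : Fin r) :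
    ∃ j : Fin r, ∃ ε : SL(2, ℤ), ε ∈ Gamma0 M ∧ dshD M ε = dshD M δ ∧
      tdmRepU r b * (δ : Matrix (Fin 2) (Fin 2) ℤ)
        = (ε : Matrix (Fin 2) (Fin 2) ℤ) * tdmRepU r j := by
  have hD : (δ : Matrix (Fin 2) (Fin 2) ℤ).det = 1 := δ.2
  have hD10 : (((δ : Matrix (Fin 2) (Fin 2) ℤ) 1 0 : ℤ) : ZMod M) = 0 := Gamma0_mem.mp hδ
  set D := (δ : Matrix (Fin 2) (Fin 2) ℤ) with hDdef
  have hD11 : ((D 1 1 : ℤ) : ZMod M) = dshD M δ := rfl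
  have hN : (M : ℤ) ∣ D 1 0 := (ZMod.intCast_zmod_eq_zero_iff_dvd _ _).mp hD10
  obtain ⟨m, hm⟩ : (r : ℤ) ∣ D 1 0 := (Int.natCast_dvd_natCast.mpr hrM).trans hN
  have hcop : IsCoprime (D 0 0 + ((b : ℕ) : ℤ) * D 1 0) (r : ℤ) := by
    refine ⟨D 1 1, -(D 0 1 * m) - (b : ℕ) * m * D 1 1, ?_⟩
    rw [Matrix.det_fin_two] at hD
    rw [hm] at hD ⊢
    linear_combination hD
  by_cases hr0 : r = 0
  · subst hr0; exact b.elim0
  obtain ⟨j, hj⟩ := tdm_exists_aff_sol hr0 hcop (D 0 1 + ((b : ℕ) : ℤ) * D 1 1)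
  obtain ⟨E, hE, hE10, hE11⟩ := tgm_aff_mul_aff D hD ((b : ℕ) : ℤ) ((j : ℕ) : ℤ) hj
  have hE0 : ((E 1 0 : ℤ) : ZMod M) = 0 := by
    rw [hE10]; push_cast; rw [hD10, mul_zero]
  have hE1 : dshD M E = dshD M δ := by
    rw [dshD, hE11]; push_cast; rw [hD10, hD11, mul_zero, sub_zero]
  exact ⟨j, E, tgm_mem_Gamma0_of hE0, hE1, hE⟩

/-- the coset system of `U_r` (`r ∣ M`) on `Γ_H(M)` -/
def ihfSysU : tdmCosetSys (ihfGammaH M H) (Fin r) :=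
  tdmCosetSys.ofInequiv (tdmRepU r)
    (fun i => by rw [tdmRepU_det]; exact_mod_cast Nat.pos_of_ne_zero hr0)
    (fun i j γ h => tdm_aff_inequiv i j _ h)
    (fun δ i => by
      obtain ⟨j, ε, hε, hd, he⟩ := ihf_repU_exists M hrM (δ : SL(2, ℤ)) δ.2.1 i
      exact ⟨j, ⟨ε, ihf_mem_GammaH_of_dshD_eq δ.2 hε hd⟩, he⟩)

@[simp] theorem ihfSysU_rep : (ihfSysU M H hrM hr0).rep = tdmRepU r := rfl

end SysU

/-! ### Conjugation by `Γ₀(M)`, the diamond operators -/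

section SysC

variable (M) (H)

/-- conjugation by `g ∈ Γ₀(M)` as a one-element coset system on `Γ_H(M)`:
`(ihfSysC M H g hg).hom A φ = (δ ↦ φ (g δ g⁻¹))` -/
def ihfSysC (g : SL(2, ℤ)) (hg : g ∈ Gamma0 M) : tdmCosetSys (ihfGammaH M H) Unit :=
  tdmCosetSys.ofInequiv (fun _ => (g : Matrix (Fin 2) (Fin 2) ℤ))
    (fun _ => by rw [g.2]; exact one_pos)
    (fun _ _ _ _ => rfl)
    (fun δ _ => ⟨(), ⟨g * (δ : SL(2, ℤ)) * g⁻¹, ihf_conj_mem_GammaH hg δ.2⟩, by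
        rw [tgm_SL_mul_assoc, tgm_SL_inv_mul_self, Matrix.mul_one,
          Matrix.SpecialLinearGroup.coe_mul]⟩)

@[simp] theorem ihfSysC_rep (g : SL(2, ℤ)) (hg : g ∈ Gamma0 M) (i : Unit) :
    (ihfSysC M H g hg).rep i = (g : Matrix (Fin 2) (Fin 2) ℤ) := rfl

theorem ihfSysC_eps (g : SL(2, ℤ)) (hg : g ∈ Gamma0 M) (δ : ihfGammaH M H) (i : Unit) :
    (((ihfSysC M H g hg).eps δ i : ihfGammaH M H) : SL(2, ℤ)) = g * (δ : SL(2, ℤ)) * g⁻¹ := by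
  have h : (ihfSysC M H g hg).rep i * ((δ : SL(2, ℤ)) : Matrix (Fin 2) (Fin 2) ℤ)
      = (((⟨g * (δ : SL(2, ℤ)) * g⁻¹, ihf_conj_mem_GammaH hg δ.2⟩ : ihfGammaH M H) : SL(2, ℤ)) :
          Matrix (Fin 2) (Fin 2) ℤ) * (ihfSysC M H g hg).rep () := by
    show (g : Matrix (Fin 2) (Fin 2) ℤ) * _ = _ * (g : Matrix (Fin 2) (Fin 2) ℤ)
    rw [tgm_SL_mul_assoc, tgm_SL_inv_mul_self, Matrix.mul_one, Matrix.SpecialLinearGroup.coe_mul]
  have := ((ihfSysC M H g hg).eq_of_rep_mul h).2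
  rw [← this]

theorem ihfSysC_hom_apply (g : SL(2, ℤ)) (hg : g ∈ Gamma0 M) {A : Type*} [AddCommGroup A]
    (φ : Additive (ihfGammaH M H) →+ A) (δ : ihfGammaH M H) :
    (ihfSysC M H g hg).hom A φ (Additive.ofMul δ)
      = φ (Additive.ofMul ⟨g * (δ : SL(2, ℤ)) * g⁻¹, ihf_conj_mem_GammaH hg δ.2⟩) := by
  rw [tdmCosetSys.hom_apply, Finset.univ_unique, Finset.sum_singleton]
  congr 2
  exact Subtype.ext (ihfSysC_eps M H g hg δ _)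

/-- conjugation by an element of `Γ_H(M)` acts trivially on `Hom(Γ_H(M), A)` -/
theorem ihfSysC_hom_of_mem (g : SL(2, ℤ)) (hg : g ∈ ihfGammaH M H) {A : Type*} [AddCommGroup A]
    (φ : Additive (ihfGammaH M H) →+ A) :
    (ihfSysC M H g hg.1).hom A φ = φ := by
  refine AddMonoidHom.ext fun δ' => ?_
  obtain ⟨δ, rfl⟩ := Additive.ofMul.surjective δ'
  rw [ihfSysC_hom_apply]
  have : (⟨g * (δ : SL(2, ℤ)) * g⁻¹, ihf_conj_mem_GammaH hg.1 δ.2⟩ : ihfGammaH M H)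
      = (⟨g, hg⟩ : ihfGammaH M H) * δ * (⟨g, hg⟩ : ihfGammaH M H)⁻¹ := Subtype.ext rfl
  rw [this, ofMul_mul, ofMul_mul, ofMul_inv, map_add, map_add, map_neg]
  abel

/-- composition of conjugations -/
theorem ihfSysC_hom_mul (g g' : SL(2, ℤ)) (hg : g ∈ Gamma0 M) (hg' : g' ∈ Gamma0 M)
    {A : Type*} [AddCommGroup A] (φ : Additive (ihfGammaH M H) →+ A) :
    (ihfSysC M H (g * g') (mul_mem hg hg')).hom A φ
      = (ihfSysC M H g' hg').hom A ((ihfSysC M H g hg).hom A φ) := by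
  refine AddMonoidHom.ext fun δ' => ?_
  obtain ⟨δ, rfl⟩ := Additive.ofMul.surjective δ'
  rw [ihfSysC_hom_apply, ihfSysC_hom_apply, ihfSysC_hom_apply]
  congr 2
  apply Subtype.ext
  show g * g' * (δ : SL(2, ℤ)) * (g * g')⁻¹ = g * (g' * (δ : SL(2, ℤ)) * g'⁻¹) * g⁻¹
  group

/-- conjugation only depends on `d(g) mod H` -/
theorem ihfSysC_hom_congr (g g' : SL(2, ℤ)) (hg : g ∈ Gamma0 M) (hg' : g' ∈ Gamma0 M)
    (h : g * g'⁻¹ ∈ ihfGammaH M H) {A : Type*} [AddCommGroup A]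
    (φ : Additive (ihfGammaH M H) →+ A) :
    (ihfSysC M H g hg).hom A φ = (ihfSysC M H g' hg').hom A φ := by
  have h1 := ihfSysC_hom_mul M H (g * g'⁻¹) g' h.1 hg' φ
  rw [ihfSysC_hom_of_mem M H _ h φ] at h1
  rw [← h1]
  congr 1
  simp

variable [NeZero M]

/-- the coset system of the diamond operator `⟨d⟩` on `Γ_H(M)` -/
noncomputable def ihfSysD (d : (ZMod M)ˣ) : tdmCosetSys (ihfGammaH M H) Unit :=
  ihfSysC M H (dshGammaU M d) (dshGammaU_mem M d)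

/-- `⟨d⟩ φ = φ ∘ conj_g` for any `g ∈ Γ₀(M)` with `d(g) ≡ d` -/
theorem ihfSysD_hom_eq (d : (ZMod M)ˣ) (g : SL(2, ℤ)) (hg : g ∈ Gamma0 M)
    (hd : dshD M g = (d : ZMod M)) {A : Type*} [AddCommGroup A]
    (φ : Additive (ihfGammaH M H) →+ A) :
    (ihfSysD M H d).hom A φ = (ihfSysC M H g hg).hom A φ := by
  refine ihfSysC_hom_congr M H _ _ _ hg ?_ φ
  apply ihfGamma1_le_GammaH
  exact dsh_mul_inv_mem_Gamma1 (dshGammaU_mem M d) hg (by rw [dshD_dshGammaU, hd])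

theorem ihfSysD_hom_one {A : Type*} [AddCommGroup A] (φ : Additive (ihfGammaH M H) →+ A) :
    (ihfSysD M H 1).hom A φ = φ := by
  rw [ihfSysD_hom_eq M H 1 1 (one_mem _) (by simp) φ]
  exact ihfSysC_hom_of_mem M H 1 (one_mem _) φ

theorem ihfSysD_hom_mul (d d' : (ZMod M)ˣ) {A : Type*} [AddCommGroup A]
    (φ : Additive (ihfGammaH M H) →+ A) :
    (ihfSysD M H (d * d')).hom A φ = (ihfSysD M H d).hom A ((ihfSysD M H d').hom A φ) := by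
  rw [ihfSysD_hom_eq M H (d * d') (dshGammaU M d' * dshGammaU M d)
    (mul_mem (dshGammaU_mem M d') (dshGammaU_mem M d))
    (by rw [dshD_mul (dshGammaU_mem M d'), dshD_dshGammaU, dshD_dshGammaU, Units.val_mul,
      mul_comm]) φ]
  exact ihfSysC_hom_mul M H _ _ _ _ φ

/-- `⟨h⟩ = 1` for `h ∈ H` -/
theorem ihfSysD_hom_of_mem (h : (ZMod M)ˣ) (hh : h ∈ H) {A : Type*} [AddCommGroup A]
    (φ : Additive (ihfGammaH M H) →+ A) : (ihfSysD M H h).hom A φ = φ :=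
  ihfSysC_hom_of_mem M H _ ⟨dshGammaU_mem M h, h, hh, dshD_dshGammaU M h⟩ φ

/-- **the diamond action** of `(ℤ/M)ˣ` on `Hom(Γ_H(M), A)`; it is trivial on `H` -/
noncomputable def ihfDiamond (A : Type*) [AddCommGroup A] :
    (ZMod M)ˣ →* AddMonoid.End (Additive (ihfGammaH M H) →+ A) where
  toFun d := (ihfSysD M H d).hom A
  map_one' := AddMonoidHom.ext fun φ => ihfSysD_hom_one M H φ
  map_mul' d d' := AddMonoidHom.ext fun φ => ihfSysD_hom_mul M H d d' φ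

@[simp] theorem ihfDiamond_apply (A : Type*) [AddCommGroup A] (d : (ZMod M)ˣ)
    (φ : Additive (ihfGammaH M H) →+ A) : ihfDiamond M H A d φ = (ihfSysD M H d).hom A φ := rfl

end SysC

end Fermat.Agent.Ihara
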