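/-
IHARA track, package [H4](ii) (helper1): **lifting bases from the residue field of a DVR**.

`𝒪` a DVR, `π : 𝒪 → k` with kernel `𝔪`, `red : N → N'` a `π`-semilinear map, `N` torsion-free.
* `ihf_linearIndependent_of_red`: a family whose reduction is linearly independent is linearly
  independent;
* `ihf_span_of_red`: Nakayama — a family in a finitely generated `X ≤ N` with `ker red ∩ X ⊆ 𝔪 X`
  whose reduction spans `red X` spans `X`.
-/
import Mathlib

set_option autoImplicit false
set_option linter.unusedSectionVars false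
set_option linter.unusedVariables false

namespace Fermat.Agent.Ihara

open Module Submodule

section

variable {𝒪 k : Type*} [CommRing 𝒪] [IsDomain 𝒪] [IsDiscreteValuationRing 𝒪] [Field k]
  (π : 𝒪 →+* k) (hπker : ∀ a, π a = 0 → a ∈ IsLocalRing.maximalIdeal 𝒪)
  {N N' : Type*} [AddCommGroup N] [Module 𝒪 N] [AddCommGroup N'] [Module k N']
  (red : N →ₛₗ[π] N') (htf : ∀ (a : 𝒪) (x : N), a ≠ 0 → a • x = 0 → x = 0)

include hπker htf in
theorem ihf_linearIndependent_of_red {ι : Type*} [Fintype ι] (b : ι → N)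
    (h : LinearIndependent k (red ∘ b)) : LinearIndependent 𝒪 b := by
  classical
  obtain ⟨ϖ, hϖ⟩ := IsDiscreteValuationRing.exists_irreducible 𝒪
  have h𝔪 : IsLocalRing.maximalIdeal 𝒪 = Ideal.span {ϖ} := hϖ.maximalIdeal_eq
  have hϖ0 : ϖ ≠ 0 := hϖ.ne_zero
  have key : ∀ (m : ℕ) (c : ι → 𝒪), ∑ i, c i • b i = 0 → ∀ i, ϖ ^ m ∣ c i := by
    intro m
    induction m with
    | zero => intro c _ i; rw [pow_zero]; exact one_dvd _
    | succ m ih =>
      intro c hc
      have h1 : ∑ i, π (c i) • (red ∘ b) i = 0 := by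
        have := congrArg red hc
        rw [map_sum, map_zero] at this
        rw [← this]
        refine Finset.sum_congr rfl fun i _ => ?_
        rw [map_smulₛₗ]
        rfl
      have h2 : ∀ i, π (c i) = 0 := Fintype.linearIndependent_iff.mp h _ h1
      have h3 : ∀ i, ϖ ∣ c i := by
        intro i
        have := hπker _ (h2 i)
        rwa [h𝔪, Ideal.mem_span_singleton] at this
      choose c' hc' using h3
      have h4 : ∑ i, c' i • b i = 0 := by
        apply htf ϖ _ hϖ0
        rw [Finset.smul_sum, ← hc]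
        refine Finset.sum_congr rfl fun i _ => ?_
        rw [smul_smul, ← hc']
      intro i
      rw [hc' i, pow_succ']
      exact mul_dvd_mul_left ϖ (ih c' h4 i)
  rw [Fintype.linearIndependent_iff]
  intro c hc i
  by_contra hne
  obtain ⟨n, hn⟩ := FiniteMultiplicity.of_not_isUnit hϖ.not_isUnit hne
  exact hn (key (n + 1) c hc i)

include hπker in
theorem ihf_span_of_red (hπ : Function.Surjective π) (X : Submodule 𝒪 N) (hXfg : X.FG)
    (hkerX : ∀ x ∈ X, red x = 0 → x ∈ (IsLocalRing.maximalIdeal 𝒪) • X)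
    {ι : Type*} [Fintype ι] (b : ι → N) (hb : ∀ i, b i ∈ X)
    (hspan : ∀ x ∈ X, red x ∈ span k (Set.range (red ∘ b))) :
    X ≤ span 𝒪 (Set.range b) := by
  classical
  refine Submodule.le_of_le_smul_of_le_jacobson_bot hXfg
    (IsLocalRing.jacobson_eq_maximalIdeal ⊥ bot_ne_top).ge ?_
  intro x hx
  obtain ⟨c', hc'⟩ := (Submodule.mem_span_range_iff_exists_fun k).mp (hspan x hx)
  choose c hc using fun i => hπ (c' i)
  set y := ∑ i, c i • b i with hy
  have hy1 : y ∈ span 𝒪 (Set.range b) :=
    Submodule.sum_mem _ fun i _ => Submodule.smul_mem _ _ (subset_span ⟨i, rfl⟩)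
  have hy2 : y ∈ X := Submodule.sum_mem _ fun i _ => Submodule.smul_mem _ _ (hb i)
  have hred : red (x - y) = 0 := by
    rw [map_sub, hy, map_sum, ← hc', sub_eq_zero]
    refine Finset.sum_congr rfl fun i _ => ?_
    rw [map_smulₛₗ, hc]
    rfl
  have h1 := hkerX (x - y) (X.sub_mem hx hy2) hred
  have : x = y + (x - y) := by abel
  rw [this]
  exact Submodule.add_mem_sup hy1 h1

end

end Fermat.Agent.Ihara
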