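/-
IHARA track, package [H4](ii) (helper1): **Fitting parts** of an endomorphism `η` of a finite
dimensional vector space: `ihfBij η = ⨅ n, range (η ^ n)` (on which `η` is bijective) and
`ihfNil η = ⨆ n, ker (η ^ n)`; functoriality for intertwining maps.
-/
import Mathlib

set_option autoImplicit false
set_option linter.unusedSectionVars false
set_option linter.unusedVariables false

namespace Fermat.Agent.Ihara

open Module

section Fitting

variable {k : Type*} [Field k] {V V' : Type*} [AddCommGroup V] [Module k V] [AddCommGroup V']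
  [Module k V']

/-- the part of `V` on which `η` is bijective -/
def ihfBij (η : V →ₗ[k] V) : Submodule k V := ⨅ n : ℕ, LinearMap.range (η ^ n)

/-- the part of `V` on which `η` is nilpotent -/
def ihfNil (η : V →ₗ[k] V) : Submodule k V := ⨆ n : ℕ, LinearMap.ker (η ^ n)

theorem ihf_mem_bij {η : V →ₗ[k] V} {x : V} : x ∈ ihfBij η ↔ ∀ n : ℕ, ∃ y, (η ^ n) y = x := by
  simp [ihfBij, Submodule.mem_iInf]

theorem ihf_mem_nil {η : V →ₗ[k] V} {x : V} : x ∈ ihfNil η ↔ ∃ n : ℕ, (η ^ n) x = 0 := by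
  rw [ihfNil, Submodule.mem_iSup_of_directed]
  · simp
  · intro m n
    refine ⟨m + n, ?_, ?_⟩
    · intro x hx
      rw [LinearMap.mem_ker] at hx ⊢
      rw [add_comm, pow_add, Module.End.mul_apply, hx, map_zero]
    · intro x hx
      rw [LinearMap.mem_ker] at hx ⊢
      rw [pow_add, Module.End.mul_apply, hx, map_zero]

theorem ihf_isCompl [FiniteDimensional k V] (η : V →ₗ[k] V) : IsCompl (ihfNil η) (ihfBij η) :=
  LinearMap.isCompl_iSup_ker_pow_iInf_range_pow η

theorem ihf_pow_comm {η : V →ₗ[k] V} {η' : V' →ₗ[k] V'} (f : V →ₗ[k] V')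
    (h : ∀ x, f (η x) = η' (f x)) (n : ℕ) (y : V) : (η' ^ n) (f y) = f ((η ^ n) y) := by
  induction n generalizing y with
  | zero => simp
  | succ n ih =>
    rw [pow_succ, pow_succ, Module.End.mul_apply, Module.End.mul_apply, ← h, ih]

/-- an intertwining map preserves the bijective parts -/
theorem ihf_bij_map {η : V →ₗ[k] V} {η' : V' →ₗ[k] V'} (f : V →ₗ[k] V')
    (h : ∀ x, f (η x) = η' (f x)) {x : V} (hx : x ∈ ihfBij η) : f x ∈ ihfBij η' := by
  rw [ihf_mem_bij] at hx ⊢
  intro n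
  obtain ⟨y, rfl⟩ := hx n
  exact ⟨f y, ihf_pow_comm f h n y⟩

/-- an intertwining map preserves the nilpotent parts -/
theorem ihf_nil_map {η : V →ₗ[k] V} {η' : V' →ₗ[k] V'} (f : V →ₗ[k] V')
    (h : ∀ x, f (η x) = η' (f x)) {x : V} (hx : x ∈ ihfNil η) : f x ∈ ihfNil η' := by
  rw [ihf_mem_nil] at hx ⊢
  obtain ⟨n, hn⟩ := hx
  exact ⟨n, by rw [ihf_pow_comm f h, hn, map_zero]⟩

theorem ihf_eta_mem_bij {η : V →ₗ[k] V} {x : V} (hx : x ∈ ihfBij η) : η x ∈ ihfBij η :=
  ihf_bij_map η (fun _ => rfl) hx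

/-- `η` is injective on the bijective part -/
theorem ihf_eta_inj_bij [FiniteDimensional k V] {η : V →ₗ[k] V} {x : V} (hx : x ∈ ihfBij η)
    (h0 : η x = 0) : x = 0 := by
  have h1 : x ∈ ihfNil η := ihf_mem_nil.mpr ⟨1, by simpa using h0⟩
  have := (ihf_isCompl η).disjoint
  exact (Submodule.disjoint_def.mp this) x h1 hx

/-- `η` is surjective on the bijective part -/
theorem ihf_eta_surj_bij [FiniteDimensional k V] {η : V →ₗ[k] V} {x : V} (hx : x ∈ ihfBij η) :
    ∃ y ∈ ihfBij η, η y = x := by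
  obtain ⟨n, hn⟩ := (LinearMap.eventually_iInf_range_pow_eq η).exists
  have hx' := ihf_mem_bij.mp hx (n + 1)
  obtain ⟨z, hz⟩ := hx'
  refine ⟨(η ^ n) z, ?_, ?_⟩
  · show (η ^ n) z ∈ ⨅ m : ℕ, LinearMap.range (η ^ m)
    rw [hn]
    exact ⟨z, rfl⟩
  · rw [← hz, pow_succ', Module.End.mul_apply]

/-- if `f y` lies in the bijective part, `y` can be replaced by an element of the bijective
part -/
theorem ihf_bij_lift [FiniteDimensional k V] [FiniteDimensional k V'] {η : V →ₗ[k] V}
    {η' : V' →ₗ[k] V'} (f : V →ₗ[k] V') (h : ∀ x, f (η x) = η' (f x)) (y : V)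
    (hy : f y ∈ ihfBij η') : ∃ y' ∈ ihfBij η, f y' = f y := by
  have hc := ihf_isCompl η
  obtain ⟨yn, hyn, yb, hyb, hsum⟩ := Submodule.mem_sup.mp
    (by rw [hc.sup_eq_top]; exact Submodule.mem_top : y ∈ ihfNil η ⊔ ihfBij η)
  refine ⟨yb, hyb, ?_⟩
  have h1 : f yn ∈ ihfNil η' := ihf_nil_map f h hyn
  have h2 : f yn ∈ ihfBij η' := by
    have : f yn = f y - f yb := by rw [← hsum, map_add]; abel
    rw [this]
    exact Submodule.sub_mem _ hy (ihf_bij_map f h hyb)
  have h3 : f yn = 0 :=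
    (Submodule.disjoint_def.mp (ihf_isCompl η').disjoint) _ h1 h2
  rw [← hsum, map_add, h3, zero_add]

/-- a subspace on which `η` is injective and which is `η`-stable lies in the bijective part -/
theorem ihf_le_bij_of_inj [FiniteDimensional k V] {η : V →ₗ[k] V} (X : Submodule k V)
    (hst : ∀ x ∈ X, η x ∈ X) (hinj : ∀ x ∈ X, η x = 0 → x = 0) : X ≤ ihfBij η := by
  -- `η` restricted to `X` is injective, hence surjective
  let ηX : X →ₗ[k] X := η.restrict hst
  have hinj' : Function.Injective ηX := by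
    rw [← LinearMap.ker_eq_bot, LinearMap.ker_eq_bot']
    intro x hx
    apply Subtype.ext
    exact hinj x x.2 (congrArg Subtype.val hx)
  have hsurj : Function.Surjective ηX := LinearMap.surjective_of_injective hinj'
  have key : ∀ (n : ℕ) (x : V), x ∈ X → ∃ y, (η ^ n) y = x := by
    intro n
    induction n with
    | zero => exact fun x _ => ⟨x, by simp⟩
    | succ n ih =>
      intro x hx
      obtain ⟨y, hy⟩ := hsurj ⟨x, hx⟩
      obtain ⟨z, hz⟩ := ih y y.2
      refine ⟨z, ?_⟩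
      rw [pow_succ', Module.End.mul_apply, hz]
      exact congrArg Subtype.val hy
  intro x hx
  rw [ihf_mem_bij]
  exact fun n => key n x hx

end Fitting

end Fermat.Agent.Ihara
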