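/-
IHARA track (S43, case (C)), package [H4] part (ii), helper1: **abstract freeness criteria**.

* `ihf_finrank_eq_mul` : a nilpotent operator `u` (`u ^ q = 0`) on a finite-dimensional space with
  `ker u ≤ range (u ^ (q - 1))` has `finrank V = q * finrank (ker u)` (all Jordan blocks have full size);
* `ihf_stable_eq_top` : a `u`-stable submodule `S` with `S ⊔ range u = ⊤` is everything (`u` nilpotent);
* `ihf_cyclic_basis` : an operator `δ` with `δ ^ q = 1`, `(δ - 1) ^ q = 0` and
  `ker (δ - 1) ≤ range ((δ - 1) ^ (q - 1))` admits `w : Fin d → V` such that `(δ ^ j) (w i)` is a basis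
  (`V` is free over the group ring of the cyclic group generated by `δ`), `d = finrank (ker (δ - 1))`;
* `ihf_cyclic_basis_of_res_cor` : the same from restriction / corestriction data.
-/
import Mathlib

set_option autoImplicit false

namespace Fermat.Agent.Ihara

open Module LinearMap Submodule

section Nilp

variable {k V : Type*} [Field k] [AddCommGroup V] [Module k V]

/-- `ker (u ^ j) ≤ ker (u ^ (j + 1))` -/
theorem ihf_ker_pow_le_succ (u : V →ₗ[k] V) (j : ℕ) : ker (u ^ j) ≤ ker (u ^ (j + 1)) := by
  intro x hx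
  rw [LinearMap.mem_ker] at hx ⊢
  rw [pow_succ', Module.End.mul_apply, hx, map_zero]

variable [FiniteDimensional k V]

/-- one step of the kernel filtration -/
theorem ihf_finrank_ker_pow_succ (u : V →ₗ[k] V) (q : ℕ)
    (hker : ker u ≤ range (u ^ (q - 1))) (j : ℕ) (hj : j + 1 ≤ q) :
    finrank k (ker (u ^ (j + 1))) = finrank k (ker (u ^ j)) + finrank k (ker u) := by
  -- the map `u ^ j : ker (u ^ (j+1)) → ker u`
  let f : ker (u ^ (j + 1)) →ₗ[k] ker u :=
    LinearMap.codRestrict (ker u) ((u ^ j).comp (ker (u ^ (j + 1))).subtype) (by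
      intro x
      rw [LinearMap.mem_ker, LinearMap.comp_apply, Submodule.subtype_apply,
        ← Module.End.mul_apply, ← pow_succ']
      exact x.2)
  have hf_apply : ∀ x : ker (u ^ (j + 1)), ((f x : ker u) : V) = (u ^ j) (x : V) := fun x => rfl
  have hsurj : range f = ⊤ := by
    rw [LinearMap.range_eq_top]
    rintro ⟨v, hv⟩
    obtain ⟨w, hw⟩ := hker hv
    have hx : (u ^ (q - 1 - j)) w ∈ ker (u ^ (j + 1)) := by
      rw [LinearMap.mem_ker, ← Module.End.mul_apply, ← pow_add]
      have : j + 1 + (q - 1 - j) = (q - 1) + 1 := by omega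
      rw [this, pow_succ', Module.End.mul_apply, hw]
      exact hv
    refine ⟨⟨_, hx⟩, ?_⟩
    apply Subtype.ext
    rw [hf_apply]
    show (u ^ j) ((u ^ (q - 1 - j)) w) = v
    rw [← Module.End.mul_apply, ← pow_add]
    have : j + (q - 1 - j) = q - 1 := by omega
    rw [this, hw]
  have hkerf : ker f = (ker (u ^ j)).comap (ker (u ^ (j + 1))).subtype := by
    ext x
    rw [LinearMap.mem_ker, Submodule.mem_comap, LinearMap.mem_ker, Submodule.subtype_apply]
    constructor
    · intro h
      have := congrArg (fun y : ker u => (y : V)) h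
      simpa [hf_apply] using this
    · intro h
      apply Subtype.ext
      rw [hf_apply, h]
      rfl
  have h1 := LinearMap.finrank_range_add_finrank_ker f
  rw [hsurj, finrank_top, hkerf] at h1
  have h2 : finrank k ((ker (u ^ j)).comap (ker (u ^ (j + 1))).subtype) = finrank k (ker (u ^ j)) :=
    LinearEquiv.finrank_eq (Submodule.comapSubtypeEquivOfLe (ihf_ker_pow_le_succ u j))
  rw [h2] at h1
  omega

/-- all Jordan blocks have full size: `finrank (ker (u ^ j)) = j * finrank (ker u)` for `j ≤ q` -/
theorem ihf_finrank_ker_pow (u : V →ₗ[k] V) (q : ℕ)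
    (hker : ker u ≤ range (u ^ (q - 1))) (j : ℕ) (hj : j ≤ q) :
    finrank k (ker (u ^ j)) = j * finrank k (ker u) := by
  induction j with
  | zero =>
    rw [pow_zero, zero_mul]
    have : ker (1 : V →ₗ[k] V) = ⊥ := by
      ext x
      simp
    rw [this, finrank_bot]
  | succ j ih =>
    rw [ihf_finrank_ker_pow_succ u q hker j hj, ih (by omega)]
    ring

/-- **full Jordan blocks** -/
theorem ihf_finrank_eq_mul (u : V →ₗ[k] V) (q : ℕ) (hu : u ^ q = 0)
    (hker : ker u ≤ range (u ^ (q - 1))) :
    finrank k V = q * finrank k (ker u) := by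
  have h := ihf_finrank_ker_pow u q hker q le_rfl
  rw [hu] at h
  have : ker (0 : V →ₗ[k] V) = ⊤ := LinearMap.ker_zero
  rw [this, finrank_top] at h
  exact h

omit [FiniteDimensional k V] in
/-- Nakayama for a nilpotent operator -/
theorem ihf_stable_eq_top (u : V →ₗ[k] V) (q : ℕ) (hu : u ^ q = 0) (S : Submodule k V)
    (hS : S.map u ≤ S) (htop : S ⊔ range u = ⊤) : S = ⊤ := by
  have hSpow : ∀ m : ℕ, S.map (u ^ m) ≤ S := by
    intro m
    induction m with
    | zero =>
      rw [pow_zero]
      intro x hx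
      obtain ⟨y, hy, rfl⟩ := hx
      exact hy
    | succ m ih =>
      rw [pow_succ', Module.End.mul_eq_comp, Submodule.map_comp]
      exact (Submodule.map_mono ih).trans hS
  have key : ∀ m : ℕ, S ⊔ range (u ^ m) = ⊤ := by
    intro m
    induction m with
    | zero =>
      rw [pow_zero]
      have : range (1 : V →ₗ[k] V) = ⊤ := LinearMap.range_eq_top.mpr fun x => ⟨x, rfl⟩
      rw [this, sup_top_eq]
    | succ m ih =>
      rw [eq_top_iff, ← ih]
      refine sup_le le_sup_left ?_
      -- range (u^m) = (u^m) ⊤ = (u^m) (S ⊔ range u)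
      have h1 : range (u ^ m) = (S ⊔ range u).map (u ^ m) := by
        rw [htop, Submodule.map_top]
      rw [h1, Submodule.map_sup]
      refine sup_le ((hSpow m).trans le_sup_left) ?_
      have h2 : (range u).map (u ^ m) = range (u ^ (m + 1)) := by
        rw [LinearMap.range_eq_map, ← Submodule.map_comp, LinearMap.range_eq_map, pow_succ,
          Module.End.mul_eq_comp]
      rw [h2]
      exact le_sup_right
  have := key q
  rw [hu] at this
  have h0 : range (0 : V →ₗ[k] V) = ⊥ := LinearMap.range_zero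
  rw [h0, sup_bot_eq] at this
  exact this

/-- **cyclic freeness criterion** -/
theorem ihf_cyclic_basis (δ : V →ₗ[k] V) (q : ℕ) (hq : 0 < q) (hδq : δ ^ q = 1) (hu : (δ - 1) ^ q = 0)
    (hker : ker (δ - 1) ≤ range ((δ - 1) ^ (q - 1))) :
    ∃ (d : ℕ) (w : Fin d → V), d = finrank k (ker (δ - 1)) ∧
      ∃ b : Basis (Fin d × Fin q) k V, ∀ i j, b (i, j) = (δ ^ (j : ℕ)) (w i) := by
  classical
  set u : V →ₗ[k] V := δ - 1 with hudef
  have hdim := ihf_finrank_eq_mul u q hu hker
  -- `d = finrank (V ⧸ range u) = finrank (ker u)`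
  have hd : finrank k (V ⧸ range u) = finrank k (ker u) := by
    have h1 := LinearMap.finrank_range_add_finrank_ker u
    have h2 := Submodule.finrank_quotient_add_finrank (range u)
    omega
  set d := finrank k (V ⧸ range u) with hddef
  let bq : Basis (Fin d) k (V ⧸ range u) := Module.finBasis k (V ⧸ range u)
  choose w hw using fun i => Submodule.mkQ_surjective (range u) (bq i)
  refine ⟨d, w, hd, ?_⟩
  let fam : Fin d × Fin q → V := fun x => (δ ^ (x.2 : ℕ)) (w x.1)
  set S : Submodule k V := span k (Set.range fam) with hSdef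
  have hq0 : q ≠ 0 := hq.ne'
  have hwS : ∀ i, w i ∈ S := fun i => by
    have : fam (i, ⟨0, Nat.pos_of_ne_zero hq0⟩) = w i := by
      show (δ ^ 0) (w i) = w i
      rw [pow_zero, Module.End.one_apply]
    rw [← this]
    exact subset_span ⟨_, rfl⟩
  -- `S` is `δ`-stable
  have hSδ : S.map δ ≤ S := by
    rw [hSdef, Submodule.map_span, span_le]
    rintro _ ⟨_, ⟨⟨i, j⟩, rfl⟩, rfl⟩
    show δ ((δ ^ (j : ℕ)) (w i)) ∈ S
    rw [← Module.End.mul_apply, ← pow_succ']
    by_cases hj : (j : ℕ) + 1 < q
    · exact subset_span ⟨(i, ⟨(j : ℕ) + 1, hj⟩), rfl⟩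
    · have : (j : ℕ) + 1 = q := by have := j.2; omega
      rw [this, hδq, Module.End.one_apply]
      exact hwS i
  have hSu : S.map u ≤ S := by
    rintro _ ⟨x, hx, rfl⟩
    rw [hudef, LinearMap.sub_apply, Module.End.one_apply]
    exact S.sub_mem (hSδ ⟨x, hx, rfl⟩) hx
  have htop : S ⊔ range u = ⊤ := by
    rw [eq_top_iff]
    intro x _
    -- the class of `x` is a combination of the `bq i = mkQ (w i)`
    have hx : Submodule.mkQ (range u) x ∈ span k (Set.range bq) := by
      rw [bq.span_eq]; exact mem_top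
    have hle : span k (Set.range bq) ≤ (S ⊔ range u).map (Submodule.mkQ (range u)) := by
      rw [span_le]
      rintro _ ⟨i, rfl⟩
      exact ⟨w i, mem_sup_left (hwS i), hw i⟩
    obtain ⟨y, hy, hyx⟩ := hle hx
    have hdiff : x - y ∈ range u := by
      rw [← Submodule.Quotient.mk_eq_zero, Submodule.Quotient.mk_sub]
      have : Submodule.Quotient.mk (p := range u) y = Submodule.Quotient.mk x := hyx
      rw [this, sub_self]
    have : x = y + (x - y) := by abel
    rw [this]
    exact (S ⊔ range u).add_mem hy (mem_sup_right hdiff)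
  have hStop : S = ⊤ := ihf_stable_eq_top u q hu S hSu htop
  have hcard : Fintype.card (Fin d × Fin q) = finrank k V := by
    rw [Fintype.card_prod, Fintype.card_fin, Fintype.card_fin, hdim, ← hd, mul_comm]
  refine ⟨basisOfTopLeSpanOfCardEqFinrank fam (by rw [← hSdef, hStop]) hcard, fun i j => ?_⟩
  rw [coe_basisOfTopLeSpanOfCardEqFinrank]

end Nilp

end Fermat.Agent.Ihara
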