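/-
IHARA track, package [H4](ii) (helper1): **abstract linear algebra of the freeness argument**.

* `ihf_geom_sum_eq`: `∑_{j<p} δ^j = (δ - 1)^(p-1)` in characteristic `p`;
* `ihf_ker_pow_pred_eq_range`: full Jordan blocks ⇒ `ker u^(q-1) = range u`;
* `ihf_cyclic_step`: the cyclic step (dimension count and kernel of `cor` on the bijective parts);
* `ihf_nakayama`: Nakayama for a finite family of commuting nilpotent operators;
* `ihf_descent`: surjectivity of `cor₁` from that of `cor₂ ∘ cor₁` (Nakayama descent).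
-/
import Mathlib
import Fermat.Agent.Lib.Ihara.Fr.Jordan
import Fermat.Agent.Lib.Ihara.Fr.Fitting

set_option autoImplicit false
set_option linter.unusedSectionVars false
set_option linter.unusedVariables false

namespace Fermat.Agent.Ihara

open Module LinearMap Polynomial

/-! ### The norm in characteristic `p` -/

section Norm

variable {k : Type*} [Field k] {p : ℕ} [hp : Fact p.Prime] [CharP k p]
  {V : Type*} [AddCommGroup V] [Module k V]

theorem ihf_geom_sum_poly :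
    (∑ j ∈ Finset.range p, (X : k[X]) ^ j) = (X - 1) ^ (p - 1) := by
  have h1 : (∑ j ∈ Finset.range p, (X : k[X]) ^ j) * (X - 1) = (X - 1) ^ (p - 1) * (X - 1) := by
    rw [geom_sum_mul, ← pow_succ, Nat.sub_add_cancel hp.out.one_le, sub_pow_char, one_pow]
  have h2 : (X - 1 : k[X]) ≠ 0 := X_sub_C_ne_zero (1 : k)
  exact mul_right_cancel₀ h2 h1

/-- `∑_{j<p} δ^j = (δ - 1)^(p-1)` in characteristic `p` -/
theorem ihf_geom_sum_eq (δ : V →ₗ[k] V) :
    (∑ j ∈ Finset.range p, δ ^ j) = (δ - 1) ^ (p - 1) := by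
  have h := congrArg (aeval δ) (ihf_geom_sum_poly (k := k) (p := p))
  simpa using h

/-- `(δ - 1)^p = δ^p - 1` in characteristic `p` -/
theorem ihf_sub_one_pow (δ : V →ₗ[k] V) : (δ - 1) ^ p = δ ^ p - 1 := by
  have h0 : ((X : k[X]) - 1) ^ p = X ^ p - 1 := by
    rw [sub_pow_char, one_pow]
  have h := congrArg (aeval δ) h0
  simpa using h

end Norm

/-! ### Full Jordan blocks -/

section Jordan

variable {k V : Type*} [Field k] [AddCommGroup V] [Module k V] [FiniteDimensional k V]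

theorem ihf_ker_pow_pred_eq_range (u : V →ₗ[k] V) (q : ℕ) (hq : 0 < q) (hu : u ^ q = 0)
    (hker : ker u ≤ range (u ^ (q - 1))) : ker (u ^ (q - 1)) = range u := by
  symm
  apply Submodule.eq_of_le_of_finrank_eq
  · rintro x ⟨y, rfl⟩
    rw [LinearMap.mem_ker, ← Module.End.mul_apply, ← pow_succ, Nat.sub_add_cancel hq, hu]
    rfl
  · have h1 := ihf_finrank_ker_pow u q hker (q - 1) (Nat.sub_le q 1)
    have h2 := ihf_finrank_eq_mul u q hu hker
    have h3 := LinearMap.finrank_range_add_finrank_ker u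
    rw [h1]
    have h4 : q * finrank k (ker u) = (q - 1) * finrank k (ker u) + finrank k (ker u) := by
      conv_lhs => rw [← Nat.sub_add_cancel hq]
      ring
    omega

end Jordan

/-! ### The cyclic step -/

section Step

variable {k : Type*} [Field k] {p : ℕ} [hp : Fact p.Prime] [CharP k p]
  {V V' : Type*} [AddCommGroup V] [Module k V] [AddCommGroup V'] [Module k V']
  [FiniteDimensional k V] [FiniteDimensional k V']
  (δ η' : V' →ₗ[k] V') (η : V →ₗ[k] V) (res : V →ₗ[k] V') (cor : V' →ₗ[k] V)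
  (hδp : δ ^ p = 1)
  (hδη : ∀ x, δ (η' x) = η' (δ x))
  (hres : ∀ x, res (η x) = η' (res x))
  (hcor : ∀ x, cor (η' x) = η (cor x))
  (hrc : ∀ x, res (cor x) = ∑ j ∈ Finset.range p, (δ ^ j) x)
  (hext : ∀ φ, δ φ = φ → ∃ ψ, res ψ = η' φ)
  (hker : ∀ ψ, res ψ = 0 → η ψ = 0)
  (hcorW : ∀ x ∈ ihfBij η, ∃ y ∈ ihfBij η', cor y = x)
  (hδres : ∀ ψ, δ (res ψ) = res ψ)

include hδη in
theorem ihf_step_delta_mem {x : V'} (hx : x ∈ ihfBij η') : δ x ∈ ihfBij η' :=
  ihf_bij_map δ (fun y => hδη y) hx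

/-- `δ` restricted to the bijective part -/
noncomputable def ihfStepDelta : ↥(ihfBij η') →ₗ[k] ↥(ihfBij η') :=
  δ.restrict fun _ hx => ihf_step_delta_mem δ η' hδη hx

include hδp in
theorem ihfStepDelta_pow : (ihfStepDelta δ η' hδη) ^ p = 1 := by
  apply LinearMap.ext
  intro x
  apply Subtype.ext
  have key : ∀ (n : ℕ) (x : ↥(ihfBij η')),
      ((((ihfStepDelta δ η' hδη) ^ n) x : ↥(ihfBij η')) : V') = (δ ^ n) (x : V') := by
    intro n
    induction n with
    | zero => intro x; simp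
    | succ n ih =>
      intro x
      rw [pow_succ, Module.End.mul_apply, ih, pow_succ, Module.End.mul_apply]
      rfl
  rw [key, hδp]
  rfl

include hδp in
theorem ihfStepDelta_sub_one_pow : (ihfStepDelta δ η' hδη - 1) ^ p = 0 := by
  rw [ihf_sub_one_pow, ihfStepDelta_pow δ η' hδp hδη, sub_self]

include hδη hres hrc hext hker hcorW hδres in
/-- invariants in the bijective part are norms -/
theorem ihf_step_ker_le :
    ker (ihfStepDelta δ η' hδη - 1) ≤ range ((ihfStepDelta δ η' hδη - 1) ^ (p - 1)) := by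
  intro φ hφ
  rw [LinearMap.mem_ker, LinearMap.sub_apply, Module.End.one_apply, sub_eq_zero] at hφ
  have hφ' : δ (φ : V') = φ := congrArg Subtype.val hφ
  -- `φ = η' φ'` with `φ'` invariant in the bijective part
  obtain ⟨φ', hφ'mem, hφ'eq⟩ := ihf_eta_surj_bij φ.2
  have hinv : δ φ' = φ' := by
    have h1 : δ φ' - φ' ∈ ihfBij η' :=
      Submodule.sub_mem _ (ihf_step_delta_mem δ η' hδη hφ'mem) hφ'mem
    have h2 : η' (δ φ' - φ') = 0 := by
      rw [map_sub, ← hδη, hφ'eq, hφ', sub_self]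
    exact sub_eq_zero.mp (ihf_eta_inj_bij h1 h2)
  -- `φ = res ψ`
  obtain ⟨ψ, hψ⟩ := hext φ' hinv
  rw [hφ'eq] at hψ
  -- may assume `ψ` in the bijective part
  obtain ⟨ψ', hψ'mem, hψ'eq⟩ := ihf_bij_lift res hres ψ (by rw [hψ]; exact φ.2)
  -- `ψ' = cor y`
  obtain ⟨y, hymem, hy⟩ := hcorW ψ' hψ'mem
  refine ⟨⟨y, hymem⟩, ?_⟩
  apply Subtype.ext
  have key : ∀ (f : ↥(ihfBij η') →ₗ[k] ↥(ihfBij η')) (g : V' →ₗ[k] V')
      (hfg : ∀ x : ↥(ihfBij η'), ((f x : ↥(ihfBij η')) : V') = g (x : V')) (n : ℕ)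
      (x : ↥(ihfBij η')), (((f ^ n) x : ↥(ihfBij η')) : V') = (g ^ n) (x : V') := by
    intro f g hfg n
    induction n with
    | zero => intro x; simp
    | succ n ih =>
      intro x
      rw [pow_succ, Module.End.mul_apply, ih, pow_succ, Module.End.mul_apply, hfg]
  have h1 := key (ihfStepDelta δ η' hδη - 1) (δ - 1) (fun x => rfl) (p - 1) ⟨y, hymem⟩
  rw [h1, ← ihf_geom_sum_eq (k := k) (p := p) δ]
  show (∑ j ∈ Finset.range p, δ ^ j) y = (φ : V')
  rw [LinearMap.sum_apply, ← hrc, hy, hψ'eq, hψ]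

include hδp hδη hres hcor hrc hext hker hcorW hδres in
/-- **the cyclic step, dimension count**: `dim W' = p * dim W` -/
theorem ihf_step_finrank :
    finrank k ↥(ihfBij η') = p * finrank k ↥(ihfBij η) := by
  have h1 := ihf_finrank_eq_mul (ihfStepDelta δ η' hδη - 1) p
    (ihfStepDelta_sub_one_pow δ η' hδp hδη)
    (ihf_step_ker_le δ η' η res cor hδη hres hrc hext hker hcorW hδres)
  rw [h1]
  congr 1
  -- `res : W ≃ ker (δ_W - 1)`
  have hmem : ∀ x : ↥(ihfBij η), res (x : V) ∈ ihfBij η' := fun x => ihf_bij_map res hres x.2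
  let f : ↥(ihfBij η) →ₗ[k] ↥(ker (ihfStepDelta δ η' hδη - 1)) :=
    LinearMap.codRestrict _ ((res.comp (ihfBij η).subtype).codRestrict (ihfBij η') hmem)
      (by
        intro x
        rw [LinearMap.mem_ker, LinearMap.sub_apply, Module.End.one_apply, sub_eq_zero]
        apply Subtype.ext
        exact hδres _)
  have hfinj : Function.Injective f := by
    rw [← LinearMap.ker_eq_bot, LinearMap.ker_eq_bot']
    intro x hx
    have h2 : res (x : V) = 0 := congrArg (fun y => ((y : ↥(ihfBij η')) : V')) (congrArg Subtype.val hx)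
    apply Subtype.ext
    exact ihf_eta_inj_bij x.2 (hker _ h2)
  have hfsurj : Function.Surjective f := by
    intro φ
    have hφ := φ.2
    obtain ⟨y, hy⟩ := ihf_step_ker_le δ η' η res cor hδη hres hrc hext hker hcorW hδres hφ
    -- `φ = N y = res (cor y)`
    have key : ∀ (f : ↥(ihfBij η') →ₗ[k] ↥(ihfBij η')) (g : V' →ₗ[k] V')
        (hfg : ∀ x : ↥(ihfBij η'), ((f x : ↥(ihfBij η')) : V') = g (x : V')) (n : ℕ)
        (x : ↥(ihfBij η')), (((f ^ n) x : ↥(ihfBij η')) : V') = (g ^ n) (x : V') := by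
      intro f g hfg n
      induction n with
      | zero => intro x; simp
      | succ n ih =>
        intro x
        rw [pow_succ, Module.End.mul_apply, ih, pow_succ, Module.End.mul_apply, hfg]
    have h1 := key (ihfStepDelta δ η' hδη - 1) (δ - 1) (fun x => rfl) (p - 1) y
    rw [hy, ← ihf_geom_sum_eq (k := k) (p := p) δ, LinearMap.sum_apply, ← hrc] at h1
    refine ⟨⟨cor (y : V'), ihf_bij_map cor hcor y.2⟩, ?_⟩
    apply Subtype.ext
    apply Subtype.ext
    exact h1.symm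
  exact (LinearEquiv.ofBijective f ⟨hfinj, hfsurj⟩).finrank_eq.symm

include hδp hδη hres hrc hext hker hcorW hδres in
/-- **the cyclic step, kernel of `cor`**: `ker (cor | W') = (δ - 1) W'` -/
theorem ihf_step_ker_cor {y : V'} (hy : y ∈ ihfBij η') (h0 : cor y = 0) :
    ∃ z ∈ ihfBij η', y = δ z - z := by
  have hrange := ihf_ker_pow_pred_eq_range (ihfStepDelta δ η' hδη - 1) p hp.out.pos
    (ihfStepDelta_sub_one_pow δ η' hδp hδη)
    (ihf_step_ker_le δ η' η res cor hδη hres hrc hext hker hcorW hδres)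
  have key : ∀ (f : ↥(ihfBij η') →ₗ[k] ↥(ihfBij η')) (g : V' →ₗ[k] V')
      (hfg : ∀ x : ↥(ihfBij η'), ((f x : ↥(ihfBij η')) : V') = g (x : V')) (n : ℕ)
      (x : ↥(ihfBij η')), (((f ^ n) x : ↥(ihfBij η')) : V') = (g ^ n) (x : V') := by
    intro f g hfg n
    induction n with
    | zero => intro x; simp
    | succ n ih =>
      intro x
      rw [pow_succ, Module.End.mul_apply, ih, pow_succ, Module.End.mul_apply, hfg]
  have h1 : (⟨y, hy⟩ : ↥(ihfBij η')) ∈ ker ((ihfStepDelta δ η' hδη - 1) ^ (p - 1)) := by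
    rw [LinearMap.mem_ker]
    apply Subtype.ext
    rw [key (ihfStepDelta δ η' hδη - 1) (δ - 1) (fun x => rfl) (p - 1) ⟨y, hy⟩,
      ← ihf_geom_sum_eq (k := k) (p := p) δ, LinearMap.sum_apply, ← hrc]
    show res (cor y) = 0
    rw [h0, map_zero]
  rw [hrange] at h1
  obtain ⟨z, hz⟩ := h1
  refine ⟨z, z.2, ?_⟩
  have := congrArg Subtype.val hz
  exact this.symm

end Step

/-! ### Nakayama for commuting nilpotent operators -/

section Nakayama

variable {k V : Type*} [Field k] [AddCommGroup V] [Module k V]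

/-- Nakayama for one nilpotent operator -/
theorem ihf_nakayama_one (u : V →ₗ[k] V) (hnil : ∃ n : ℕ, u ^ n = 0) (W C : Submodule k V)
    (hCu : C.map u ≤ C) (h : W ≤ C ⊔ W.map u) : W ≤ C := by
  have hCpow : ∀ m : ℕ, C.map (u ^ m) ≤ C := by
    intro m
    induction m with
    | zero =>
      rw [pow_zero]
      rintro x ⟨y, hy, rfl⟩
      exact hy
    | succ m ih =>
      rw [pow_succ', Module.End.mul_eq_comp, Submodule.map_comp]
      exact (Submodule.map_mono ih).trans hCu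
  have key : ∀ m : ℕ, W ≤ C ⊔ W.map (u ^ m) := by
    intro m
    induction m with
    | zero =>
      rw [pow_zero]
      intro x hx
      exact Submodule.mem_sup_right ⟨x, hx, rfl⟩
    | succ m ih =>
      refine ih.trans (sup_le le_sup_left ?_)
      refine (Submodule.map_mono h).trans ?_
      rw [Submodule.map_sup]
      refine sup_le ((hCpow m).trans le_sup_left) ?_
      have h2 : (W.map u).map (u ^ m) = W.map (u ^ (m + 1)) := by
        rw [← Submodule.map_comp, pow_succ, Module.End.mul_eq_comp]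
      rw [h2]
      exact le_sup_right
  obtain ⟨n, hn⟩ := hnil
  have := key n
  rw [hn] at this
  have h0 : W.map (0 : V →ₗ[k] V) = ⊥ := Submodule.map_zero _
  rwa [h0, sup_bot_eq] at this

/-- **Nakayama** for a finite family of commuting nilpotent operators -/
theorem ihf_nakayama {ι : Type*} [DecidableEq ι] (u : ι → V →ₗ[k] V)
    (hcomm : ∀ i j x, u i (u j x) = u j (u i x)) (W : Submodule k V) (S : Finset ι) :
    (∀ i ∈ S, ∃ n : ℕ, u i ^ n = 0) → (∀ i ∈ S, W.map (u i) ≤ W) →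
    ∀ C : Submodule k V, (∀ i ∈ S, C.map (u i) ≤ C) →
      W ≤ C ⊔ ⨆ i ∈ S, W.map (u i) → W ≤ C := by
  induction S using Finset.induction_on with
  | empty =>
    intro _ _ C _ h
    simpa using h
  | insert j S' hj ih =>
    intro hnil hW C hC h
    have hnil' : ∀ i ∈ S', ∃ n : ℕ, u i ^ n = 0 := fun i hi => hnil i (Finset.mem_insert_of_mem hi)
    have hW' : ∀ i ∈ S', W.map (u i) ≤ W := fun i hi => hW i (Finset.mem_insert_of_mem hi)
    have hC' : ∀ i ∈ S', C.map (u i) ≤ C := fun i hi => hC i (Finset.mem_insert_of_mem hi)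
    refine ih hnil' hW' C hC' ?_
    -- `C' = C ⊔ ⨆ i ∈ S', u i W` is `u j`-stable
    set C' := C ⊔ ⨆ i ∈ S', W.map (u i) with hC'def
    have hC'j : C'.map (u j) ≤ C' := by
      rw [hC'def, Submodule.map_sup]
      refine sup_le ((hC j (Finset.mem_insert_self j S')).trans le_sup_left) ?_
      rw [Submodule.map_iSup]
      refine iSup_le fun i => ?_
      rw [Submodule.map_iSup]
      refine iSup_le fun hi => ?_
      refine le_trans ?_ (le_sup_right)
      refine le_trans ?_ (le_iSup₂ (f := fun i (_ : i ∈ S') => W.map (u i)) i hi)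
      rintro x ⟨y, ⟨w, hw, rfl⟩, rfl⟩
      refine ⟨u j w, hW j (Finset.mem_insert_self j S') ⟨w, hw, rfl⟩, ?_⟩
      exact hcomm i j w
    refine ihf_nakayama_one (u j) (hnil j (Finset.mem_insert_self j S')) W C' hC'j ?_
    refine h.trans ?_
    rw [Finset.iSup_insert, hC'def]
    refine sup_le (le_sup_left.trans le_sup_left) (sup_le le_sup_right ?_)
    exact le_sup_right.trans le_sup_left

end Nakayama

/-! ### Nakayama descent -/

section Descent

variable {k : Type*} [Field k] {V' V V₂ : Type*} [AddCommGroup V'] [Module k V']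
  [AddCommGroup V] [Module k V] [AddCommGroup V₂] [Module k V₂] {ι : Type*} [DecidableEq ι]

/-- **Nakayama descent**: if `cor₂ ∘ cor₁ : W' → W₂` is onto and the kernel of `cor₂` on `W` lies in
`∑ u_i W`, then `cor₁ : W' → W` is onto -/
theorem ihf_descent (cor₁ : V' →ₗ[k] V) (cor₂ : V →ₗ[k] V₂) (W' : Submodule k V')
    (W : Submodule k V) (W₂ : Submodule k V₂) (S : Finset ι) (u : ι → V →ₗ[k] V)
    (hnil : ∀ i ∈ S, ∃ n : ℕ, u i ^ n = 0) (hcomm : ∀ i j x, u i (u j x) = u j (u i x))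
    (hWu : ∀ i ∈ S, W.map (u i) ≤ W)
    (h12 : ∀ x₂ ∈ W₂, ∃ y ∈ W', cor₂ (cor₁ y) = x₂)
    (h1 : W'.map cor₁ ≤ W) (h2 : W.map cor₂ ≤ W₂)
    (hker : ∀ x ∈ W, cor₂ x = 0 → x ∈ ⨆ i ∈ S, W.map (u i))
    (hst : ∀ i ∈ S, (W'.map cor₁).map (u i) ≤ W'.map cor₁) : W ≤ W'.map cor₁ := by
  refine ihf_nakayama u hcomm W S hnil hWu (W'.map cor₁) hst ?_
  intro x hx
  obtain ⟨y, hy, hxy⟩ := h12 (cor₂ x) (h2 ⟨x, hx, rfl⟩)
  have h3 : x = cor₁ y + (x - cor₁ y) := by abel
  rw [h3]
  refine Submodule.add_mem_sup ⟨y, hy, rfl⟩ ?_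
  refine hker _ (Submodule.sub_mem _ hx (h1 ⟨y, hy, rfl⟩)) ?_
  rw [map_sub, hxy, sub_self]

/-- **propagation of the kernel**: the kernel of `cor₂ ∘ cor₁` on `W'` -/
theorem ihf_ker_comp (cor₁ : V' →ₗ[k] V) (cor₂ : V →ₗ[k] V₂) (W' : Submodule k V')
    (W : Submodule k V) (S : Finset ι) (u : ι → V →ₗ[k] V) (u' : ι → V' →ₗ[k] V')
    (δ : V' →ₗ[k] V')
    (hequiv : ∀ i y, cor₁ (u' i y) = u i (cor₁ y))
    (hW'u : ∀ i ∈ S, W'.map (u' i) ≤ W')
    (hsurj : W ≤ W'.map cor₁) (h1 : W'.map cor₁ ≤ W)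
    (hker₂ : ∀ x ∈ W, cor₂ x = 0 → x ∈ ⨆ i ∈ S, W.map (u i))
    (hker₁ : ∀ y ∈ W', cor₁ y = 0 → ∃ z ∈ W', y = δ z - z)
    {y : V'} (hy : y ∈ W') (h0 : cor₂ (cor₁ y) = 0) :
    y ∈ (⨆ i ∈ S, W'.map (u' i)) ⊔ W'.map (δ - 1) := by
  have h3 := hker₂ (cor₁ y) (h1 ⟨y, hy, rfl⟩) h0
  have h4 : (⨆ i ∈ S, W.map (u i)) ≤ (⨆ i ∈ S, W'.map (u' i)).map cor₁ := by
    refine iSup₂_le fun i hi => ?_
    rintro x ⟨w, hw, rfl⟩
    obtain ⟨w', hw', rfl⟩ := hsurj hw
    exact ⟨u' i w', Submodule.mem_iSup_of_mem i (Submodule.mem_iSup_of_mem hi ⟨w', hw', rfl⟩),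
      hequiv i w'⟩
  obtain ⟨y₁, hy₁, hy₁eq⟩ := h4 h3
  have hy₁W : y₁ ∈ W' := by
    have : (⨆ i ∈ S, W'.map (u' i)) ≤ W' := iSup₂_le fun i hi => hW'u i hi
    exact this hy₁
  obtain ⟨z, hz, hzeq⟩ := hker₁ (y - y₁) (Submodule.sub_mem _ hy hy₁W)
    (by rw [map_sub, hy₁eq, sub_self])
  have h5 : y = y₁ + (y - y₁) := by abel
  rw [h5]
  refine Submodule.add_mem_sup hy₁ ⟨z, hz, ?_⟩
  rw [hzeq]
  rfl

end Descent

end Fermat.Agent.Ihara
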