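/-
IHARA track, package [H4](ii) (helper1): **abstract freeness over `k[G/H]`** by counting.

`G` a finite commutative group acting on a finite dimensional `k`-space `V` through `δ`, trivially
on `H`, with `δ d - 1` nilpotent.
* `ihf_translates_span`: Nakayama — if `U ≤ span z + ∑_d (δ d - 1) U` then the translates
  `δ (out ḡ) (z i)` span `U`;
* `ihf_free_count`: if `W = U ⊕ Z` (stable summands), `cor : W → W₂` is `G`-invariant with kernel
  `∑_d (δ d - 1) W` and `dim W = |G/H| dim (cor W)`, then `U` has a basis of translates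
  `δ (out ḡ) (z i)`.
-/
import Mathlib
import Fermat.Agent.Lib.Ihara.Fr.Abs

set_option autoImplicit false
set_option linter.unusedSectionVars false
set_option linter.unusedVariables false
set_option linter.style.haveILetI false

namespace Fermat.Agent.Ihara

open Module Submodule

section

variable {k V V₂ : Type*} [Field k] [AddCommGroup V] [Module k V] [FiniteDimensional k V]
  [AddCommGroup V₂] [Module k V₂]
  {G : Type*} [CommGroup G] [Fintype G] [DecidableEq G] (H : Subgroup G)
  (δ : G → V →ₗ[k] V)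
  (hδmul : ∀ d d' x, δ (d * d') x = δ d (δ d' x))
  (hδH : ∀ h ∈ H, ∀ x, δ h x = x)
  (hnil : ∀ d, ∃ n : ℕ, (δ d - 1) ^ n = 0)

/-- the augmentation submodule `∑_d (δ d - 1) U` -/
def ihfAug (U : Submodule k V) : Submodule k V :=
  ⨆ d ∈ (Finset.univ : Finset G), U.map (δ d - 1)

theorem ihfAug_le {U : Submodule k V} (hU : ∀ d, ∀ x ∈ U, δ d x ∈ U) : ihfAug δ U ≤ U := by
  refine iSup₂_le fun d _ => ?_
  rintro _ ⟨x, hx, rfl⟩
  rw [LinearMap.sub_apply, Module.End.one_apply]
  exact U.sub_mem (hU d x hx) hx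

theorem ihfAug_sup (U Z : Submodule k V) : ihfAug δ (U ⊔ Z) = ihfAug δ U ⊔ ihfAug δ Z := by
  unfold ihfAug
  simp only [Submodule.map_sup]
  rw [← iSup_sup_eq]
  congr 1
  funext d
  rw [iSup_sup_eq]

include hδmul hδH in
theorem ihf_delta_out (g : G) (x : V) :
    δ g x = δ (Quotient.out (g : G ⧸ H)) x := by
  have h : ((Quotient.out (g : G ⧸ H) : G) : G ⧸ H) = g := QuotientGroup.out_eq' _
  rw [QuotientGroup.eq] at h
  have e : g = Quotient.out (g : G ⧸ H) * ((Quotient.out (g : G ⧸ H))⁻¹ * g) := by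
    rw [mul_inv_cancel_left]
  conv_lhs => rw [e]
  rw [hδmul, hδH _ h]

include hδmul hδH hnil in
/-- **Nakayama**: translates of generators modulo the augmentation submodule span -/
theorem ihf_translates_span {ι : Type*} [Fintype ι] (U : Submodule k V)
    (hU : ∀ d, ∀ x ∈ U, δ d x ∈ U) (z : ι → V)
    (hspan : U ≤ span k (Set.range z) ⊔ ihfAug δ U) :
    U ≤ span k (Set.range fun x : ι × (G ⧸ H) => δ (Quotient.out x.2) (z x.1)) := by
  set C := span k (Set.range fun x : ι × (G ⧸ H) => δ (Quotient.out x.2) (z x.1)) with hC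
  have hCδ : ∀ d, ∀ x ∈ C, δ d x ∈ C := by
    intro d x hx
    induction hx using Submodule.span_induction with
    | mem x hx =>
      obtain ⟨⟨i, g⟩, rfl⟩ := hx
      show δ d (δ (Quotient.out g) (z i)) ∈ C
      rw [← hδmul, ihf_delta_out H δ hδmul hδH]
      exact subset_span ⟨(i, _), rfl⟩
    | zero => rw [map_zero]; exact C.zero_mem
    | add x y _ _ hx hy => rw [map_add]; exact C.add_mem hx hy
    | smul a x _ hx => rw [map_smul]; exact C.smul_mem a hx
  have hzC : span k (Set.range z) ≤ C := by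
    rw [span_le]
    rintro _ ⟨i, rfl⟩
    have h1 : (Quotient.out ((1 : G) : G ⧸ H) : G) ∈ H := by
      have h : ((Quotient.out ((1 : G) : G ⧸ H) : G) : G ⧸ H) = ((1 : G) : G ⧸ H) :=
        QuotientGroup.out_eq' _
      rw [QuotientGroup.eq] at h
      simpa using h
    have : z i = δ (Quotient.out ((1 : G) : G ⧸ H)) (z i) := (hδH _ h1 _).symm
    rw [SetLike.mem_coe, this]
    exact subset_span ⟨(i, _), rfl⟩
  refine ihf_nakayama (fun d => δ d - 1) ?_ U Finset.univ (fun d _ => hnil d) ?_ C ?_ ?_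
  · intro i j x
    simp only [LinearMap.sub_apply, Module.End.one_apply, map_sub]
    rw [← hδmul, ← hδmul, mul_comm]
    abel
  · rintro d - _ ⟨x, hx, rfl⟩
    rw [LinearMap.sub_apply, Module.End.one_apply]
    exact U.sub_mem (hU d x hx) hx
  · rintro d - _ ⟨x, hx, rfl⟩
    rw [LinearMap.sub_apply, Module.End.one_apply]
    exact C.sub_mem (hCδ d x hx) hx
  · exact hspan.trans (sup_le_sup_right hzC _)

include hδmul hδH hnil in
/-- generators: a stable `U` is spanned by the translates of `dim U - dim (I U)` elements -/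
theorem ihf_exists_gens (U : Submodule k V) (hU : ∀ d, ∀ x ∈ U, δ d x ∈ U) :
    ∃ (n : ℕ) (z : Fin n → V), (∀ i, z i ∈ U) ∧
      finrank k U = finrank k (ihfAug δ U) + n ∧
      span k (Set.range fun x : Fin n × (G ⧸ H) => δ (Quotient.out x.2) (z x.1)) = U := by
  have hIU : ihfAug δ U ≤ U := ihfAug_le δ hU
  obtain ⟨Q, hQ⟩ := Submodule.exists_isCompl (ihfAug δ U)
  set U₀ := Q ⊓ U with hU₀
  have hsup : ihfAug δ U ⊔ U₀ = U := by
    rw [hU₀, ← sup_inf_assoc_of_le Q hIU, hQ.sup_eq_top, top_inf_eq]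
  have hinf : ihfAug δ U ⊓ U₀ = ⊥ := by
    rw [eq_bot_iff]
    calc ihfAug δ U ⊓ U₀ ≤ ihfAug δ U ⊓ Q := inf_le_inf_left _ inf_le_left
      _ = ⊥ := hQ.inf_eq_bot
  have hfin := Submodule.finrank_sup_add_finrank_inf_eq (ihfAug δ U) U₀
  rw [hsup, hinf, finrank_bot, add_zero] at hfin
  set n := finrank k U₀ with hn
  let b := Module.finBasis k U₀
  set z : Fin n → V := fun i => ((b i : U₀) : V) with hz
  have hzU₀ : span k (Set.range z) = U₀ := by
    have : Set.range z = U₀.subtype '' (Set.range b) := by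
      rw [← Set.range_comp]; rfl
    rw [this, ← Submodule.map_span, b.span_eq, Submodule.map_subtype_top]
  have hzU : ∀ i, z i ∈ U := fun i => (inf_le_right : U₀ ≤ U) (b i).2
  refine ⟨n, z, hzU, hfin, le_antisymm ?_ ?_⟩
  · rw [span_le]
    rintro _ ⟨⟨i, g⟩, rfl⟩
    exact hU _ _ (hzU i)
  · refine ihf_translates_span H δ hδmul hδH hnil U hU z ?_
    rw [hzU₀, sup_comm, hsup]

variable [Fintype (G ⧸ H)]

include hδmul hδH hnil in
/-- **freeness by counting** -/
theorem ihf_free_count (W U Z : Submodule k V)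
    (hU : ∀ d, ∀ x ∈ U, δ d x ∈ U) (hZ : ∀ d, ∀ x ∈ Z, δ d x ∈ Z)
    (hsup : U ⊔ Z = W) (hdisj : U ⊓ Z = ⊥)
    (corT : V →ₗ[k] V₂) (hcorδ : ∀ d x, corT (δ d x) = corT x)
    (hker : ∀ y ∈ W, corT y = 0 → y ∈ ihfAug δ W)
    (hdim : finrank k W = Fintype.card (G ⧸ H) * finrank k (W.map corT)) :
    ∃ (n : ℕ) (z : Fin n → V), (∀ i, z i ∈ U) ∧
      LinearIndependent k (fun x : Fin n × (G ⧸ H) => δ (Quotient.out x.2) (z x.1)) ∧
      span k (Set.range fun x : Fin n × (G ⧸ H) => δ (Quotient.out x.2) (z x.1)) = U := by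
  have hW : ∀ d, ∀ x ∈ W, δ d x ∈ W := by
    intro d x hx
    rw [← hsup] at hx ⊢
    obtain ⟨u, hu, v, hv, rfl⟩ := Submodule.mem_sup.mp hx
    rw [map_add]
    exact Submodule.add_mem_sup (hU d u hu) (hZ d v hv)
  obtain ⟨nU, zU, hzU, hfU, hsU⟩ := ihf_exists_gens H δ hδmul hδH hnil U hU
  obtain ⟨nZ, zZ, hzZ, hfZ, hsZ⟩ := ihf_exists_gens H δ hδmul hδH hnil Z hZ
  -- the inequalities
  have hI1 : finrank k U ≤ nU * Fintype.card (G ⧸ H) := by
    conv_lhs => rw [← hsU]
    refine (finrank_range_le_card _).trans ?_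
    rw [Fintype.card_prod, Fintype.card_fin]
  have hI2 : finrank k Z ≤ nZ * Fintype.card (G ⧸ H) := by
    conv_lhs => rw [← hsZ]
    refine (finrank_range_le_card _).trans ?_
    rw [Fintype.card_prod, Fintype.card_fin]
  -- the equalities
  have hE3 := Submodule.finrank_sup_add_finrank_inf_eq U Z
  rw [hsup, hdisj, finrank_bot, add_zero] at hE3
  have hE4 := Submodule.finrank_sup_add_finrank_inf_eq (ihfAug δ U) (ihfAug δ Z)
  have hdisj' : ihfAug δ U ⊓ ihfAug δ Z = ⊥ := by
    rw [eq_bot_iff, ← hdisj]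
    exact inf_le_inf (ihfAug_le δ hU) (ihfAug_le δ hZ)
  rw [← ihfAug_sup, hsup, hdisj', finrank_bot, add_zero] at hE4
  have hE5 : finrank k W = finrank k (W.map corT) + finrank k (ihfAug δ W) := by
    have h1 := LinearMap.finrank_range_add_finrank_ker (corT.domRestrict W)
    rw [LinearMap.range_domRestrict] at h1
    have h2 : (LinearMap.ker (corT.domRestrict W)).map W.subtype = ihfAug δ W := by
      ext y
      constructor
      · rintro ⟨w, hw, rfl⟩
        exact hker w.1 w.2 hw
      · intro hy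
        have hyW : y ∈ W := ihfAug_le δ hW hy
        refine ⟨⟨y, hyW⟩, ?_, rfl⟩
        show corT y = 0
        unfold ihfAug at hy
        refine Submodule.iSup_induction (motive := fun y => corT y = 0) _ hy ?_ (map_zero _) ?_
        · intro d y hy
          refine Submodule.iSup_induction (motive := fun y => corT y = 0) _ hy ?_ (map_zero _) ?_
          · rintro - _ ⟨x, -, rfl⟩
            rw [LinearMap.sub_apply, Module.End.one_apply, map_sub, hcorδ, sub_self]
          · intro a b ha hb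
            rw [map_add, ha, hb, add_zero]
        · intro a b ha hb
          rw [map_add, ha, hb, add_zero]
    rw [← h2, Submodule.finrank_map_subtype_eq]
    exact h1.symm
  -- conclusion
  have hr : finrank k (W.map corT) = nU + nZ := by omega
  have hA : Fintype.card (G ⧸ H) * finrank k (W.map corT)
      = nU * Fintype.card (G ⧸ H) + nZ * Fintype.card (G ⧸ H) := by
    rw [hr]; ring
  have hfinU : finrank k U = nU * Fintype.card (G ⧸ H) := by omega
  refine ⟨nU, zU, hzU, ?_, hsU⟩
  rw [linearIndependent_iff_card_eq_finrank_span, Set.finrank, hsU, hfinU, Fintype.card_prod,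
    Fintype.card_fin]

end

end Fermat.Agent.Ihara
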