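/-
IHARA track, package [H4](i) (helper1): **transfer (`cor`) between the groups `Γ_H(M)`**.

* `IhfTrans Γ Γ' I`: a right transversal `c : I → SL(2, ℤ)` of `Γ` in `Γ'` (`Γ' = ⊔ Γ c_i`);
  `IhfTrans.sys : T2fSys₂ Γ Γ' I` the associated two-group coset system, so that
  `τ.sys.cor A : Hom(Γ, A) → Hom(Γ', A)` is the transfer;
* `IhfTrans.cor_res`: `cor ∘ res = |I|`;
* `IhfTrans.mul`: product of transversals, `IhfTrans.cor_cor`: transitivity of the transfer;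
* for `Γ_H ≤ Γ_{H'}`: `ihf_res_cor`: `res ∘ cor = ∑ i, conj (c i)`;
* `ihfTransTop M H`: the transversal `γ_(out δ)` (`δ ∈ (ℤ/M)ˣ / H`) of `Γ_H(M)` in `Γ₀(M) = Γ_⊤(M)`.
-/
import Mathlib
import Fermat.Agent.Lib.T2.F.Coset2
import Fermat.Agent.Lib.Ihara.Fr.GammaH

set_option autoImplicit false
set_option linter.unusedSectionVars false
set_option linter.unusedVariables false

namespace Fermat.Agent.Ihara

open Matrix MatrixGroups CongruenceSubgroup ModularCurve ModularCurve.Period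
open Fermat.Agent.DS Fermat.Agent.T1 Fermat.Agent.T1G Fermat.Agent.T2

/-! ### Right transversals and the transfer -/

/-- a right transversal of `Γ` in `Γ'`: `Γ' = ⊔ i, Γ * c i` -/
structure IhfTrans (Γ Γ' : Subgroup SL(2, ℤ)) (I : Type) where
  c : I → SL(2, ℤ)
  mem : ∀ i, c i ∈ Γ'
  ex : ∀ g : SL(2, ℤ), g ∈ Γ' → ∃ i, g * (c i)⁻¹ ∈ Γ
  uniq : ∀ i j, c i * (c j)⁻¹ ∈ Γ → i = j

namespace IhfTrans

variable {Γ Γ' Γ'' : Subgroup SL(2, ℤ)} {I I' : Type} [Fintype I] [Fintype I']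

/-- the two-group coset system of a right transversal -/
def sys (hle : Γ ≤ Γ') (τ : IhfTrans Γ Γ' I) : T2fSys₂ Γ Γ' I :=
  T2fSys₂.ofInequiv (fun i => (τ.c i : Matrix (Fin 2) (Fin 2) ℤ))
    (fun i => by rw [(τ.c i).2]; exact one_pos)
    (fun i j γ h => by
      have h1 : (γ : SL(2, ℤ)) * τ.c i = τ.c j := by
        apply Subtype.ext
        rw [Matrix.SpecialLinearGroup.coe_mul]
        exact h
      apply τ.uniq
      have : τ.c i * (τ.c j)⁻¹ = ((γ : SL(2, ℤ)))⁻¹ := by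
        rw [← h1]; group
      rw [this]
      exact inv_mem γ.2)
    (fun δ i => by
      obtain ⟨j, hj⟩ := τ.ex (τ.c i * (δ : SL(2, ℤ))) (mul_mem (τ.mem i) δ.2)
      refine ⟨j, ⟨_, hj⟩, ?_⟩
      rw [← Matrix.SpecialLinearGroup.coe_mul, ← Matrix.SpecialLinearGroup.coe_mul,
        inv_mul_cancel_right])

variable (hle : Γ ≤ Γ') (τ : IhfTrans Γ Γ' I)

@[simp] theorem sys_rep (i : I) : (τ.sys hle).rep i = (τ.c i : Matrix (Fin 2) (Fin 2) ℤ) := rfl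

/-- characterisation of `σ` and `ε` of the system -/
theorem sys_eq_of_mul {δ : Γ'} {i j : I} {ε : Γ}
    (h : τ.c i * (δ : SL(2, ℤ)) = (ε : SL(2, ℤ)) * τ.c j) :
    j = (τ.sys hle).sigma δ i ∧ ε = (τ.sys hle).eps δ i := by
  refine (τ.sys hle).eq_of_rep_mul ?_
  rw [sys_rep, sys_rep, ← Matrix.SpecialLinearGroup.coe_mul, ← Matrix.SpecialLinearGroup.coe_mul, h]

theorem sys_mul (δ : Γ') (i : I) :
    τ.c i * (δ : SL(2, ℤ))
      = (((τ.sys hle).eps δ i : Γ) : SL(2, ℤ)) * τ.c ((τ.sys hle).sigma δ i) := by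
  apply Subtype.ext
  rw [Matrix.SpecialLinearGroup.coe_mul, Matrix.SpecialLinearGroup.coe_mul]
  exact (τ.sys hle).rep_mul δ i

/-- **`cor ∘ res = |I|`** -/
theorem cor_res {A : Type*} [AddCommGroup A] (φ : Additive Γ' →+ A) :
    (τ.sys hle).cor A (t2fRes hle A φ) = Fintype.card I • φ := by
  set C := τ.sys hle with hC
  refine AddMonoidHom.ext fun δ' => ?_
  obtain ⟨δ, rfl⟩ := Additive.ofMul.surjective δ'
  rw [T2fSys₂.cor_apply]
  have key : ∀ i, t2fRes hle A φ (Additive.ofMul (C.eps δ i))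
      = (φ (Additive.ofMul ⟨τ.c i, τ.mem i⟩) + φ (Additive.ofMul δ))
        - φ (Additive.ofMul ⟨τ.c (C.sigma δ i), τ.mem _⟩) := by
    intro i
    rw [t2fRes_apply]
    have h1 : (⟨τ.c i, τ.mem i⟩ : Γ') * δ
        = Subgroup.inclusion hle (C.eps δ i) * ⟨τ.c (C.sigma δ i), τ.mem _⟩ :=
      Subtype.ext (τ.sys_mul hle δ i)
    have h2 := congrArg (fun g : Γ' => φ (Additive.ofMul g)) h1
    simp only [ofMul_mul, map_add] at h2
    rw [eq_sub_iff_add_eq]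
    exact h2.symm
  rw [Finset.sum_congr rfl fun i _ => key i, Finset.sum_sub_distrib, Finset.sum_add_distrib,
    Equiv.sum_comp (C.sigma δ) (fun i => φ (Additive.ofMul (⟨τ.c i, τ.mem i⟩ : Γ'))),
    add_sub_cancel_left, Finset.sum_const, Finset.card_univ]
  rfl

/-- the product of two transversals -/
def mul (τ : IhfTrans Γ Γ' I) (τ' : IhfTrans Γ' Γ'' I') (hle : Γ ≤ Γ') (hle' : Γ' ≤ Γ'') :
    IhfTrans Γ Γ'' (I × I') where
  c x := τ.c x.1 * τ'.c x.2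
  mem x := mul_mem (hle' (τ.mem x.1)) (τ'.mem x.2)
  ex g hg := by
    obtain ⟨i', hi'⟩ := τ'.ex g hg
    obtain ⟨i, hi⟩ := τ.ex _ hi'
    refine ⟨(i, i'), ?_⟩
    have : g * (τ.c i * τ'.c i')⁻¹ = g * (τ'.c i')⁻¹ * (τ.c i)⁻¹ := by group
    rw [this]
    exact hi
  uniq x y h := by
    have h1 : τ.c x.1 * τ'.c x.2 * (τ.c y.1 * τ'.c y.2)⁻¹
        = τ.c x.1 * (τ'.c x.2 * (τ'.c y.2)⁻¹) * (τ.c y.1)⁻¹ := by group
    rw [h1] at h
    have h2 : τ'.c x.2 * (τ'.c y.2)⁻¹ ∈ Γ' := by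
      have h3 := mul_mem (mul_mem (inv_mem (τ.mem x.1)) (hle h)) (τ.mem y.1)
      have h4 : (τ.c x.1)⁻¹ * (τ.c x.1 * (τ'.c x.2 * (τ'.c y.2)⁻¹) * (τ.c y.1)⁻¹) * τ.c y.1
          = τ'.c x.2 * (τ'.c y.2)⁻¹ := by group
      rwa [h4] at h3
    have e2 : x.2 = y.2 := τ'.uniq _ _ h2
    rw [e2, mul_inv_cancel, mul_one] at h
    exact Prod.ext (τ.uniq _ _ h) e2

/-- **transitivity of the transfer** -/
theorem cor_cor (τ : IhfTrans Γ Γ' I) (τ' : IhfTrans Γ' Γ'' I') (hle : Γ ≤ Γ') (hle' : Γ' ≤ Γ'')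
    {A : Type*} [AddCommGroup A] (φ : Additive Γ →+ A) :
    (τ'.sys hle').cor A ((τ.sys hle).cor A φ)
      = ((τ.mul τ' hle hle').sys (hle.trans hle')).cor A φ := by
  refine AddMonoidHom.ext fun δ' => ?_
  obtain ⟨δ, rfl⟩ := Additive.ofMul.surjective δ'
  rw [T2fSys₂.cor_apply, T2fSys₂.cor_apply, Fintype.sum_prod_type, Finset.sum_comm]
  refine Finset.sum_congr rfl fun i' _ => ?_
  rw [T2fSys₂.cor_apply]
  refine Finset.sum_congr rfl fun i _ => ?_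
  congr 2
  have h1 := τ'.sys_mul hle' δ i'
  have h2 := τ.sys_mul hle ((τ'.sys hle').eps δ i') i
  have h3 : (τ.mul τ' hle hle').c (i, i') * (δ : SL(2, ℤ))
      = ((((τ.sys hle).eps ((τ'.sys hle').eps δ i') i : Γ)) : SL(2, ℤ))
        * (τ.mul τ' hle hle').c ((τ.sys hle).sigma ((τ'.sys hle').eps δ i') i,
            (τ'.sys hle').sigma δ i') := by
    show τ.c i * τ'.c i' * (δ : SL(2, ℤ)) = _ * (τ.c _ * τ'.c _)
    rw [mul_assoc, h1, ← mul_assoc, h2, mul_assoc]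
  exact ((τ.mul τ' hle hle').sys_eq_of_mul (hle.trans hle') h3).2

end IhfTrans

/-! ### Transversals of `Γ_H(M)` in `Γ_{H'}(M)` -/

section GammaH

variable {M : ℕ} [NeZero M] {H H' : Subgroup (ZMod M)ˣ} {I : Type} [Fintype I]

/-- a transversal `t` of `H` in `H'` gives the transversal `γ_(t i)` of `Γ_H` in `Γ_{H'}` -/
noncomputable def ihfTransOfUnits (t : I → (ZMod M)ˣ) (hmem : ∀ i, t i ∈ H')
    (hex : ∀ u ∈ H', ∃ i, u * (t i)⁻¹ ∈ H) (huniq : ∀ i j, t i * (t j)⁻¹ ∈ H → i = j) :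
    IhfTrans (ihfGammaH M H) (ihfGammaH M H') I where
  c i := dshGammaU M (t i)
  mem i := ⟨dshGammaU_mem M _, t i, hmem i, dshD_dshGammaU M _⟩
  ex g hg := by
    obtain ⟨hg0, u, hu, e⟩ := hg
    obtain ⟨i, hi⟩ := hex u hu
    refine ⟨i, mul_mem hg0 (inv_mem (dshGammaU_mem M _)), u * (t i)⁻¹, hi, ?_⟩
    rw [dshD_mul hg0, e, Units.val_mul]
    congr 1
    have h1 := dshD_mul_inv (dshGammaU_mem M (t i))
    rw [dshD_dshGammaU] at h1
    have h2 : ((t i : (ZMod M)ˣ) : ZMod M) * (((t i)⁻¹ : (ZMod M)ˣ) : ZMod M) = 1 := by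
      rw [← Units.val_mul, mul_inv_cancel, Units.val_one]
    exact ((t i).isUnit.mul_right_inj).mp (h1.trans h2.symm)
  uniq i j h := by
    apply huniq
    obtain ⟨-, u, hu, e⟩ := h
    rw [dshD_mul (dshGammaU_mem M _), dshD_dshGammaU] at e
    have h1 := dshD_mul_inv (dshGammaU_mem M (t j))
    rw [dshD_dshGammaU] at h1
    have h2 : ((t j : (ZMod M)ˣ) : ZMod M) * (((t j)⁻¹ : (ZMod M)ˣ) : ZMod M) = 1 := by
      rw [← Units.val_mul, mul_inv_cancel, Units.val_one]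
    have h3 : dshD M (dshGammaU M (t j))⁻¹ = (((t j)⁻¹ : (ZMod M)ˣ) : ZMod M) :=
      ((t j).isUnit.mul_right_inj).mp (h1.trans h2.symm)
    rw [h3, ← Units.val_mul] at e
    have : t i * (t j)⁻¹ = u := Units.ext e
    rw [this]
    exact hu

@[simp] theorem ihfTransOfUnits_c (t : I → (ZMod M)ˣ) (hmem : ∀ i, t i ∈ H')
    (hex : ∀ u ∈ H', ∃ i, u * (t i)⁻¹ ∈ H) (huniq : ∀ i j, t i * (t j)⁻¹ ∈ H → i = j) (i : I) :
    (ihfTransOfUnits t hmem hex huniq).c i = dshGammaU M (t i) := rfl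

/-- **`res ∘ cor = ∑ i, conj (c i)`** for `Γ_H ≤ Γ_{H'}` -/
theorem ihf_res_cor (hle : H ≤ H') (τ : IhfTrans (ihfGammaH M H) (ihfGammaH M H') I)
    {A : Type*} [AddCommGroup A] (φ : Additive (ihfGammaH M H) →+ A) :
    t2fRes (ihfGammaH_mono hle) A ((τ.sys (ihfGammaH_mono hle)).cor A φ)
      = ∑ i, (ihfSysC M H (τ.c i) (ihfGammaH_le_Gamma0 (τ.mem i))).hom A φ := by
  refine AddMonoidHom.ext fun δ' => ?_
  obtain ⟨δ, rfl⟩ := Additive.ofMul.surjective δ'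
  rw [t2fRes_apply, T2fSys₂.cor_apply, AddMonoidHom.finsetSum_apply]
  refine Finset.sum_congr rfl fun i _ => ?_
  rw [ihfSysC_hom_apply]
  congr 2
  have hc0 : τ.c i ∈ Gamma0 M := ihfGammaH_le_Gamma0 (τ.mem i)
  have h3 : τ.c i * ((Subgroup.inclusion (ihfGammaH_mono hle) δ : ihfGammaH M H') : SL(2, ℤ))
      = (((⟨τ.c i * (δ : SL(2, ℤ)) * (τ.c i)⁻¹, ihf_conj_mem_GammaH hc0 δ.2⟩ : ihfGammaH M H)) :
          SL(2, ℤ)) * τ.c i := by
    show τ.c i * (δ : SL(2, ℤ)) = τ.c i * (δ : SL(2, ℤ)) * (τ.c i)⁻¹ * τ.c i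
    rw [inv_mul_cancel_right]
  exact ((τ.sys_eq_of_mul (ihfGammaH_mono hle) h3).2).symm

/-- the transversal `γ_(out δ)` of `Γ_H(M)` in `Γ_⊤(M) = Γ₀(M)` -/
noncomputable def ihfTransTop (H : Subgroup (ZMod M)ˣ) :
    IhfTrans (ihfGammaH M H) (ihfGammaH M ⊤) ((ZMod M)ˣ ⧸ H) :=
  ihfTransOfUnits (fun δ => Quotient.out δ) (fun _ => Subgroup.mem_top _)
    (fun u _ => ⟨(u : (ZMod M)ˣ ⧸ H), by
      have h : ((Quotient.out (u : (ZMod M)ˣ ⧸ H) : (ZMod M)ˣ) : (ZMod M)ˣ ⧸ H) = u :=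
        QuotientGroup.out_eq' _
      rw [QuotientGroup.eq] at h
      have : u * (Quotient.out (u : (ZMod M)ˣ ⧸ H))⁻¹ = ((Quotient.out (u : (ZMod M)ˣ ⧸ H))⁻¹ * u) :=
        mul_comm _ _
      rw [this]
      exact h⟩)
    (fun a b h => by
      have h1 : ((Quotient.out a : (ZMod M)ˣ) : (ZMod M)ˣ ⧸ H) = a := QuotientGroup.out_eq' _
      have h2 : ((Quotient.out b : (ZMod M)ˣ) : (ZMod M)ˣ ⧸ H) = b := QuotientGroup.out_eq' _
      rw [← h1, ← h2, QuotientGroup.eq]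
      have : (Quotient.out a)⁻¹ * Quotient.out b = (Quotient.out a * (Quotient.out b)⁻¹)⁻¹ := by
        rw [_root_.mul_inv_rev, inv_inv, mul_comm]
      rw [this]
      exact inv_mem h)

end GammaH

end Fermat.Agent.Ihara
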