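/-
IHARA track, package [H4](ii) (helper1): **definitions of the interface** (`IhfH`, `IhfLevel`,
`IhfSummand`); the theorems `ihf_free`, `ihf_control` are in `Fr/Main.lean`.
-/
import Mathlib
import Fermat.Agent.Lib.Ihara.Fr.GammaH
import Fermat.Agent.Lib.Ihara.Fr.Cor

set_option autoImplicit false
set_option linter.unusedSectionVars false
set_option linter.unusedVariables false

namespace Fermat.Agent.Ihara

open Matrix MatrixGroups CongruenceSubgroup ModularCurve ModularCurve.Period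
open Fermat.Agent.DS Fermat.Agent.T1 Fermat.Agent.T1G Fermat.Agent.T2

/-- the Betti module of `Γ_H(M)` with coefficients in `A` -/
abbrev IhfH (R : Type*) [Semiring R] (A : Type*) [AddCommGroup A] [Module R A] (M : ℕ)
    (H : Subgroup (ZMod M)ˣ) : Type _ := ↥(parabolicHoms R (ihfGammaH M H) A)

/-- the hypotheses on `(M, H, p)` -/
structure IhfLevel (p M : ℕ) (H : Subgroup (ZMod M)ˣ) : Prop where
  prime : p.Prime
  five_le : 5 ≤ p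
  neg_mem : (-1 : (ZMod M)ˣ) ∈ H
  pgroup : ∀ d : (ZMod M)ˣ, ∃ n : ℕ, d ^ p ^ n ∈ H
  par : ∀ γ : SL(2, ℤ), γ ∈ Gamma0 M → (γ : Matrix (Fin 2) (Fin 2) ℤ).trace ^ 2 = 4 →
    γ ∈ ihfGammaH M H

/-- a complemented summand `X` of the Betti module, stable under the diamonds, on which
`η = T_{ℓ₀} - (ℓ₀ + 1)` is injective modulo the maximal ideal (a "non-Eisenstein" summand) -/
structure IhfSummand {𝒪 : Type*} [CommRing 𝒪] [IsLocalRing 𝒪] (M : ℕ) [NeZero M]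
    (H : Subgroup (ZMod M)ˣ) {ℓ₀ : ℕ} (hℓ₀ : ℓ₀.Prime) (hℓ₀M : ¬ ℓ₀ ∣ M)
    (X Y : Submodule 𝒪 (IhfH 𝒪 𝒪 M H)) : Prop where
  compl : IsCompl X Y
  diam_X : ∀ (d : (ZMod M)ˣ), ∀ x ∈ X, (ihfSysD M H d).homPar 𝒪 𝒪 x ∈ X
  diam_Y : ∀ (d : (ZMod M)ˣ), ∀ y ∈ Y, (ihfSysD M H d).homPar 𝒪 𝒪 y ∈ Y
  hecke_X : ∀ x ∈ X, (ihfSysT M H hℓ₀ hℓ₀M).homPar 𝒪 𝒪 x ∈ X
  nonEis : ∀ x ∈ X, (ihfSysT M H hℓ₀ hℓ₀M).homPar 𝒪 𝒪 x - ((ℓ₀ : 𝒪) + 1) • x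
      ∈ (IsLocalRing.maximalIdeal 𝒪) • X → x ∈ (IsLocalRing.maximalIdeal 𝒪) • X

end Fermat.Agent.Ihara
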