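/-
IHARA track, package [H4](ii) (helper1): **the extension lemma**.

`N ≤ G` subgroups of a group, `g ∈ G` normalising `N`, `G = ⋃ₙ gⁿ N`, `gⁿ ∈ N → q ∣ n`, `g ^ q ∈ N`.
A homomorphism `φ : N → A` which is invariant under conjugation by `g` extends to `ψ : G → A` with
`ψ g = a` as soon as `q • a = φ (g ^ q)`.
-/
import Mathlib

set_option autoImplicit false
set_option linter.unusedSectionVars false
set_option linter.unusedVariables false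

namespace Fermat.Agent.Ihara

section Ext

variable {𝔾 : Type*} [Group 𝔾] (N : Subgroup 𝔾) {A : Type*} [AddCommGroup A]
  (φ : Additive N →+ A)

theorem ihf_conj_mem_of_normalizer {h : 𝔾} (hh : h ∈ Subgroup.normalizer (N : Set 𝔾)) {x : 𝔾} (hx : x ∈ N) :
    h * x * h⁻¹ ∈ N :=
  (Subgroup.mem_normalizer_iff.mp hh x).mp hx

/-- the elements of the normaliser of `N` whose conjugation fixes `φ` -/
def ihfStab : Subgroup 𝔾 where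
  carrier := {h | ∃ hh : h ∈ Subgroup.normalizer (N : Set 𝔾), ∀ x : N,
    φ (Additive.ofMul ⟨h * x * h⁻¹, ihf_conj_mem_of_normalizer N hh x.2⟩) = φ (Additive.ofMul x)}
  one_mem' := ⟨one_mem _, fun x => by
    congr 2
    apply Subtype.ext
    simp⟩
  mul_mem' := by
    rintro a b ⟨ha, ha'⟩ ⟨hb, hb'⟩
    refine ⟨mul_mem ha hb, fun x => ?_⟩
    rw [← hb' x, ← ha' ⟨b * x * b⁻¹, ihf_conj_mem_of_normalizer N hb x.2⟩]
    congr 2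
    apply Subtype.ext
    show a * b * x * (a * b)⁻¹ = a * (b * x * b⁻¹) * a⁻¹
    group
  inv_mem' := by
    rintro a ⟨ha, ha'⟩
    refine ⟨inv_mem ha, fun x => ?_⟩
    rw [← ha' ⟨a⁻¹ * x * a⁻¹⁻¹, ihf_conj_mem_of_normalizer N (inv_mem ha) x.2⟩]
    congr 2
    apply Subtype.ext
    show a * (a⁻¹ * x * a⁻¹⁻¹) * a⁻¹ = (x : 𝔾)
    group

variable {N φ}

theorem ihf_mem_stab_normalizer {h : 𝔾} (hh : h ∈ ihfStab N φ) : h ∈ Subgroup.normalizer (N : Set 𝔾) := hh.1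

theorem ihf_stab_apply {h : 𝔾} (hh : h ∈ ihfStab N φ) (x : N) :
    φ (Additive.ofMul ⟨h * x * h⁻¹, ihf_conj_mem_of_normalizer N hh.1 x.2⟩)
      = φ (Additive.ofMul x) := hh.2 x

/-- `φ (h * x * h⁻¹) = φ x` in the form with an arbitrary membership proof -/
theorem ihf_stab_apply' {h : 𝔾} (hh : h ∈ ihfStab N φ) (x : 𝔾) (hx : x ∈ N)
    (hx' : h * x * h⁻¹ ∈ N) :
    φ (Additive.ofMul ⟨h * x * h⁻¹, hx'⟩) = φ (Additive.ofMul ⟨x, hx⟩) :=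
  ihf_stab_apply hh ⟨x, hx⟩

variable (G : Subgroup 𝔾) (hNG : N ≤ G) (g : 𝔾) (hgG : g ∈ G) (hg : g ∈ ihfStab N φ)
  (q : ℕ) (hq : g ^ q ∈ N) (hmin : ∀ n : ℤ, g ^ n ∈ N → (q : ℤ) ∣ n)
  (hgen : ∀ δ ∈ G, ∃ n : ℤ, (g ^ n)⁻¹ * δ ∈ N)
  (a : A) (ha : q • a = φ (Additive.ofMul ⟨g ^ q, hq⟩))

include hq in
theorem ihf_zpow_mul_mem (k : ℤ) : g ^ ((q : ℤ) * k) ∈ N := by
  rw [zpow_mul, zpow_natCast]
  exact zpow_mem hq k

include hq in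
theorem ihf_phi_zpow (k : ℤ) :
    φ (Additive.ofMul ⟨g ^ ((q : ℤ) * k), ihf_zpow_mul_mem g q hq k⟩)
      = k • φ (Additive.ofMul ⟨g ^ q, hq⟩) := by
  have h1 : (⟨g ^ ((q : ℤ) * k), ihf_zpow_mul_mem g q hq k⟩ : N) = (⟨g ^ q, hq⟩ : N) ^ k := by
    apply Subtype.ext
    show g ^ ((q : ℤ) * k) = (((⟨g ^ q, hq⟩ : N) ^ k : N) : 𝔾)
    rw [Subgroup.coe_zpow, zpow_mul, zpow_natCast]
  rw [h1, ofMul_zpow, map_zsmul]

/-- the candidate value `n • a + φ (g⁻ⁿ δ)` -/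
noncomputable def ihfExtVal (φ : Additive N →+ A) (g : 𝔾) (a : A) (δ : 𝔾) (n : ℤ)
    (h : (g ^ n)⁻¹ * δ ∈ N) : A :=
  n • a + φ (Additive.ofMul ⟨(g ^ n)⁻¹ * δ, h⟩)

include hg hq hmin ha in
/-- independence of the exponent -/
theorem ihfExtVal_indep (δ : 𝔾) (n n' : ℤ) (h : (g ^ n)⁻¹ * δ ∈ N) (h' : (g ^ n')⁻¹ * δ ∈ N) :
    ihfExtVal φ g a δ n h = ihfExtVal φ g a δ n' h' := by
  have hmem : g ^ (n' - n) ∈ N := by
    have h1 := mul_mem h (inv_mem h')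
    have h2 : (g ^ n)⁻¹ * δ * ((g ^ n')⁻¹ * δ)⁻¹ = g ^ (n' - n) := by
      rw [zpow_sub]; group
    rwa [h2] at h1
  obtain ⟨k, hk⟩ := hmin _ hmem
  have hn' : n' = n + (q : ℤ) * k := by omega
  subst hn'
  unfold ihfExtVal
  have h3 : (⟨(g ^ n)⁻¹ * δ, h⟩ : N)
      = ⟨g ^ ((q : ℤ) * k), ihf_zpow_mul_mem g q hq k⟩ * ⟨(g ^ (n + (q : ℤ) * k))⁻¹ * δ, h'⟩ := by
    apply Subtype.ext
    show (g ^ n)⁻¹ * δ = g ^ ((q : ℤ) * k) * ((g ^ (n + (q : ℤ) * k))⁻¹ * δ)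
    rw [zpow_add]; group
  rw [h3, ofMul_mul, map_add, ihf_phi_zpow g q hq k, ← ha, add_smul, mul_smul, natCast_zsmul]
  have : k • q • a = q • k • a := smul_comm _ _ _
  rw [this]
  abel

include hNG hgG hg hq hmin hgen ha in
/-- **the extension lemma** -/
theorem ihf_ext : ∃ ψ : Additive G →+ A,
    (∀ x : N, ψ (Additive.ofMul ⟨x, hNG x.2⟩) = φ (Additive.ofMul x)) ∧
      ψ (Additive.ofMul ⟨g, hgG⟩) = a := by
  classical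
  -- the chosen exponents
  choose! n hn using hgen
  have hval : ∀ (δ : 𝔾) (hδ : δ ∈ G) (m : ℤ) (hm : (g ^ m)⁻¹ * δ ∈ N),
      ihfExtVal φ g a δ (n δ) (hn δ hδ) = ihfExtVal φ g a δ m hm :=
    fun δ hδ m hm => ihfExtVal_indep g hg q hq hmin a ha δ _ _ _ _
  let F : G → A := fun δ => ihfExtVal φ g a (δ : 𝔾) (n δ) (hn δ δ.2)
  have hF : ∀ (δ : G) (m : ℤ) (hm : (g ^ m)⁻¹ * (δ : 𝔾) ∈ N), F δ = ihfExtVal φ g a (δ : 𝔾) m hm :=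
    fun δ m hm => hval δ δ.2 m hm
  have hmul : ∀ δ δ' : G, F (δ * δ') = F δ + F δ' := by
    intro δ δ'
    set m := n (δ : 𝔾) with hm
    set m' := n (δ' : 𝔾) with hm'
    have h1 : (g ^ m)⁻¹ * (δ : 𝔾) ∈ N := hn δ δ.2
    have h2 : (g ^ m')⁻¹ * (δ' : 𝔾) ∈ N := hn δ' δ'.2
    have hst : (g ^ m')⁻¹ ∈ ihfStab N φ := inv_mem (zpow_mem hg m')
    have h3 : (g ^ m')⁻¹ * ((g ^ m)⁻¹ * (δ : 𝔾)) * ((g ^ m')⁻¹)⁻¹ ∈ N :=
      ihf_conj_mem_of_normalizer N hst.1 h1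
    have h4 : (g ^ (m + m'))⁻¹ * ((δ * δ' : G) : 𝔾)
        = ((g ^ m')⁻¹ * ((g ^ m)⁻¹ * (δ : 𝔾)) * ((g ^ m')⁻¹)⁻¹) * ((g ^ m')⁻¹ * (δ' : 𝔾)) := by
      rw [Subgroup.coe_mul, zpow_add]; group
    have h5 : (g ^ (m + m'))⁻¹ * ((δ * δ' : G) : 𝔾) ∈ N := by
      rw [h4]; exact mul_mem h3 h2
    rw [hF (δ * δ') (m + m') h5]
    show ihfExtVal φ g a _ (m + m') h5 = ihfExtVal φ g a _ m h1 + ihfExtVal φ g a _ m' h2
    unfold ihfExtVal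
    have h6 : (⟨(g ^ (m + m'))⁻¹ * ((δ * δ' : G) : 𝔾), h5⟩ : N)
        = ⟨_, h3⟩ * ⟨_, h2⟩ := Subtype.ext h4
    rw [h6, ofMul_mul, map_add, ihf_stab_apply' hst _ h1 h3, add_smul]
    abel
  refine ⟨{ toFun := fun δ => F (Additive.toMul δ)
            map_zero' := ?_
            map_add' := fun δ δ' => hmul _ _ }, ?_, ?_⟩
  · have := hmul 1 1
    rw [mul_one] at this
    show F 1 = 0
    exact left_eq_add.mp this
  · intro x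
    show F ⟨x, hNG x.2⟩ = _
    have h0 : (g ^ (0 : ℤ))⁻¹ * (x : 𝔾) ∈ N := by simp
    rw [hF ⟨x, hNG x.2⟩ 0 h0]
    unfold ihfExtVal
    rw [zero_smul, zero_add]
    congr 2
    apply Subtype.ext
    simp
  · show F ⟨g, hgG⟩ = a
    have h1 : (g ^ (1 : ℤ))⁻¹ * g ∈ N := by simp
    rw [hF ⟨g, hgG⟩ 1 h1]
    unfold ihfExtVal
    rw [one_smul]
    have : (⟨(g ^ (1 : ℤ))⁻¹ * g, h1⟩ : N) = 1 := by
      apply Subtype.ext
      simp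
    rw [this, ofMul_one, map_zero, add_zero]

end Ext

end Fermat.Agent.Ihara
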