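/-
IHARA track, package [H4](ii) (helper1): **the concrete inputs of the cyclic step** for
`Γ_H ≤ Γ_{H'}`, `H' = H ⟨d⟩` with `d` of order `q` modulo `H`, `g = γ_d`:

* `ihf_step_ext`   : a `⟨d⟩`-invariant `φ : Γ_H → A` with `φ (g ^ q) = 0` extends to `Γ_{H'}`;
* `ihf_step_ob_T`  : `(T_ℓ φ)(g ^ q) = (ℓ + 1) • φ (g ^ q)` for `⟨d⟩`-invariant `φ` if `q • A = 0`;
* `ihf_step_eis`   : `ψ : Γ_{H'} → A` vanishing on `Γ_H` satisfies `T_ℓ ψ = (ℓ + 1) • ψ`;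
* `ihf_T_D_comm`   : `T_ℓ` commutes with the diamond operators;
* `ihf_res_T`, `ihf_res_D` : restriction commutes with `T_ℓ` and the diamond operators.
-/
import Mathlib
import Fermat.Agent.Lib.Ihara.Fr.GammaH
import Fermat.Agent.Lib.Ihara.Fr.Cor
import Fermat.Agent.Lib.Ihara.Fr.Ext
import Fermat.Agent.Lib.T2.F.WT

set_option autoImplicit false
set_option linter.unusedSectionVars false
set_option linter.unusedVariables false

namespace Fermat.Agent.Ihara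

open Matrix MatrixGroups CongruenceSubgroup ModularCurve ModularCurve.Period
open Fermat.Agent.DS Fermat.Agent.T1 Fermat.Agent.T1G Fermat.Agent.T2

/-- cyclic data: `H' = H ⟨d⟩`, `d` of order `q` modulo `H` -/
structure IhfCyc (M : ℕ) (H H' : Subgroup (ZMod M)ˣ) (d : (ZMod M)ˣ) (q : ℕ) : Prop where
  le : H ≤ H'
  mem : d ∈ H'
  gen : ∀ u ∈ H', ∃ n : ℤ, u * (d ^ n)⁻¹ ∈ H
  pow : d ^ q ∈ H
  min : ∀ n : ℤ, d ^ n ∈ H → (q : ℤ) ∣ n

section Basic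

variable {M : ℕ} [NeZero M] {H H' : Subgroup (ZMod M)ˣ}

/-- `γ_d ^ n ∈ Γ_H ↔ d ^ n ∈ H` -/
theorem ihf_zpow_mem_iff (d : (ZMod M)ˣ) (n : ℤ) :
    (dshGammaU M d) ^ n ∈ ihfGammaH M H ↔ d ^ n ∈ H := by
  have h0 : (dshGammaU M d) ^ n ∈ Gamma0 M := zpow_mem (dshGammaU_mem M d) n
  rw [ihf_mem_GammaH_iff' h0]
  have : (⟨(dshGammaU M d) ^ n, h0⟩ : Gamma0 M)
      = (⟨dshGammaU M d, dshGammaU_mem M d⟩ : Gamma0 M) ^ n := Subtype.ext (by simp)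
  rw [this, map_zpow, ihfUnitHom_dshGammaU]

theorem ihf_pow_mem_iff (d : (ZMod M)ˣ) (n : ℕ) :
    (dshGammaU M d) ^ n ∈ ihfGammaH M H ↔ d ^ n ∈ H := by
  have := ihf_zpow_mem_iff (H := H) d (n : ℤ)
  simpa using this

theorem ihf_dshGammaU_mem {d : (ZMod M)ˣ} (hd : d ∈ H) : dshGammaU M d ∈ ihfGammaH M H :=
  ⟨dshGammaU_mem M d, d, hd, dshD_dshGammaU M d⟩

/-- `γ_d` normalises `Γ_H` -/
theorem ihf_dshGammaU_normalizer (g : SL(2, ℤ)) (hg : g ∈ Gamma0 M) :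
    g ∈ Subgroup.normalizer (ihfGammaH M H : Set SL(2, ℤ)) := by
  rw [Subgroup.mem_normalizer_iff]
  intro x
  constructor
  · exact fun hx => ihf_conj_mem_GammaH hg hx
  · intro hx
    have := ihf_conj_mem_GammaH (inv_mem hg) hx
    have e : g⁻¹ * (g * x * g⁻¹) * g⁻¹⁻¹ = x := by group
    rwa [e] at this

/-- a `⟨d⟩`-invariant homomorphism is stabilised by `γ_d` -/
theorem ihf_mem_stab {A : Type*} [AddCommGroup A] (d : (ZMod M)ˣ)
    (φ : Additive (ihfGammaH M H) →+ A) (hφ : (ihfSysD M H d).hom A φ = φ) :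
    dshGammaU M d ∈ ihfStab (ihfGammaH M H) φ := by
  refine ⟨ihf_dshGammaU_normalizer _ (dshGammaU_mem M d), fun x => ?_⟩
  have h1 := ihfSysC_hom_apply M H (dshGammaU M d) (dshGammaU_mem M d) φ x
  have h2 : (ihfSysC M H (dshGammaU M d) (dshGammaU_mem M d)).hom A φ = φ := hφ
  rw [h2] at h1
  exact h1.symm

end Basic

section Ext

variable {M : ℕ} [NeZero M] {H H' : Subgroup (ZMod M)ˣ} {d : (ZMod M)ˣ} {q : ℕ}
  (hc : IhfCyc M H H' d q) {A : Type*} [AddCommGroup A]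

include hc in
theorem ihf_cyc_gen (δ : SL(2, ℤ)) (hδ : δ ∈ ihfGammaH M H') :
    ∃ n : ℤ, ((dshGammaU M d) ^ n)⁻¹ * δ ∈ ihfGammaH M H := by
  have hδ0 : δ ∈ Gamma0 M := hδ.1
  have hu : ihfUnitHom M ⟨δ, hδ0⟩ ∈ H' := (ihf_mem_GammaH_iff' hδ0).mp hδ
  obtain ⟨n, hn⟩ := hc.gen _ hu
  refine ⟨n, ?_⟩
  have h0 : ((dshGammaU M d) ^ n)⁻¹ * δ ∈ Gamma0 M :=
    mul_mem (inv_mem (zpow_mem (dshGammaU_mem M d) n)) hδ0
  rw [ihf_mem_GammaH_iff' h0]
  have : (⟨((dshGammaU M d) ^ n)⁻¹ * δ, h0⟩ : Gamma0 M)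
      = ((⟨dshGammaU M d, dshGammaU_mem M d⟩ : Gamma0 M) ^ n)⁻¹ * ⟨δ, hδ0⟩ :=
    Subtype.ext (by simp)
  rw [this, map_mul, map_inv, map_zpow, ihfUnitHom_dshGammaU, mul_comm]
  exact hn

include hc in
/-- **extension**: a `⟨d⟩`-invariant `φ` with `φ (γ_d ^ q) = 0` extends to `Γ_{H'}` -/
theorem ihf_step_ext (φ : Additive (ihfGammaH M H) →+ A)
    (hφ : (ihfSysD M H d).hom A φ = φ)
    (hob : φ (Additive.ofMul ⟨(dshGammaU M d) ^ q, (ihf_pow_mem_iff d q).mpr hc.pow⟩) = 0) :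
    ∃ ψ : Additive (ihfGammaH M H') →+ A, t2fRes (ihfGammaH_mono hc.le) A ψ = φ := by
  obtain ⟨ψ, hψ, -⟩ := ihf_ext (N := ihfGammaH M H) (φ := φ) (ihfGammaH M H')
    (ihfGammaH_mono hc.le) (dshGammaU M d) (ihf_dshGammaU_mem hc.mem) (ihf_mem_stab d φ hφ) q
    ((ihf_pow_mem_iff d q).mpr hc.pow)
    (fun n hn => hc.min n ((ihf_zpow_mem_iff d n).mp hn))
    (ihf_cyc_gen hc) 0 (by rw [smul_zero, hob])
  refine ⟨ψ, AddMonoidHom.ext fun x' => ?_⟩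
  obtain ⟨x, rfl⟩ := Additive.ofMul.surjective x'
  rw [t2fRes_apply]
  exact hψ x

end Ext

/-! ### Restriction and coset systems with the same representatives -/

section Mono

variable {Γ Γ' : Subgroup SL(2, ℤ)} (hle : Γ ≤ Γ') {ι : Type} [Fintype ι]
  (S : tdmCosetSys Γ ι) (S' : tdmCosetSys Γ' ι) (hrep : S.rep = S'.rep)

include hrep in
theorem ihf_eps_mono (δ : Γ) (i : ι) :
    S.sigma δ i = S'.sigma (Subgroup.inclusion hle δ) i ∧
      Subgroup.inclusion hle (S.eps δ i) = S'.eps (Subgroup.inclusion hle δ) i := by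
  have h := S.rep_mul δ i
  rw [hrep] at h
  have h' : S'.rep i * (((Subgroup.inclusion hle δ : Γ') : SL(2, ℤ)) : Matrix (Fin 2) (Fin 2) ℤ)
      = (((Subgroup.inclusion hle (S.eps δ i) : Γ') : SL(2, ℤ)) : Matrix (Fin 2) (Fin 2) ℤ)
        * S'.rep (S.sigma δ i) := h
  exact S'.eq_of_rep_mul h'

include hrep in
/-- restriction commutes with the operators of coset systems with the same representatives -/
theorem ihf_res_hom {A : Type*} [AddCommGroup A] (ψ : Additive Γ' →+ A) :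
    t2fRes hle A (S'.hom A ψ) = S.hom A (t2fRes hle A ψ) := by
  refine AddMonoidHom.ext fun δ' => ?_
  obtain ⟨δ, rfl⟩ := Additive.ofMul.surjective δ'
  rw [t2fRes_apply, tdmCosetSys.hom_apply, tdmCosetSys.hom_apply]
  refine Finset.sum_congr rfl fun i _ => ?_
  rw [t2fRes_apply, (ihf_eps_mono hle S S' hrep δ i).2]

end Mono

section Ops

variable {M : ℕ} [NeZero M] {H H' : Subgroup (ZMod M)ˣ} {ℓ : ℕ} (hℓ : ℓ.Prime) (hℓM : ¬ ℓ ∣ M)
  {A : Type*} [AddCommGroup A]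

/-- restriction commutes with `T_ℓ` -/
theorem ihf_res_T (hle : H ≤ H') (ψ : Additive (ihfGammaH M H') →+ A) :
    t2fRes (ihfGammaH_mono hle) A ((ihfSysT M H' hℓ hℓM).hom A ψ)
      = (ihfSysT M H hℓ hℓM).hom A (t2fRes (ihfGammaH_mono hle) A ψ) :=
  ihf_res_hom (ihfGammaH_mono hle) _ _ rfl ψ

/-- restriction commutes with conjugations -/
theorem ihf_res_C (hle : H ≤ H') (g : SL(2, ℤ)) (hg : g ∈ Gamma0 M)
    (ψ : Additive (ihfGammaH M H') →+ A) :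
    t2fRes (ihfGammaH_mono hle) A ((ihfSysC M H' g hg).hom A ψ)
      = (ihfSysC M H g hg).hom A (t2fRes (ihfGammaH_mono hle) A ψ) :=
  ihf_res_hom (ihfGammaH_mono hle) _ _ rfl ψ

/-- restriction commutes with the diamond operators -/
theorem ihf_res_D (hle : H ≤ H') (d : (ZMod M)ˣ) (ψ : Additive (ihfGammaH M H') →+ A) :
    t2fRes (ihfGammaH_mono hle) A ((ihfSysD M H' d).hom A ψ)
      = (ihfSysD M H d).hom A (t2fRes (ihfGammaH_mono hle) A ψ) :=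
  ihf_res_C hle _ _ ψ

/-- `T_ℓ` commutes with the conjugations by `Γ₀(M)` -/
theorem ihf_T_C_comm (g : SL(2, ℤ)) (hg : g ∈ Gamma0 M) (φ : Additive (ihfGammaH M H) →+ A) :
    (ihfSysT M H hℓ hℓM).hom A ((ihfSysC M H g hg).hom A φ)
      = (ihfSysC M H g hg).hom A ((ihfSysT M H hℓ hℓM).hom A φ) := by
  have hgt : g⁻¹ ∈ ihfGammaH M (⊤ : Subgroup (ZMod M)ˣ) := by
    rw [ihfGammaH_top]; exact inv_mem hg
  set St := ihfSysT M (⊤ : Subgroup (ZMod M)ˣ) hℓ hℓM with hSt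
  set gi : ihfGammaH M (⊤ : Subgroup (ZMod M)ˣ) := ⟨g⁻¹, hgt⟩ with hgi
  have hu0 : ∀ i, g * ((St.eps gi i : ihfGammaH M (⊤ : Subgroup (ZMod M)ˣ)) : SL(2, ℤ))
      ∈ ihfGammaH M H := by
    intro i
    have hε : ((St.eps gi i : ihfGammaH M (⊤ : Subgroup (ZMod M)ˣ)) : SL(2, ℤ)) ∈ Gamma0 M :=
      (St.eps gi i).2.1
    have hd := ihfSysT_dshD_eps M (⊤ : Subgroup (ZMod M)ˣ) hℓ hℓM gi i
    refine ihf_mem_GammaH_of_dshD_eq (one_mem _) (mul_mem hg hε) ?_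
    rw [dshD_mul hg, hd]
    show dshD M g * dshD M g⁻¹ = dshD M 1
    rw [dshD_mul_inv hg, dshD_one]
  refine t2f5_hom_comm (ihfSysT M H hℓ hℓM) (ihfSysC M H g hg) (St.sigma gi)
    (fun i => ⟨_, hu0 i⟩) ?_ φ
  intro i
  have h := St.rep_mul gi i
  show (g : Matrix (Fin 2) (Fin 2) ℤ) * tgmRepT M hℓ hℓM i
    = ((g * ((St.eps gi i : ihfGammaH M (⊤ : Subgroup (ZMod M)ˣ)) : SL(2, ℤ)) : SL(2, ℤ)) :
        Matrix (Fin 2) (Fin 2) ℤ) * tgmRepT M hℓ hℓM (St.sigma gi i) * (g : Matrix (Fin 2) (Fin 2) ℤ)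
  have h' : tgmRepT M hℓ hℓM i * ((g⁻¹ : SL(2, ℤ)) : Matrix (Fin 2) (Fin 2) ℤ)
      = (((St.eps gi i : ihfGammaH M (⊤ : Subgroup (ZMod M)ˣ)) : SL(2, ℤ)) :
        Matrix (Fin 2) (Fin 2) ℤ) * tgmRepT M hℓ hℓM (St.sigma gi i) := h
  rw [tgm_SL_mul_assoc, ← h', Matrix.mul_assoc, Matrix.mul_assoc, tgm_SL_inv_mul_self,
    Matrix.mul_one]

/-- `T_ℓ` commutes with the diamond operators -/
theorem ihf_T_D_comm (d : (ZMod M)ˣ) (φ : Additive (ihfGammaH M H) →+ A) :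
    (ihfSysT M H hℓ hℓM).hom A ((ihfSysD M H d).hom A φ)
      = (ihfSysD M H d).hom A ((ihfSysT M H hℓ hℓM).hom A φ) :=
  ihf_T_C_comm hℓ hℓM _ _ φ

/-- **Eisenstein**: a homomorphism `Γ_{H'} → A` vanishing on `Γ_H` satisfies `T_ℓ ψ = (ℓ + 1) ψ` -/
theorem ihf_step_eis (hle : H ≤ H') (ψ : Additive (ihfGammaH M H') →+ A)
    (hψ : t2fRes (ihfGammaH_mono hle) A ψ = 0) :
    (ihfSysT M H' hℓ hℓM).hom A ψ = (ℓ + 1) • ψ := by
  refine AddMonoidHom.ext fun δ' => ?_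
  obtain ⟨δ, rfl⟩ := Additive.ofMul.surjective δ'
  rw [tdmCosetSys.hom_apply]
  have h1 : ∀ i, ψ (Additive.ofMul ((ihfSysT M H' hℓ hℓM).eps δ i)) = ψ (Additive.ofMul δ) := by
    intro i
    set ε := (ihfSysT M H' hℓ hℓM).eps δ i with hε
    have hd := ihfSysT_dshD_eps M H' hℓ hℓM δ i
    have hmem : (δ : SL(2, ℤ))⁻¹ * (ε : SL(2, ℤ)) ∈ ihfGammaH M H := by
      refine ihf_mem_GammaH_of_dshD_eq (one_mem _) (mul_mem (inv_mem δ.2.1) ε.2.1) ?_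
      rw [dshD_mul (inv_mem δ.2.1), hd, dshD_inv_mul δ.2.1, dshD_one]
    have e : ε = δ * Subgroup.inclusion (ihfGammaH_mono hle) ⟨_, hmem⟩ := by
      apply Subtype.ext
      show (ε : SL(2, ℤ)) = (δ : SL(2, ℤ)) * ((δ : SL(2, ℤ))⁻¹ * (ε : SL(2, ℤ)))
      group
    have h0 := DFunLike.congr_fun hψ (Additive.ofMul ⟨_, hmem⟩)
    rw [t2fRes_apply] at h0
    rw [e, ofMul_mul, map_add, h0]
    simp
  rw [Finset.sum_congr rfl fun i _ => h1 i, Finset.sum_const, Finset.card_univ,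
    Fintype.card_option, Fintype.card_fin]
  rfl

end Ops

/-! ### The obstruction -/

section Ob

variable {M : ℕ} [NeZero M] {H H' : Subgroup (ZMod M)ˣ} {d : (ZMod M)ˣ} {q : ℕ}
  (hc : IhfCyc M H H' d q) {ℓ : ℕ} (hℓ : ℓ.Prime) (hℓM : ¬ ℓ ∣ M)
  {A : Type*} [AddCommGroup A]

include hc in
/-- **the obstruction is an eigenvector**: `(T_ℓ φ)(γ_d ^ q) = (ℓ + 1) φ (γ_d ^ q)` for a
`⟨d⟩`-invariant `φ` if `q A = 0` -/
theorem ihf_step_ob_T (hqA : ∀ a : A, q • a = 0) (φ : Additive (ihfGammaH M H) →+ A)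
    (hφ : (ihfSysD M H d).hom A φ = φ) :
    (ihfSysT M H hℓ hℓM).hom A φ
        (Additive.ofMul ⟨(dshGammaU M d) ^ q, (ihf_pow_mem_iff d q).mpr hc.pow⟩)
      = (ℓ + 1) • φ (Additive.ofMul ⟨(dshGammaU M d) ^ q, (ihf_pow_mem_iff d q).mpr hc.pow⟩) := by
  set g := dshGammaU M d with hg
  have hg0 : g ∈ Gamma0 M := dshGammaU_mem M d
  set S := ihfSysT M H hℓ hℓM with hS
  set S' := ihfSysT M H' hℓ hℓM with hS'
  set g' : ihfGammaH M H' := ⟨g, ihf_dshGammaU_mem hc.mem⟩ with hg'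
  have hstab : g ∈ ihfStab (ihfGammaH M H) φ := ihf_mem_stab d φ hφ
  -- the elements `u_i`
  have hu : ∀ i, g⁻¹ * ((S'.eps g' i : ihfGammaH M H') : SL(2, ℤ)) ∈ ihfGammaH M H := by
    intro i
    have hd := ihfSysT_dshD_eps M H' hℓ hℓM g' i
    refine ihf_mem_GammaH_of_dshD_eq (one_mem _) (mul_mem (inv_mem hg0) (S'.eps g' i).2.1) ?_
    rw [dshD_mul (inv_mem hg0), hd]
    show dshD M g⁻¹ * dshD M g = dshD M 1
    rw [dshD_inv_mul hg0, dshD_one]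
  set u : Option (Fin ℓ) → ihfGammaH M H := fun i => ⟨_, hu i⟩ with hudef
  -- the induction
  have key : ∀ (n : ℕ) (j : Option (Fin ℓ)),
      ∃ hm : ((S'.eps (g' ^ n) j : ihfGammaH M H') : SL(2, ℤ)) * (g ^ n)⁻¹ ∈ ihfGammaH M H,
        φ (Additive.ofMul ⟨_, hm⟩)
          = ∑ m ∈ Finset.range n, φ (Additive.ofMul (u ((S'.sigma g' ^ m) j))) := by
    intro n
    induction n with
    | zero =>
      intro j
      have h1 : ((S'.eps (g' ^ 0) j : ihfGammaH M H') : SL(2, ℤ)) * (g ^ 0)⁻¹ = 1 := by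
        rw [pow_zero, pow_zero, S'.eps_one]; simp
      refine ⟨h1 ▸ one_mem _, ?_⟩
      rw [Finset.sum_range_zero]
      have : (⟨_, h1 ▸ one_mem _⟩ : ihfGammaH M H) = 1 := Subtype.ext h1
      rw [this, ofMul_one, map_zero]
    | succ n ih =>
      intro j
      obtain ⟨hm, hval⟩ := ih j
      set i := (S'.sigma g' ^ n) j with hi
      have hconj : g ^ (n + 1) * ((u i : ihfGammaH M H) : SL(2, ℤ)) * (g ^ (n + 1))⁻¹
          ∈ ihfGammaH M H := ihf_conj_mem_GammaH (pow_mem hg0 _) (u i).2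
      have e : ((S'.eps (g' ^ (n + 1)) j : ihfGammaH M H') : SL(2, ℤ)) * (g ^ (n + 1))⁻¹
          = (((S'.eps (g' ^ n) j : ihfGammaH M H') : SL(2, ℤ)) * (g ^ n)⁻¹)
            * (g ^ (n + 1) * ((u i : ihfGammaH M H) : SL(2, ℤ)) * (g ^ (n + 1))⁻¹) := by
        rw [pow_succ g' n, S'.eps_mul', S'.sigma_pow, ← hi]
        show ((S'.eps (g' ^ n) j : ihfGammaH M H') : SL(2, ℤ))
            * ((S'.eps g' i : ihfGammaH M H') : SL(2, ℤ)) * (g ^ (n + 1))⁻¹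
          = ((S'.eps (g' ^ n) j : ihfGammaH M H') : SL(2, ℤ)) * (g ^ n)⁻¹
            * (g ^ (n + 1) * (g⁻¹ * ((S'.eps g' i : ihfGammaH M H') : SL(2, ℤ)))
              * (g ^ (n + 1))⁻¹)
        rw [pow_succ]
        group
      have hm' : ((S'.eps (g' ^ (n + 1)) j : ihfGammaH M H') : SL(2, ℤ)) * (g ^ (n + 1))⁻¹
          ∈ ihfGammaH M H := by
        rw [e]; exact mul_mem hm hconj
      refine ⟨hm', ?_⟩
      have e' : (⟨_, hm'⟩ : ihfGammaH M H) = ⟨_, hm⟩ * ⟨_, hconj⟩ := Subtype.ext e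
      rw [e', ofMul_mul, map_add, hval, Finset.sum_range_succ,
        ihf_stab_apply' (pow_mem hstab (n + 1)) _ (u i).2 hconj]
  -- evaluation
  have hgq : g ^ q ∈ ihfGammaH M H := (ihf_pow_mem_iff d q).mpr hc.pow
  rw [tdmCosetSys.hom_apply]
  have h1 : ∀ j, φ (Additive.ofMul (S.eps ⟨g ^ q, hgq⟩ j))
      = (∑ m ∈ Finset.range q, φ (Additive.ofMul (u ((S'.sigma g' ^ m) j))))
        + φ (Additive.ofMul ⟨g ^ q, hgq⟩) := by
    intro j
    obtain ⟨hm, hval⟩ := key q j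
    have e1 := (ihf_eps_mono (ihfGammaH_mono hc.le) S S' rfl ⟨g ^ q, hgq⟩ j).2
    have e2 : Subgroup.inclusion (ihfGammaH_mono hc.le) (⟨g ^ q, hgq⟩ : ihfGammaH M H) = g' ^ q :=
      Subtype.ext (by simp [hg'])
    rw [e2] at e1
    have e3 : S.eps ⟨g ^ q, hgq⟩ j = ⟨_, hm⟩ * ⟨g ^ q, hgq⟩ := by
      apply Subtype.ext
      have := congrArg (fun x : ihfGammaH M H' => (x : SL(2, ℤ))) e1
      simp only [Subgroup.coe_inclusion] at this
      rw [this]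
      show _ = ((S'.eps (g' ^ q) j : ihfGammaH M H') : SL(2, ℤ)) * (g ^ q)⁻¹ * g ^ q
      group
    rw [e3, ofMul_mul, map_add, hval]
  rw [Finset.sum_congr rfl fun j _ => h1 j, Finset.sum_add_distrib, Finset.sum_comm]
  have h2 : ∀ m ∈ Finset.range q, ∑ j, φ (Additive.ofMul (u ((S'.sigma g' ^ m) j)))
      = ∑ j, φ (Additive.ofMul (u j)) := fun m _ =>
    Equiv.sum_comp (S'.sigma g' ^ m) (fun j => φ (Additive.ofMul (u j)))
  rw [Finset.sum_congr rfl h2, Finset.sum_const, Finset.card_range, hqA, zero_add,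
    Finset.sum_const, Finset.card_univ, Fintype.card_option, Fintype.card_fin]

end Ob

end Fermat.Agent.Ihara
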