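/-
IHARA track, package [H4](ii) (helper1): **independence of the transfer of the transversal**, the
cyclic transversal `γ_d ^ j` (`j < q`) for `IhfCyc M K K' d q`, the index `[K' : K] = q`, and the
existence of cyclic steps in a `p`-group quotient.
-/
import Mathlib
import Fermat.Agent.Lib.Ihara.Fr.Step
import Fermat.Agent.Lib.Ihara.Fr.Cor
import Fermat.Agent.Lib.Ihara.Fr.Defs

set_option autoImplicit false
set_option linter.unusedSectionVars false
set_option linter.unusedVariables false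
set_option linter.style.haveILetI false

namespace Fermat.Agent.Ihara

open Matrix MatrixGroups CongruenceSubgroup ModularCurve ModularCurve.Period
open Fermat.Agent.DS Fermat.Agent.T1 Fermat.Agent.T1G Fermat.Agent.T2

/-! ### Independence of the transversal -/

namespace IhfTrans

variable {Γ Γ' : Subgroup SL(2, ℤ)} {I I' : Type} [Fintype I] [Fintype I'] (hle : Γ ≤ Γ')
  (τ : IhfTrans Γ Γ' I) (τ' : IhfTrans Γ Γ' I')

/-- the index in `τ` of the coset of `τ'.c i'` -/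
noncomputable def idx (i' : I') : I := (τ.ex (τ'.c i') (τ'.mem i')).choose

theorem idx_spec (i' : I') : τ'.c i' * (τ.c (τ.idx τ' i'))⁻¹ ∈ Γ :=
  (τ.ex (τ'.c i') (τ'.mem i')).choose_spec

theorem idx_eq {i' : I'} {i : I} (h : τ'.c i' * (τ.c i)⁻¹ ∈ Γ) : τ.idx τ' i' = i := by
  apply τ.uniq
  have h1 := τ.idx_spec τ' i'
  have : τ.c (τ.idx τ' i') * (τ.c i)⁻¹
      = (τ'.c i' * (τ.c (τ.idx τ' i'))⁻¹)⁻¹ * (τ'.c i' * (τ.c i)⁻¹) := by group
  rw [this]
  exact mul_mem (inv_mem h1) h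

theorem idx_idx (i : I) : τ.idx τ' (τ'.idx τ i) = i := by
  apply τ.idx_eq τ'
  have := τ'.idx_spec τ i
  have e : τ'.c (τ'.idx τ i) * (τ.c i)⁻¹ = (τ.c i * (τ'.c (τ'.idx τ i))⁻¹)⁻¹ := by group
  rw [e]
  exact inv_mem this

/-- the bijection between the index sets of two transversals -/
noncomputable def idxEquiv : I' ≃ I where
  toFun := τ.idx τ'
  invFun := τ'.idx τ
  left_inv := τ'.idx_idx τ
  right_inv := τ.idx_idx τ'

/-- **the transfer does not depend on the transversal** -/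
theorem cor_indep {A : Type*} [AddCommGroup A] (φ : Additive Γ →+ A) :
    (τ'.sys hle).cor A φ = (τ.sys hle).cor A φ := by
  refine AddMonoidHom.ext fun δ' => ?_
  obtain ⟨δ, rfl⟩ := Additive.ofMul.surjective δ'
  rw [T2fSys₂.cor_apply, T2fSys₂.cor_apply]
  set β := τ.idxEquiv τ' with hβ
  set g : I' → Γ := fun i' => ⟨_, τ.idx_spec τ' i'⟩ with hg
  have key : ∀ i', φ (Additive.ofMul ((τ'.sys hle).eps δ i'))
      = (φ (Additive.ofMul (g i')) + φ (Additive.ofMul ((τ.sys hle).eps δ (β i'))))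
        - φ (Additive.ofMul (g ((τ'.sys hle).sigma δ i'))) := by
    intro i'
    set j := (τ.sys hle).sigma δ (β i') with hj
    set j' := β.symm j with hj'
    have hβj' : β j' = j := β.apply_symm_apply j
    have h1 := τ.sys_mul hle δ (β i')
    have h2 : τ'.c i' * (δ : SL(2, ℤ))
        = (((g i' * (τ.sys hle).eps δ (β i') * (g j')⁻¹ : Γ)) : SL(2, ℤ)) * τ'.c j' := by
      show τ'.c i' * (δ : SL(2, ℤ))
        = (τ'.c i' * (τ.c (τ.idx τ' i'))⁻¹) * (((τ.sys hle).eps δ (β i') : Γ) : SL(2, ℤ))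
          * (τ'.c j' * (τ.c (τ.idx τ' j'))⁻¹)⁻¹ * τ'.c j'
      have e1 : τ.idx τ' j' = j := hβj'
      have e2 : τ.idx τ' i' = β i' := rfl
      rw [e1, e2]
      have h1' : (((τ.sys hle).eps δ (β i') : Γ) : SL(2, ℤ))
          = τ.c (β i') * (δ : SL(2, ℤ)) * (τ.c j)⁻¹ := by
        rw [h1, ← hj]; group
      rw [h1']
      group
    obtain ⟨e3, e4⟩ := τ'.sys_eq_of_mul hle h2
    rw [← e4, ← e3, ofMul_mul, ofMul_mul, ofMul_inv, map_add, map_add, map_neg]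
    abel
  rw [Finset.sum_congr rfl fun i' _ => key i', Finset.sum_sub_distrib, Finset.sum_add_distrib,
    Equiv.sum_comp ((τ'.sys hle).sigma δ) (fun i' => φ (Additive.ofMul (g i'))),
    add_sub_cancel_left]
  exact Equiv.sum_comp β (fun i => φ (Additive.ofMul ((τ.sys hle).eps δ i)))

end IhfTrans

/-! ### The cyclic transversal -/

section Cyc

variable {M : ℕ} [NeZero M] {K K' : Subgroup (ZMod M)ˣ} {d : (ZMod M)ˣ} {q : ℕ}
  (hc : IhfCyc M K K' d q)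

include hc in
theorem ihf_cyc_zpow_mem (n : ℤ) : d ^ ((q : ℤ) * n) ∈ K := by
  rw [_root_.zpow_mul, zpow_natCast]
  exact zpow_mem hc.pow n

include hc in
theorem ihf_cyc_hex (hq : 0 < q) (u : (ZMod M)ˣ) (hu : u ∈ K') :
    ∃ j : Fin q, u * (d ^ (j : ℕ))⁻¹ ∈ K := by
  obtain ⟨n, hn⟩ := hc.gen u hu
  have hq' : (0 : ℤ) < q := by exact_mod_cast hq
  have h0 : 0 ≤ n % (q : ℤ) := Int.emod_nonneg _ hq'.ne'
  have h1 : n % (q : ℤ) < q := Int.emod_lt_of_pos _ hq'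
  refine ⟨⟨(n % (q : ℤ)).toNat, by omega⟩, ?_⟩
  have e : n = (q : ℤ) * (n / q) + ((n % (q : ℤ)).toNat : ℤ) := by
    rw [Int.toNat_of_nonneg h0]
    exact (Int.mul_ediv_add_emod n q).symm
  have hd : d ^ n = d ^ ((q : ℤ) * (n / q)) * d ^ ((n % (q : ℤ)).toNat) := by
    conv_lhs => rw [e]
    rw [_root_.zpow_add, zpow_natCast]
  have e2 : u * (d ^ ((n % (q : ℤ)).toNat))⁻¹ = u * (d ^ n)⁻¹ * d ^ ((q : ℤ) * (n / q)) := by
    rw [hd, _root_.mul_inv_rev, mul_assoc u, inv_mul_cancel_right]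
  show u * (d ^ ((n % (q : ℤ)).toNat))⁻¹ ∈ K
  rw [e2]
  exact mul_mem hn (ihf_cyc_zpow_mem hc _)

include hc in
theorem ihf_cyc_huniq (i j : Fin q) (h : d ^ (i : ℕ) * (d ^ (j : ℕ))⁻¹ ∈ K) : i = j := by
  have h1 : d ^ (((i : ℕ) : ℤ) - ((j : ℕ) : ℤ)) ∈ K := by
    rw [_root_.zpow_sub, zpow_natCast, zpow_natCast]
    exact h
  obtain ⟨c, hc'⟩ := hc.min _ h1
  have hi := i.2
  have hj := j.2
  apply Fin.ext
  have : c = 0 := by
    by_contra hc0
    have h2 : (q : ℤ) ≤ |((i : ℕ) : ℤ) - ((j : ℕ) : ℤ)| := by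
      rw [hc', abs_mul]
      have : (1 : ℤ) ≤ |c| := Int.one_le_abs hc0
      have hq0 : (0 : ℤ) ≤ |(q : ℤ)| := abs_nonneg _
      calc (q : ℤ) = |(q : ℤ)| * 1 := by rw [mul_one, abs_of_nonneg (by positivity)]
        _ ≤ |(q : ℤ)| * |c| := by exact mul_le_mul_of_nonneg_left this hq0
    have h3 : |((i : ℕ) : ℤ) - ((j : ℕ) : ℤ)| < q := by
      rw [abs_lt]
      constructor <;> omega
    omega
  rw [this, mul_zero] at hc'
  omega

/-- the transversal `γ_d ^ j` (`j < q`) of `Γ_K` in `Γ_{K'}` -/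
noncomputable def ihfTransCyc (hq : 0 < q) : IhfTrans (ihfGammaH M K) (ihfGammaH M K') (Fin q) :=
  ihfTransOfUnits (fun j : Fin q => d ^ (j : ℕ)) (fun j => pow_mem hc.mem _)
    (ihf_cyc_hex hc hq) (ihf_cyc_huniq hc)

@[simp] theorem ihfTransCyc_c (hq : 0 < q) (j : Fin q) :
    (ihfTransCyc hc hq).c j = dshGammaU M (d ^ (j : ℕ)) := rfl

include hc in
/-- `[K' : K] = q` -/
theorem ihf_cyc_relindex (hq : 0 < q) : K.relIndex K' = q := by
  rw [Subgroup.relIndex, Subgroup.index]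
  let f : Fin q → K' ⧸ K.subgroupOf K' := fun j => QuotientGroup.mk ⟨d ^ (j : ℕ), pow_mem hc.mem _⟩
  have hf : Function.Bijective f := by
    constructor
    · intro i j hij
      rw [QuotientGroup.eq, Subgroup.mem_subgroupOf] at hij
      apply ihf_cyc_huniq hc
      have h1 : (d ^ (i : ℕ))⁻¹ * d ^ (j : ℕ) ∈ K := hij
      have h2 := inv_mem h1
      rwa [_root_.mul_inv_rev, inv_inv, mul_comm] at h2
    · intro x
      induction x using QuotientGroup.induction_on with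
      | H u =>
        obtain ⟨j, hj⟩ := ihf_cyc_hex hc hq u.1 u.2
        refine ⟨j, ?_⟩
        rw [QuotientGroup.eq, Subgroup.mem_subgroupOf]
        show (d ^ (j : ℕ))⁻¹ * (u : (ZMod M)ˣ) ∈ K
        rwa [mul_comm]
  rw [← Nat.card_eq_of_bijective f hf, Nat.card_eq_fintype_card, Fintype.card_fin]

end Cyc

/-! ### Existence of cyclic steps -/

section Exists

variable {p M : ℕ} [NeZero M] {H K : Subgroup (ZMod M)ˣ}

theorem ihf_exists_cyc (hL : IhfLevel p M H) (hHK : H ≤ K) {T₀ : Subgroup (ZMod M)ˣ}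
    (hKT : K ≤ T₀) (hK : K ≠ T₀) :
    ∃ (K' : Subgroup (ZMod M)ˣ) (d : (ZMod M)ˣ), IhfCyc M K K' d p ∧ K' ≤ T₀ := by
  classical
  have hp := hL.prime
  obtain ⟨d₀, hd₀T, hd₀⟩ : ∃ d₀ : (ZMod M)ˣ, d₀ ∈ T₀ ∧ d₀ ∉ K := by
    by_contra hcon
    push Not at hcon
    exact hK (le_antisymm hKT fun x hx => hcon x hx)
  have hex : ∃ n : ℕ, d₀ ^ p ^ n ∈ K := by
    obtain ⟨n, hn⟩ := hL.pgroup d₀
    exact ⟨n, hHK hn⟩
  set n := Nat.find hex with hn
  have hn1 : d₀ ^ p ^ n ∈ K := Nat.find_spec hex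
  have hn0 : n ≠ 0 := by
    intro h0
    rw [h0, pow_zero, pow_one] at hn1
    exact hd₀ hn1
  obtain ⟨m, hm⟩ := Nat.exists_eq_succ_of_ne_zero hn0
  set d := d₀ ^ p ^ m with hd
  have hdT : d ∈ T₀ := pow_mem hd₀T _
  have hdK : d ∉ K := by
    intro h
    have := Nat.find_min hex (m := m) (by omega)
    exact this h
  have hdp : d ^ p ∈ K := by
    rw [hd, ← pow_mul, ← pow_succ, ← Nat.succ_eq_add_one, ← hm]
    exact hn1
  refine ⟨K ⊔ Subgroup.zpowers d, d, ⟨le_sup_left,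
    (le_sup_right : Subgroup.zpowers d ≤ K ⊔ Subgroup.zpowers d) (Subgroup.mem_zpowers d), ?_,
    hdp, ?_⟩, sup_le hKT ((Subgroup.zpowers_le).mpr hdT)⟩
  · intro u hu
    obtain ⟨y, hy, z, hz, rfl⟩ := Subgroup.mem_sup.mp hu
    obtain ⟨n', rfl⟩ := Subgroup.mem_zpowers_iff.mp hz
    exact ⟨n', by rwa [mul_inv_cancel_right]⟩
  · intro n' hn'
    by_contra hndvd
    have hcop : IsCoprime n' (p : ℤ) := by
      rw [isCoprime_comm, (Nat.prime_iff_prime_int.mp hp).irreducible.coprime_iff_not_dvd]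
      exact hndvd
    obtain ⟨a, b, hab⟩ := hcop
    apply hdK
    have : d = (d ^ n') ^ a * (d ^ p) ^ b := by
      rw [← zpow_natCast d p, ← _root_.zpow_mul, ← _root_.zpow_mul, ← _root_.zpow_add, mul_comm n' a,
        mul_comm (p : ℤ) b, hab, zpow_one]
    rw [this]
    exact mul_mem (zpow_mem hn' a) (zpow_mem hdp b)

/-- a transversal of `Γ_K` in `Γ_{T₀}` for `K ≤ T₀` -/
noncomputable def ihfTransRel {T₀ : Subgroup (ZMod M)ˣ} (hKT : K ≤ T₀) :
    IhfTrans (ihfGammaH M K) (ihfGammaH M T₀) (↥T₀ ⧸ K.subgroupOf T₀) :=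
  ihfTransOfUnits (fun q => ((Quotient.out q : ↥T₀) : (ZMod M)ˣ)) (fun q => (Quotient.out q).2)
    (fun u hu => ⟨((⟨u, hu⟩ : ↥T₀) : ↥T₀ ⧸ K.subgroupOf T₀), by
      have h : ((Quotient.out ((⟨u, hu⟩ : ↥T₀) : ↥T₀ ⧸ K.subgroupOf T₀) : ↥T₀) :
          ↥T₀ ⧸ K.subgroupOf T₀) = ((⟨u, hu⟩ : ↥T₀) : ↥T₀ ⧸ K.subgroupOf T₀) :=
        QuotientGroup.out_eq' _
      rw [QuotientGroup.eq, Subgroup.mem_subgroupOf] at h
      have h' : ((Quotient.out ((⟨u, hu⟩ : ↥T₀) : ↥T₀ ⧸ K.subgroupOf T₀) : ↥T₀) : (ZMod M)ˣ)⁻¹ * u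
          ∈ K := h
      rwa [mul_comm] at h'⟩)
    (fun a b h => by
      have h1 : ((Quotient.out a : ↥T₀) : ↥T₀ ⧸ K.subgroupOf T₀) = a := QuotientGroup.out_eq' _
      have h2 : ((Quotient.out b : ↥T₀) : ↥T₀ ⧸ K.subgroupOf T₀) = b := QuotientGroup.out_eq' _
      rw [← h1, ← h2, QuotientGroup.eq, Subgroup.mem_subgroupOf]
      show ((Quotient.out a : ↥T₀) : (ZMod M)ˣ)⁻¹ * ((Quotient.out b : ↥T₀) : (ZMod M)ˣ) ∈ K
      have := inv_mem h
      rwa [_root_.mul_inv_rev, inv_inv, mul_comm] at this)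

end Exists

end Fermat.Agent.Ihara
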