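/-
IHARA track, package [H4](ii) (helper1): **lifting parabolic homomorphisms** along a surjection of
coefficient rings `π : 𝒪 → k` in which `2` and `3` are invertible (`H²(Γ, -) = 0` away from `6`).

`Γ ≤ SL(2, ℤ)` of finite index containing `-1`, `D : LrdSys Γ ι` a right-coset system.
* `ihf_exists_hom_add`     : every additive cocycle `(a, b)` comes from a homomorphism `Γ → A`;
* `ihf_parabolic_iff_cocT` : `φ` parabolic `↔` its `T`-cocycle is a coboundary `u - u ∘ sT`;
* `ihf_aug_decomp`         : sum-zero functions are `(sS - 1) v + (1 - sT) u`;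
* `ihf_lift_par`           : every parabolic `Γ → k` lifts to a parabolic `Γ → 𝒪`.
-/
import Mathlib
import Fermat.Agent.Lib.LR.Dual.UnimodMain

set_option autoImplicit false
set_option linter.unusedSectionVars false
set_option linter.unusedVariables false

namespace Fermat.Agent.Ihara

open Matrix MatrixGroups ModularGroup ModularCurve.Period Function Fermat.Agent.T1 Fermat.Agent.LR

variable {Γ : Subgroup SL(2, ℤ)} {ι : Type} [Fintype ι] (D : LrdSys Γ ι)

/-! ### Existence, additively -/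

/-- every additive cocycle `(a, b)` is cohomologous to the cocycle of a homomorphism -/
theorem ihf_exists_hom_add {A : Type*} [AddCommGroup A] (a b : ι → A)
    (ha : ∀ x, a x + a (D.sS x) = 0)
    (hb : ∀ x, b x + b (D.sR x) + b (D.sR (D.sR x)) = 0) :
    ∃ (φ : Additive Γ →+ A) (h : ι → A), (∀ x, D.coc φ S x = h x + a x - h (D.sS x)) ∧
      (∀ x, D.coc φ lrdR x = h x + b x - h (D.sR x)) := by
  obtain ⟨ρ, h, h1, h2⟩ := lrds_exists_hom D (fun x => Multiplicative.ofAdd (a x))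
    (fun x => Multiplicative.ofAdd (b x))
    (fun x => by
      show Multiplicative.ofAdd (a x + a (D.sS x)) = 1
      rw [ha x]; rfl)
    (fun x => by
      show Multiplicative.ofAdd (b x + b (D.sR x) + b (D.sR (D.sR x))) = 1
      rw [hb x]; rfl)
  refine ⟨{ toFun := fun γ => Multiplicative.toAdd (ρ (Additive.toMul γ))
            map_zero' := by
              show Multiplicative.toAdd (ρ 1) = 0
              rw [map_one]; rfl
            map_add' := fun γ δ => by
              show Multiplicative.toAdd (ρ (Additive.toMul γ * Additive.toMul δ)) = _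
              rw [map_mul]; rfl },
    fun x => Multiplicative.toAdd (h x), fun x => ?_, fun x => ?_⟩
  · show Multiplicative.toAdd (ρ (D.eps S x)) = _
    rw [h1 x]
    show Multiplicative.toAdd (h x) + a x + -Multiplicative.toAdd (h (D.sS x)) = _
    abel
  · show Multiplicative.toAdd (ρ (D.eps lrdR x)) = _
    rw [h2 x]
    show Multiplicative.toAdd (h x) + b x + -Multiplicative.toAdd (h (D.sR x)) = _
    abel

/-! ### The parabolic criterion -/

section Par

variable {A : Type*} [AddCommGroup A]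

theorem ihf_cocT_pow {φ : Additive Γ →+ A} {u : ι → A}
    (hT : ∀ y, D.coc φ T y = u y - u (D.sT y)) (n : ℕ) (x : ι) :
    D.coc φ (T ^ n) x = u x - u (D.act (T ^ n) x) := by
  induction n with
  | zero => rw [pow_zero, D.coc_one, D.act_one, sub_self]
  | succ n ih =>
    rw [D.coc_pow_succ, ih, hT, D.act_pow, D.act_pow, pow_succ', Equiv.Perm.mul_apply]
    show _ = u x - u (D.sT ((D.sigma T ^ n) x))
    abel

theorem ihf_conj_T_pow {φ : Additive Γ →+ A} {u : ι → A}
    (hT : ∀ y, D.coc φ T y = u y - u (D.sT y)) (σ : SL(2, ℤ)) (n : ℕ)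
    (hmem : σ⁻¹ * T ^ n * σ ∈ Γ) : φ (Additive.ofMul ⟨σ⁻¹ * T ^ n * σ, hmem⟩) = 0 := by
  set x := D.act σ⁻¹ D.base with hx
  set δ := D.eps σ⁻¹ D.base with hδ
  have h1 : σ⁻¹ = (δ : SL(2, ℤ)) * D.rep x := by
    have := D.rep_mul σ⁻¹ D.base
    rwa [D.rep_base, one_mul] at this
  set γ : Γ := ⟨σ⁻¹ * T ^ n * σ, hmem⟩ with hγ
  have h2 : D.rep x * T ^ n = ((δ⁻¹ * γ * δ : Γ) : SL(2, ℤ)) * D.rep x := by
    have hσ : σ = (D.rep x)⁻¹ * ((δ : SL(2, ℤ)))⁻¹ := by
      rw [← _root_.mul_inv_rev, ← h1, inv_inv]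
    simp only [Subgroup.coe_mul, Subgroup.coe_inv, hγ]
    rw [h1, hσ]
    group
  obtain ⟨e1, e2⟩ := D.eq_of_rep_mul h2
  have h3 : φ (Additive.ofMul γ) = φ (Additive.ofMul (δ⁻¹ * γ * δ)) := by
    rw [ofMul_mul, ofMul_mul, ofMul_inv, map_add, map_add, map_neg]
    abel
  rw [h3, e2]
  have := ihf_cocT_pow D hT n x
  rw [← e1, sub_self] at this
  exact this

/-- a homomorphism whose `T`-cocycle is a coboundary is parabolic -/
theorem ihf_parabolic_of_cocT (h2 : ∀ a : A, a + a = 0 → a = 0) {φ : Additive Γ →+ A}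
    {u : ι → A} (hT : ∀ y, D.coc φ T y = u y - u (D.sT y)) : IsParabolicHom Γ φ := by
  intro γ hγ
  have hneg : φ (Additive.ofMul (⟨-1, D.neg_mem⟩ : Γ)) = 0 := by
    apply h2
    rw [← map_add, ← ofMul_mul]
    have : (⟨-1, D.neg_mem⟩ : Γ) * ⟨-1, D.neg_mem⟩ = 1 := Subtype.ext lrd_neg_one_mul_self
    rw [this, ofMul_one, map_zero]
  have key : ∀ (σ : SL(2, ℤ)) (n : ℤ) (hmem : σ⁻¹ * T ^ n * σ ∈ Γ),
      φ (Additive.ofMul ⟨σ⁻¹ * T ^ n * σ, hmem⟩) = 0 := by
    intro σ n hmem
    rcases Int.eq_nat_or_neg n with ⟨m, rfl | rfl⟩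
    · have hmem' : σ⁻¹ * T ^ m * σ ∈ Γ := by simpa using hmem
      have := ihf_conj_T_pow D hT σ m hmem'
      convert this using 3
      simp
    · have e : σ⁻¹ * T ^ (-(m : ℤ)) * σ = (σ⁻¹ * T ^ m * σ)⁻¹ := by
        rw [_root_.zpow_neg, zpow_natCast]
        group
      have hmem' : σ⁻¹ * T ^ m * σ ∈ Γ := by
        have := inv_mem hmem
        rwa [e, inv_inv] at this
      have h0 := ihf_conj_T_pow D hT σ m hmem'
      have e2 : (⟨σ⁻¹ * T ^ (-(m : ℤ)) * σ, hmem⟩ : Γ) = (⟨σ⁻¹ * T ^ m * σ, hmem'⟩ : Γ)⁻¹ :=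
        Subtype.ext e
      rw [e2, ofMul_inv, map_neg, h0, neg_zero]
  obtain ⟨σ, n, h | h⟩ := tdm_parabolic_conj (γ : SL(2, ℤ)) hγ
  · have hmem : σ⁻¹ * T ^ n * σ ∈ Γ := h ▸ γ.2
    have : γ = ⟨σ⁻¹ * T ^ n * σ, hmem⟩ := Subtype.ext h
    rw [this]
    exact key σ n hmem
  · have hmem : σ⁻¹ * T ^ n * σ ∈ Γ := by
      have h' : σ⁻¹ * T ^ n * σ = -1 * (γ : SL(2, ℤ)) := by
        rw [h]
        simp
      rw [h']
      exact mul_mem D.neg_mem γ.2
    have : γ = (⟨-1, D.neg_mem⟩ : Γ) * ⟨σ⁻¹ * T ^ n * σ, hmem⟩ := by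
      apply Subtype.ext
      rw [Subgroup.coe_mul, h]
      simp
    rw [this, ofMul_mul, map_add, hneg, key σ n hmem, add_zero]

/-- the `T`-cocycle of a parabolic homomorphism is a coboundary -/
theorem ihf_cocT_of_parabolic {φ : Additive Γ →+ A} (hφ : IsParabolicHom Γ φ) :
    ∃ u : ι → A, ∀ y, D.coc φ T y = u y - u (D.sT y) := by
  refine lrdo_potential D.sT (fun y => D.coc φ T y) fun x => ?_
  set n := minimalPeriod D.sT x with hn
  have h1 : ∀ m : ℕ, ∑ j ∈ Finset.range m, D.coc φ T ((D.sT ^ j) x) = D.coc φ (T ^ m) x := by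
    intro m
    induction m with
    | zero => rw [Finset.sum_range_zero, pow_zero, D.coc_one]
    | succ m ih =>
      rw [Finset.sum_range_succ, ih, D.coc_pow_succ]
      rfl
  rw [h1 n]
  have hx : D.act (T ^ n) x = x := by
    rw [D.act_pow]
    exact lrdo_pow_minimalPeriod D.sT x
  exact hφ _ (lrd_trace_eps_T_pow D n x hx)

end Par

/-! ### The augmentation module -/

section Aug

variable {A : Type*} [AddCommGroup A]

/-- functions of the form `(sS - 1) v + (1 - sT) u` -/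
def ihfAugSub : AddSubgroup (ι → A) where
  carrier := {f | ∃ v u : ι → A, ∀ x, f x = (v (D.sS x) - v x) + (u x - u (D.sT x))}
  zero_mem' := ⟨0, 0, fun x => by simp⟩
  add_mem' := by
    rintro f g ⟨v, u, hf⟩ ⟨v', u', hg⟩
    refine ⟨v + v', u + u', fun x => ?_⟩
    simp only [Pi.add_apply, hf x, hg x]
    abel
  neg_mem' := by
    rintro f ⟨v, u, hf⟩
    refine ⟨-v, -u, fun x => ?_⟩
    simp only [Pi.neg_apply, hf x]
    abel

open Classical in
theorem ihf_aug_single (g : SL(2, ℤ)) :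
    ∀ (y : ι) (a : A), Pi.single (D.act g y) a - Pi.single y a ∈ ihfAugSub D (A := A) := by
  have hg : g ∈ Subgroup.closure ({S, lrdR} : Set SL(2, ℤ)) := by
    rw [lrd_closure_S_R]; exact Subgroup.mem_top g
  have hS : ∀ (y : ι) (a : A), Pi.single (D.sS y) a - Pi.single y a ∈ ihfAugSub D (A := A) := by
    intro y a
    refine ⟨Pi.single y a, 0, fun x => ?_⟩
    simp only [Pi.sub_apply, Pi.zero_apply, sub_self, add_zero]
    congr 1
    by_cases hx : x = D.sS y
    · rw [hx, Pi.single_eq_same, D.sS_sS, Pi.single_eq_same]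
    · rw [Pi.single_eq_of_ne hx, Pi.single_eq_of_ne]
      intro h
      exact hx (by rw [← h, D.sS_sS])
  have hT : ∀ (z : ι) (a : A), Pi.single (D.sT z) a - Pi.single z a ∈ ihfAugSub D (A := A) := by
    intro z a
    refine ⟨0, Pi.single (D.sT z) a, fun x => ?_⟩
    simp only [Pi.sub_apply, Pi.zero_apply, sub_self, zero_add]
    congr 1
    by_cases hx : x = z
    · rw [hx, Pi.single_eq_same, Pi.single_eq_same]
    · rw [Pi.single_eq_of_ne hx, Pi.single_eq_of_ne]
      intro h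
      exact hx (D.sT.injective h)
  induction hg using Subgroup.closure_induction with
  | mem g hg =>
    rcases hg with rfl | hg
    · exact hS
    · rw [Set.mem_singleton_iff] at hg
      subst hg
      intro y a
      have e : D.act lrdR y = D.sT (D.sS y) := by
        rw [D.sT_apply', D.sS_sS]; rfl
      rw [e]
      have := (ihfAugSub D (A := A)).add_mem (hT (D.sS y) a) (hS y a)
      convert this using 1
      abel
  | one =>
    intro y a
    rw [D.act_one, sub_self]
    exact (ihfAugSub D).zero_mem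
  | mul g k _ _ ihg ihk =>
    intro y a
    rw [D.act_mul]
    have := (ihfAugSub D (A := A)).add_mem (ihk (D.act g y) a) (ihg y a)
    convert this using 1
    abel
  | inv g _ ihg =>
    intro y a
    have h1 := ihg (D.act g⁻¹ y) a
    rw [D.act_act_inv] at h1
    have := (ihfAugSub D (A := A)).neg_mem h1
    convert this using 1
    abel

open Classical in
/-- **sum-zero functions are `(sS - 1) v + (1 - sT) u`** (the graph of cusps is connected) -/
theorem ihf_aug_decomp (f : ι → A) (hf : ∑ x, f x = 0) :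
    ∃ v u : ι → A, ∀ x, f x = (v (D.sS x) - v x) + (u x - u (D.sT x)) := by
  have h1 : f = ∑ x, (Pi.single x (f x) - Pi.single D.base (f x)) := by
    rw [Finset.sum_sub_distrib, Finset.univ_sum_single]
    have : ∑ x, (Pi.single D.base (f x) : ι → A) = 0 := by
      funext y
      rw [Finset.sum_apply]
      by_cases hy : y = D.base
      · subst hy
        simp only [Pi.single_eq_same, hf, Pi.zero_apply]
      · simp only [Pi.single_eq_of_ne hy, Finset.sum_const_zero, Pi.zero_apply]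
    rw [this, sub_zero]
  have h2 : f ∈ ihfAugSub D (A := A) := by
    rw [h1]
    refine AddSubgroup.sum_mem _ fun x _ => ?_
    have := ihf_aug_single D (A := A) (D.rep x) D.base (f x)
    rwa [D.act_rep_base] at this
  exact h2

end Aug

/-! ### Lifting -/

section Lift

variable {𝒪 k : Type*} [CommRing 𝒪] [CommRing k] (π : 𝒪 →+* k) (hπ : Function.Surjective π)
  (h2 : IsUnit (2 : 𝒪)) (h3 : IsUnit (3 : 𝒪))

include D hπ h2 h3 in
/-- **every parabolic homomorphism `Γ → k` lifts to a parabolic homomorphism `Γ → 𝒪`** -/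
theorem ihf_lift_par (φ' : Additive Γ →+ k) (hφ' : IsParabolicHom Γ φ') :
    ∃ φ : Additive Γ →+ 𝒪, IsParabolicHom Γ φ ∧ (π : 𝒪 →+ k).comp φ = φ' := by
  classical
  obtain ⟨i2, hi2⟩ := h2.exists_right_inv
  obtain ⟨i3, hi3⟩ := h3.exists_right_inv
  have h2' : π i2 * 2 = 1 := by
    rw [← map_ofNat π 2, ← map_mul, mul_comm, hi2, map_one]
  have h2k : ∀ a : k, a + a = 0 → a = 0 := by
    intro a ha
    linear_combination (-a) * h2' + π i2 * ha
  have h2O : ∀ a : 𝒪, a + a = 0 → a = 0 := by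
    intro a ha
    linear_combination (-a) * hi2 + i2 * ha
  obtain ⟨u, hu⟩ := ihf_cocT_of_parabolic D hφ'
  set a : ι → k := fun x => D.coc φ' S x with hadef
  set b : ι → k := fun x => D.coc φ' lrdR x with hbdef
  have ha : ∀ x, a x + a (D.sS x) = 0 := D.coc_S_add h2k φ'
  have hb : ∀ x, b x + b (D.sR x) + b (D.sR (D.sR x)) = 0 := D.coc_R_add h2k φ'
  choose a₀ ha₀ using fun x => hπ (a x)
  choose b₀ hb₀ using fun x => hπ (b x)
  choose u₀ hu₀ using fun x => hπ (u x)
  set a₁ : ι → 𝒪 := fun x => i2 * (a₀ x - a₀ (D.sS x)) with ha₁def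
  set b₁ : ι → 𝒪 := fun x => b₀ x - i3 * (b₀ x + b₀ (D.sR x) + b₀ (D.sR (D.sR x))) with hb₁def
  have ha₁ : ∀ x, a₁ x + a₁ (D.sS x) = 0 := by
    intro x
    simp only [ha₁def, D.sS_sS]
    ring
  have hb₁ : ∀ x, b₁ x + b₁ (D.sR x) + b₁ (D.sR (D.sR x)) = 0 := by
    intro x
    simp only [hb₁def, D.sR_sR_sR]
    linear_combination (-(b₀ x + b₀ (D.sR x) + b₀ (D.sR (D.sR x)))) * hi3
  have hπa₁ : ∀ x, π (a₁ x) = a x := by
    intro x
    simp only [ha₁def, map_mul, map_sub, ha₀]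
    linear_combination (a x) * h2' - π i2 * ha x
  have hπb₁ : ∀ x, π (b₁ x) = b x := by
    intro x
    simp only [hb₁def, map_mul, map_sub, map_add, hb₀]
    linear_combination (- π i3) * hb x
  -- the defect
  set c : ι → 𝒪 := fun y => (b₁ (D.sS y) - a₁ (D.sS y)) - (u₀ y - u₀ (D.sT y)) with hcdef
  have hπc : ∀ y, c y ∈ (π : 𝒪 →+ k).ker := by
    intro y
    rw [AddMonoidHom.mem_ker]
    show π (c y) = 0
    simp only [hcdef, map_sub, hπa₁, hπb₁, hu₀]
    have h1 := D.coc_T φ' y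
    have h2 := hu y
    rw [h1] at h2
    linear_combination h2
  have hsa : ∑ x, a₁ x = 0 := by
    apply h2O
    rw [← Finset.sum_add_distrib]
    have : ∑ x, a₁ (D.sS x) = ∑ x, a₁ x := Equiv.sum_comp D.sS a₁
    have h := Finset.sum_congr rfl fun x (_ : x ∈ Finset.univ) => ha₁ x
    rw [Finset.sum_add_distrib, this, Finset.sum_const_zero] at h
    rw [Finset.sum_add_distrib]
    exact h
  have hsb : ∑ x, b₁ x = 0 := by
    have e1 : ∑ x, b₁ (D.sR x) = ∑ x, b₁ x := Equiv.sum_comp D.sR b₁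
    have e2 : ∑ x, b₁ (D.sR (D.sR x)) = ∑ x, b₁ x := Equiv.sum_comp (D.sR * D.sR) b₁
    have h := Finset.sum_congr rfl fun x (_ : x ∈ Finset.univ) => hb₁ x
    rw [Finset.sum_add_distrib, Finset.sum_add_distrib, e1, e2, Finset.sum_const_zero] at h
    linear_combination (-(∑ x, b₁ x)) * hi3 + i3 * h
  have hsc : ∑ y, c y = 0 := by
    simp only [hcdef, Finset.sum_sub_distrib]
    rw [Equiv.sum_comp D.sS b₁, Equiv.sum_comp D.sS a₁, Equiv.sum_comp D.sT u₀, hsa, hsb]
    ring
  set c' : ι → (π : 𝒪 →+ k).ker := fun y => ⟨c y, hπc y⟩ with hc'def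
  have hsc' : ∑ y, c' y = 0 := by
    apply Subtype.ext
    rw [AddSubmonoidClass.coe_finsetSum]
    exact hsc
  obtain ⟨v, w, hvw⟩ := ihf_aug_decomp D c' hsc'
  have hvw' : ∀ x, c x = ((v (D.sS x) : 𝒪) - (v x : 𝒪)) + ((w x : 𝒪) - (w (D.sT x) : 𝒪)) := by
    intro x
    have := congrArg (fun z : (π : 𝒪 →+ k).ker => (z : 𝒪)) (hvw x)
    simpa using this
  set a₂ : ι → 𝒪 := fun x => a₁ x + ((v x : 𝒪) - (v (D.sS x) : 𝒪)) with ha₂def
  have ha₂ : ∀ x, a₂ x + a₂ (D.sS x) = 0 := by
    intro x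
    simp only [ha₂def, D.sS_sS]
    linear_combination ha₁ x
  have hπv : ∀ x, π (v x : 𝒪) = 0 := fun x => (v x).2
  have hπa₂ : ∀ x, π (a₂ x) = a x := by
    intro x
    simp only [ha₂def, map_add, map_sub, hπv, hπa₁]
    ring
  obtain ⟨φ, h, hS, hR⟩ := ihf_exists_hom_add D a₂ b₁ ha₂ hb₁
  have hT : ∀ y, D.coc φ T y
      = ((w y : 𝒪) + u₀ y + h y) - ((w (D.sT y) : 𝒪) + u₀ (D.sT y) + h (D.sT y)) := by
    intro y
    rw [D.coc_T, hR, hS, D.sS_sS, ← D.sT_apply']
    have h1 := hvw' y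
    simp only [hcdef] at h1
    simp only [ha₂def, D.sS_sS]
    linear_combination h1
  refine ⟨φ, ihf_parabolic_of_cocT D h2O (u := fun y => (w y : 𝒪) + u₀ y + h y) hT, ?_⟩
  refine lrdq_hom_ext D _ φ' (fun x => π (h x)) (fun x => ?_) (fun x => ?_)
  · show π (D.coc φ S x) = _
    rw [hS, map_sub, map_add, hπa₂]
    ring
  · show π (D.coc φ lrdR x) = _
    rw [hR, map_sub, map_add, hπb₁]
    ring

end Lift

end Fermat.Agent.Ihara
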