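/-
IHARA track, package [H4](ii) (helper1): **reduction of coefficients** `𝒪 → k` on parabolic
homomorphisms, and the spanning statement
`Hom_par(Γ, k) = k-span of the reductions of Hom_par(Γ, ℤ)` (`ihf_span_top`), valid when `k` is a
quotient of a characteristic-zero domain `𝒪` in which `6` is invertible.
-/
import Mathlib
import Fermat.Agent.Lib.Ihara.Fr.GammaH
import Fermat.Agent.Lib.Ihara.Fr.Lift
import Fermat.Agent.Lib.T1G.ES.Lattice
import Fermat.Agent.Lib.T2.F.Coset2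

set_option autoImplicit false
set_option linter.unusedSectionVars false
set_option linter.unusedVariables false

namespace Fermat.Agent.Ihara

open Matrix MatrixGroups CongruenceSubgroup ModularCurve ModularCurve.Period
open Fermat.Agent.DS Fermat.Agent.T1 Fermat.Agent.T1G Fermat.Agent.T2 Fermat.Agent.LR

instance ihfGammaH_finiteIndex (M : ℕ) [NeZero M] (H : Subgroup (ZMod M)ˣ) :
    (ihfGammaH M H).FiniteIndex :=
  Subgroup.finiteIndex_of_le ihfGamma1_le_GammaH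

section Red

variable (Γ : Subgroup SL(2, ℤ)) {𝒪 k : Type*} [CommRing 𝒪] [CommRing k] (π : 𝒪 →+* k)

/-- reduction of coefficients on parabolic homomorphisms -/
def ihfRed : ↥(parabolicHoms 𝒪 Γ 𝒪) →ₛₗ[π] ↥(parabolicHoms k Γ k) where
  toFun φ := ⟨(π : 𝒪 →+ k).comp φ.1, fun γ hγ => by
    show π (φ.1 (Additive.ofMul γ)) = 0
    rw [φ.2 γ hγ, map_zero]⟩
  map_add' φ ψ := by
    apply Subtype.ext
    refine AddMonoidHom.ext fun γ => ?_
    show π ((φ.1 + ψ.1) γ) = π (φ.1 γ) + π (ψ.1 γ)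
    rw [AddMonoidHom.add_apply, map_add]
  map_smul' a φ := by
    apply Subtype.ext
    refine AddMonoidHom.ext fun γ => ?_
    show π (a • φ.1 γ) = π a • π (φ.1 γ)
    rw [smul_eq_mul, map_mul, smul_eq_mul]

@[simp] theorem ihfRed_apply (φ : ↥(parabolicHoms 𝒪 Γ 𝒪)) (γ : Additive Γ) :
    ((ihfRed Γ π φ : ↥(parabolicHoms k Γ k)) : Additive Γ →+ k) γ = π (φ.1 γ) := rfl

theorem ihfRed_cast (φ₀ : ↥(tgeL Γ)) :
    ihfRed Γ π (tgeCastL Γ 𝒪 φ₀) = tgeCastL Γ k φ₀ := by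
  apply Subtype.ext
  refine AddMonoidHom.ext fun γ => ?_
  show π ((φ₀.1 γ : ℤ) : 𝒪) = ((φ₀.1 γ : ℤ) : k)
  rw [map_intCast]

variable [Γ.FiniteIndex] [IsDomain 𝒪] [CharZero 𝒪]

/-- **`Hom_par(Γ, k)` is spanned by the reductions of the integral parabolic homomorphisms** -/
theorem ihf_span_top (hneg : (-1 : SL(2, ℤ)) ∈ Γ) (hπ : Function.Surjective π)
    (h2 : IsUnit (2 : 𝒪)) (h3 : IsUnit (3 : 𝒪)) :
    Submodule.span k (Set.range (tgeCastL Γ k)) = ⊤ := by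
  letI : Fintype (SL(2, ℤ) ⧸ Γ) := Subgroup.fintypeQuotientOfFiniteIndex
  rw [eq_top_iff]
  rintro ψ -
  obtain ⟨φ, hφ, e⟩ := ihf_lift_par (lrdSysOf Γ hneg) π hπ h2 h3 ψ.1 ψ.2
  obtain ⟨x, hx⟩ := tgeBCmap_surjective Γ 𝒪 ⟨φ, hφ⟩
  have key : ∀ x : TensorProduct ℤ 𝒪 ↥(tgeL Γ),
      ihfRed Γ π (tgeBCmap Γ 𝒪 x) ∈ Submodule.span k (Set.range (tgeCastL Γ k)) := by
    intro x
    induction x using TensorProduct.induction_on with
    | zero => rw [map_zero, map_zero]; exact Submodule.zero_mem _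
    | tmul a φ₀ =>
      rw [tgeBCmap_tmul, map_smulₛₗ, ihfRed_cast]
      exact Submodule.smul_mem _ _ (Submodule.subset_span ⟨φ₀, rfl⟩)
    | add x y hx hy =>
      rw [map_add, map_add]
      exact Submodule.add_mem _ hx hy
  have : ψ = ihfRed Γ π (tgeBCmap Γ 𝒪 x) := by
    rw [hx]
    exact Subtype.ext e.symm
  rw [this]
  exact key x

/-- two linear maps on `Hom_par(Γ, k)` which agree on the integral classes are equal -/
theorem ihf_ext_cast (hneg : (-1 : SL(2, ℤ)) ∈ Γ) (hπ : Function.Surjective π)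
    (h2 : IsUnit (2 : 𝒪)) (h3 : IsUnit (3 : 𝒪)) {W : Type*} [AddCommGroup W] [Module k W]
    (f g : ↥(parabolicHoms k Γ k) →ₗ[k] W)
    (h : ∀ φ₀ : ↥(tgeL Γ), f (tgeCastL Γ k φ₀) = g (tgeCastL Γ k φ₀)) : f = g := by
  apply LinearMap.ext_on_range (ihf_span_top Γ π hneg hπ h2 h3)
  exact h

end Red

/-! ### Naturality in the coefficients -/

section Nat

variable {Γ Γ' : Subgroup SL(2, ℤ)} {ι : Type} [Fintype ι] (k : Type*) [CommRing k]

theorem ihf_cast_homPar (S : tdmCosetSys Γ ι) (φ₀ : ↥(tgeL Γ)) :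
    S.homPar k k (tgeCastL Γ k φ₀) = tgeCastL Γ k (S.homPar ℤ ℤ φ₀) := by
  apply Subtype.ext
  exact S.hom_comp (Int.castAddHom k) φ₀.1

theorem ihf_cor_comp (C : T2fSys₂ Γ Γ' ι) {A B : Type*} [AddCommGroup A] [AddCommGroup B]
    (f : A →+ B) (φ : Additive Γ →+ A) : C.cor B (f.comp φ) = f.comp (C.cor A φ) := by
  refine AddMonoidHom.ext fun δ' => ?_
  obtain ⟨δ, rfl⟩ := Additive.ofMul.surjective δ'
  show C.cor B (f.comp φ) (Additive.ofMul δ) = f (C.cor A φ (Additive.ofMul δ))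
  rw [T2fSys₂.cor_apply, T2fSys₂.cor_apply, map_sum]
  rfl

theorem ihf_cast_corPar (C : T2fSys₂ Γ Γ' ι) (φ₀ : ↥(tgeL Γ)) :
    C.corPar k k (tgeCastL Γ k φ₀) = tgeCastL Γ' k (C.corPar ℤ ℤ φ₀) := by
  apply Subtype.ext
  exact ihf_cor_comp C (Int.castAddHom k) φ₀.1

theorem ihf_cast_resPar (hle : Γ ≤ Γ') (φ₀ : ↥(tgeL Γ')) :
    t2fResPar hle k k (tgeCastL Γ' k φ₀) = tgeCastL Γ k (t2fResPar hle ℤ ℤ φ₀) := rfl

end Nat

end Fermat.Agent.Ihara
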