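/-
IHARA track, package [H4](ii) (helper1): **commutation of the transfer with `T_ℓ` and the
conjugations**, first for torsion-free coefficients (via `res ∘ cor` and the injectivity of `res`),
then for `k`-valued parabolic homomorphisms (via the spanning statement `ihf_span_top`);
the cyclic transversal `γ_d ^ j`.
-/
import Mathlib
import Fermat.Agent.Lib.Ihara.Fr.Red
import Fermat.Agent.Lib.Ihara.Fr.Step
import Fermat.Agent.Lib.Ihara.Fr.Cor

set_option autoImplicit false
set_option linter.unusedSectionVars false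
set_option linter.unusedVariables false
set_option linter.style.haveILetI false

namespace Fermat.Agent.Ihara

open Matrix MatrixGroups CongruenceSubgroup ModularCurve ModularCurve.Period
open Fermat.Agent.DS Fermat.Agent.T1 Fermat.Agent.T1G Fermat.Agent.T2 Fermat.Agent.LR

/-! ### Torsion-free coefficients -/

section TF

variable {M : ℕ} [NeZero M] {K K' : Subgroup (ZMod M)ˣ} (hle : K ≤ K') {I : Type} [Fintype I]
  (τ : IhfTrans (ihfGammaH M K) (ihfGammaH M K') I)
  {A : Type*} [AddCommGroup A] (hA : ∀ n : ℕ, n ≠ 0 → ∀ a : A, n • a = 0 → a = 0)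

include τ in
theorem ihf_trans_nonempty : Nonempty I := by
  obtain ⟨i, -⟩ := τ.ex 1 (one_mem _)
  exact ⟨i⟩

include hA τ in
/-- restriction is injective on homomorphisms with torsion-free values -/
theorem ihf_res_injective_tf (ψ ψ' : Additive (ihfGammaH M K') →+ A)
    (h : t2fRes (ihfGammaH_mono hle) A ψ = t2fRes (ihfGammaH_mono hle) A ψ') : ψ = ψ' := by
  haveI := ihf_trans_nonempty τ
  have h1 := τ.cor_res (ihfGammaH_mono hle) ψ
  have h2 := τ.cor_res (ihfGammaH_mono hle) ψ'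
  rw [h] at h1
  have h3 : Fintype.card I • (ψ - ψ') = 0 := by
    rw [smul_sub, ← h1, ← h2, sub_self]
  have h4 : ψ - ψ' = 0 := by
    refine AddMonoidHom.ext fun γ => ?_
    apply hA (Fintype.card I) Fintype.card_ne_zero
    have := DFunLike.congr_fun h3 γ
    simpa using this
  exact sub_eq_zero.mp h4

variable {ℓ : ℕ} (hℓ : ℓ.Prime) (hℓM : ¬ ℓ ∣ M)

include hA in
/-- **the transfer commutes with `T_ℓ`** (torsion-free coefficients) -/
theorem ihf_cor_T_tf (φ : Additive (ihfGammaH M K) →+ A) :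
    (τ.sys (ihfGammaH_mono hle)).cor A ((ihfSysT M K hℓ hℓM).hom A φ)
      = (ihfSysT M K' hℓ hℓM).hom A ((τ.sys (ihfGammaH_mono hle)).cor A φ) := by
  apply ihf_res_injective_tf hle τ hA
  rw [ihf_res_cor hle τ, ihf_res_T hℓ hℓM hle, ihf_res_cor hle τ, map_sum]
  refine Finset.sum_congr rfl fun i _ => ?_
  exact (ihf_T_C_comm hℓ hℓM _ _ φ).symm

include hA in
/-- **the transfer commutes with the conjugations** (torsion-free coefficients) -/
theorem ihf_cor_C_tf (g : SL(2, ℤ)) (hg : g ∈ Gamma0 M) (φ : Additive (ihfGammaH M K) →+ A) :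
    (τ.sys (ihfGammaH_mono hle)).cor A ((ihfSysC M K g hg).hom A φ)
      = (ihfSysC M K' g hg).hom A ((τ.sys (ihfGammaH_mono hle)).cor A φ) := by
  apply ihf_res_injective_tf hle τ hA
  rw [ihf_res_cor hle τ, ihf_res_C hle, ihf_res_cor hle τ, map_sum]
  refine Finset.sum_congr rfl fun i _ => ?_
  have hc0 : τ.c i ∈ Gamma0 M := ihfGammaH_le_Gamma0 (τ.mem i)
  rw [← ihfSysC_hom_mul M K g (τ.c i) hg hc0 φ, ← ihfSysC_hom_mul M K (τ.c i) g hc0 hg φ]
  refine ihfSysC_hom_congr M K _ _ _ _ ?_ φ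
  refine ihf_mem_GammaH_of_dshD_eq (one_mem _)
    (mul_mem (mul_mem hg hc0) (inv_mem (mul_mem hc0 hg))) ?_
  rw [dshD_one, dshD_mul (mul_mem hg hc0), dshD_mul hg, ← dshD_mul_inv (mul_mem hc0 hg),
    dshD_mul hc0, mul_comm (dshD M g)]

end TF

/-! ### `k`-valued parabolic homomorphisms -/

section Field

variable {M : ℕ} [NeZero M] {K K' : Subgroup (ZMod M)ˣ} (hle : K ≤ K') {I : Type} [Fintype I]
  (τ : IhfTrans (ihfGammaH M K) (ihfGammaH M K') I)
  {𝒪 k : Type*} [CommRing 𝒪] [IsDomain 𝒪] [CharZero 𝒪] [Field k]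
  (π : 𝒪 →+* k) (hπ : Function.Surjective π) (h2 : IsUnit (2 : 𝒪)) (h3 : IsUnit (3 : 𝒪))
  (hneg : (-1 : (ZMod M)ˣ) ∈ K)
  {ℓ : ℕ} (hℓ : ℓ.Prime) (hℓM : ¬ ℓ ∣ M)

theorem ihf_int_tf : ∀ n : ℕ, n ≠ 0 → ∀ a : ℤ, n • a = 0 → a = 0 := by
  intro n hn a h
  rw [nsmul_eq_mul] at h
  rcases mul_eq_zero.mp h with h | h
  · exact absurd (by exact_mod_cast h) hn
  · exact h

include hπ h2 h3 hneg in
/-- **the transfer commutes with `T_ℓ`** on `Hom_par(-, k)` -/
theorem ihf_cor_T (φ : ↥(parabolicHoms k (ihfGammaH M K) k)) :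
    (τ.sys (ihfGammaH_mono hle)).corPar k k ((ihfSysT M K hℓ hℓM).homPar k k φ)
      = (ihfSysT M K' hℓ hℓM).homPar k k ((τ.sys (ihfGammaH_mono hle)).corPar k k φ) := by
  have := ihf_ext_cast (ihfGammaH M K) π (ihf_neg_one_mem hneg) hπ h2 h3
    (((τ.sys (ihfGammaH_mono hle)).corPar k k).comp ((ihfSysT M K hℓ hℓM).homPar k k))
    (((ihfSysT M K' hℓ hℓM).homPar k k).comp ((τ.sys (ihfGammaH_mono hle)).corPar k k))
    (fun φ₀ => by
      rw [LinearMap.comp_apply, LinearMap.comp_apply, ihf_cast_homPar, ihf_cast_corPar,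
        ihf_cast_corPar, ihf_cast_homPar]
      congr 1
      apply Subtype.ext
      exact ihf_cor_T_tf hle τ ihf_int_tf hℓ hℓM φ₀.1)
  exact LinearMap.congr_fun this φ

include hπ h2 h3 hneg in
/-- **the transfer commutes with the conjugations** on `Hom_par(-, k)` -/
theorem ihf_cor_C (g : SL(2, ℤ)) (hg : g ∈ Gamma0 M) (φ : ↥(parabolicHoms k (ihfGammaH M K) k)) :
    (τ.sys (ihfGammaH_mono hle)).corPar k k ((ihfSysC M K g hg).homPar k k φ)
      = (ihfSysC M K' g hg).homPar k k ((τ.sys (ihfGammaH_mono hle)).corPar k k φ) := by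
  have := ihf_ext_cast (ihfGammaH M K) π (ihf_neg_one_mem hneg) hπ h2 h3
    (((τ.sys (ihfGammaH_mono hle)).corPar k k).comp ((ihfSysC M K g hg).homPar k k))
    (((ihfSysC M K' g hg).homPar k k).comp ((τ.sys (ihfGammaH_mono hle)).corPar k k))
    (fun φ₀ => by
      rw [LinearMap.comp_apply, LinearMap.comp_apply, ihf_cast_homPar, ihf_cast_corPar,
        ihf_cast_corPar, ihf_cast_homPar]
      congr 1
      apply Subtype.ext
      exact ihf_cor_C_tf hle τ ihf_int_tf g hg φ₀.1)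
  exact LinearMap.congr_fun this φ

include hπ h2 h3 hneg in
/-- **the transfer commutes with the diamond operators** on `Hom_par(-, k)` -/
theorem ihf_cor_D (d : (ZMod M)ˣ) (φ : ↥(parabolicHoms k (ihfGammaH M K) k)) :
    (τ.sys (ihfGammaH_mono hle)).corPar k k ((ihfSysD M K d).homPar k k φ)
      = (ihfSysD M K' d).homPar k k ((τ.sys (ihfGammaH_mono hle)).corPar k k φ) :=
  ihf_cor_C hle τ π hπ h2 h3 hneg _ _ φ

end Field

end Fermat.Agent.Ihara
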