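/-
IHARA track, package [H4](ii) (helper1): **the induction over the subgroups `H ≤ K ≤ (ℤ/M)ˣ`**.

`V_K = Hom_par(Γ_K, k)`, `η_K = T_ℓ - (ℓ + 1)`, `W_K = ihfBij η_K` (the non-Eisenstein part).
Main result `ihf_claim`: `dim W_K = [⊤ : K] dim W_⊤`, `cor : W_K → W_⊤` is onto with kernel
`∑_d (⟨d⟩ - 1) W_K`.
-/
import Mathlib
import Fermat.Agent.Lib.Ihara.Fr.Abs
import Fermat.Agent.Lib.Ihara.Fr.Ops
import Fermat.Agent.Lib.Ihara.Fr.Cyc
import Fermat.Agent.Lib.Ihara.Fr.ToolB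

set_option autoImplicit false
set_option linter.unusedSectionVars false
set_option linter.unusedVariables false
set_option linter.style.haveILetI false

namespace Fermat.Agent.Ihara

open Matrix MatrixGroups CongruenceSubgroup ModularCurve ModularCurve.Period Module
open Fermat.Agent.DS Fermat.Agent.T1 Fermat.Agent.T1G Fermat.Agent.T2 Fermat.Agent.LR

/-! ### Finiteness -/

instance ihf_finite_homPar (Γ : Subgroup SL(2, ℤ)) [Γ.FiniteIndex] (R : Type*) [CommRing R]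
    [IsNoetherianRing R] : Module.Finite R ↥(parabolicHoms R Γ R) := by
  haveI := tdm_isNoetherian_homG (G := Γ) R
  infer_instance

/-! ### The operators -/

section Ops

variable {M : ℕ} [NeZero M] {ℓ : ℕ} (hℓ : ℓ.Prime) (hℓM : ¬ ℓ ∣ M) (k : Type*) [Field k]

/-- `η = T_ℓ - (ℓ + 1)` on `Hom_par(Γ_K, k)` -/
noncomputable def ihfEta (K : Subgroup (ZMod M)ˣ) : IhfH k k M K →ₗ[k] IhfH k k M K :=
  (ihfSysT M K hℓ hℓM).homPar k k - ((ℓ : k) + 1) • LinearMap.id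

/-- the diamond operator `⟨d⟩` on `Hom_par(Γ_K, k)` -/
noncomputable def ihfDel (K : Subgroup (ZMod M)ˣ) (d : (ZMod M)ˣ) :
    IhfH k k M K →ₗ[k] IhfH k k M K := (ihfSysD M K d).homPar k k

variable {k} {K K' : Subgroup (ZMod M)ˣ}

theorem ihfEta_apply (φ : IhfH k k M K) :
    ihfEta hℓ hℓM k K φ = (ihfSysT M K hℓ hℓM).homPar k k φ - ((ℓ : k) + 1) • φ := rfl

theorem ihfDel_coe (d : (ZMod M)ˣ) (φ : IhfH k k M K) :
    ((ihfDel k K d φ : IhfH k k M K) : Additive (ihfGammaH M K) →+ k)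
      = (ihfSysD M K d).hom k φ.1 := rfl

theorem ihfDel_one (φ : IhfH k k M K) : ihfDel k K 1 φ = φ :=
  Subtype.ext (ihfSysD_hom_one M K φ.1)

theorem ihfDel_mul (d d' : (ZMod M)ˣ) (φ : IhfH k k M K) :
    ihfDel k K (d * d') φ = ihfDel k K d (ihfDel k K d' φ) :=
  Subtype.ext (ihfSysD_hom_mul M K d d' φ.1)

theorem ihfDel_of_mem {h : (ZMod M)ˣ} (hh : h ∈ K) (φ : IhfH k k M K) : ihfDel k K h φ = φ :=
  Subtype.ext (ihfSysD_hom_of_mem M K h hh φ.1)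

theorem ihfDel_comm (d d' : (ZMod M)ˣ) (φ : IhfH k k M K) :
    ihfDel k K d (ihfDel k K d' φ) = ihfDel k K d' (ihfDel k K d φ) := by
  rw [← ihfDel_mul, ← ihfDel_mul, mul_comm]

theorem ihfDel_pow (d : (ZMod M)ˣ) (n : ℕ) : (ihfDel k K d) ^ n = ihfDel k K (d ^ n) := by
  induction n with
  | zero =>
    rw [pow_zero, pow_zero]
    exact LinearMap.ext fun φ => (ihfDel_one φ).symm
  | succ n ih =>
    rw [pow_succ, ih, pow_succ]
    exact LinearMap.ext fun φ => (ihfDel_mul _ _ φ).symm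

theorem ihfEta_res (hle : K ≤ K') (ψ : IhfH k k M K') :
    t2fResPar (ihfGammaH_mono hle) k k (ihfEta hℓ hℓM k K' ψ)
      = ihfEta hℓ hℓM k K (t2fResPar (ihfGammaH_mono hle) k k ψ) := by
  rw [ihfEta_apply, ihfEta_apply, map_sub, map_smul]
  congr 1
  exact Subtype.ext (ihf_res_T hℓ hℓM hle ψ.1)

theorem ihfDel_res (hle : K ≤ K') (d : (ZMod M)ˣ) (ψ : IhfH k k M K') :
    t2fResPar (ihfGammaH_mono hle) k k (ihfDel k K' d ψ)
      = ihfDel k K d (t2fResPar (ihfGammaH_mono hle) k k ψ) :=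
  Subtype.ext (ihf_res_D hle d ψ.1)

theorem ihfEta_del (d : (ZMod M)ˣ) (φ : IhfH k k M K) :
    ihfDel k K d (ihfEta hℓ hℓM k K φ) = ihfEta hℓ hℓM k K (ihfDel k K d φ) := by
  rw [ihfEta_apply, ihfEta_apply, map_sub, map_smul]
  congr 1
  exact Subtype.ext (ihf_T_D_comm hℓ hℓM d φ.1).symm

/-- Eisenstein: `res ψ = 0 → η ψ = 0` -/
theorem ihfEta_eis (hle : K ≤ K') (ψ : IhfH k k M K')
    (h : t2fResPar (ihfGammaH_mono hle) k k ψ = 0) : ihfEta hℓ hℓM k K' ψ = 0 := by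
  have h0 : t2fRes (ihfGammaH_mono hle) k ψ.1 = 0 := congrArg Subtype.val h
  have h1 := ihf_step_eis hℓ hℓM hle ψ.1 h0
  rw [ihfEta_apply, sub_eq_zero]
  apply Subtype.ext
  show (ihfSysT M K' hℓ hℓM).hom k ψ.1 = ((ℓ : k) + 1) • ψ.1
  rw [h1]
  refine AddMonoidHom.ext fun γ => ?_
  show (ℓ + 1) • ψ.1 γ = ((ℓ : k) + 1) • ψ.1 γ
  rw [nsmul_eq_mul, smul_eq_mul]
  push_cast
  rfl

end Ops

/-! ### The cyclic step -/

section CycStep

variable {p M : ℕ} [NeZero M] [hp : Fact p.Prime] {K K' : Subgroup (ZMod M)ˣ} {d : (ZMod M)ˣ}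
  (hc : IhfCyc M K K' d p) {ℓ : ℕ} (hℓ : ℓ.Prime) (hℓM : ¬ ℓ ∣ M)
  {𝒪 k : Type*} [CommRing 𝒪] [IsDomain 𝒪] [CharZero 𝒪] [Field k] [hk : CharP k p]
  (π : 𝒪 →+* k) (hπ : Function.Surjective π) (h2 : IsUnit (2 : 𝒪)) (h3 : IsUnit (3 : 𝒪))
  (hneg : (-1 : (ZMod M)ˣ) ∈ K)
  (hpar : ∀ γ : SL(2, ℤ), γ ∈ Gamma0 M → (γ : Matrix (Fin 2) (Fin 2) ℤ).trace ^ 2 = 4 →
    γ ∈ ihfGammaH M K)

include hc hk hpar in
/-- the extension statement: a `⟨d⟩`-invariant `φ` has `η φ` in the image of `res` -/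
theorem ihf_cyc_ext (φ : IhfH k k M K) (hφ : ihfDel k K d φ = φ) :
    ∃ ψ : IhfH k k M K', t2fResPar (ihfGammaH_mono hc.le) k k ψ = ihfEta hℓ hℓM k K φ := by
  set φ₁ := ihfEta hℓ hℓM k K φ with hφ₁
  have hinv : (ihfSysD M K d).hom k φ₁.1 = φ₁.1 := by
    have := ihfEta_del hℓ hℓM d φ
    rw [hφ] at this
    exact congrArg Subtype.val this
  have hφ' : (ihfSysD M K d).hom k φ.1 = φ.1 := congrArg Subtype.val hφ
  have hpk : ∀ a : k, p • a = 0 := by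
    intro a
    rw [nsmul_eq_mul, CharP.cast_eq_zero, zero_mul]
  have hob : φ₁.1 (Additive.ofMul ⟨(dshGammaU M d) ^ p, (ihf_pow_mem_iff d p).mpr hc.pow⟩) = 0 := by
    have h1 := ihf_step_ob_T hc hℓ hℓM hpk φ.1 hφ'
    show (ihfSysT M K hℓ hℓM).hom k φ.1 _ - ((ℓ : k) + 1) • φ.1 _ = 0
    rw [h1, nsmul_eq_mul, smul_eq_mul]
    push_cast
    ring
  obtain ⟨ψ₀, hψ₀⟩ := ihf_step_ext hc φ₁.1 hinv hob
  have hψpar : IsParabolicHom (ihfGammaH M K') ψ₀ := by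
    intro γ hγ
    have hγK : (γ : SL(2, ℤ)) ∈ ihfGammaH M K := hpar _ γ.2.1 hγ
    have h1 := DFunLike.congr_fun hψ₀ (Additive.ofMul (⟨γ, hγK⟩ : ihfGammaH M K))
    rw [t2fRes_apply] at h1
    have h2 : Subgroup.inclusion (ihfGammaH_mono hc.le) (⟨γ, hγK⟩ : ihfGammaH M K) = γ :=
      Subtype.ext rfl
    rw [h2] at h1
    rw [h1]
    exact φ₁.2 ⟨γ, hγK⟩ hγ
  exact ⟨⟨ψ₀, hψpar⟩, Subtype.ext hψ₀⟩

include hc hk hpar hπ h2 h3 hneg in
/-- **the cyclic step** for `K ≤ K' = K ⟨d⟩`, `[K' : K] = p` -/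
theorem ihf_cyc_step
    (hcorW : ∀ x ∈ ihfBij (ihfEta hℓ hℓM k K'), ∃ y ∈ ihfBij (ihfEta hℓ hℓM k K),
      ((ihfTransCyc hc hp.out.pos).sys (ihfGammaH_mono hc.le)).corPar k k y = x) :
    finrank k ↥(ihfBij (ihfEta hℓ hℓM k K)) = p * finrank k ↥(ihfBij (ihfEta hℓ hℓM k K')) ∧
    ∀ y ∈ ihfBij (ihfEta hℓ hℓM k K),
      ((ihfTransCyc hc hp.out.pos).sys (ihfGammaH_mono hc.le)).corPar k k y = 0 →
      ∃ z ∈ ihfBij (ihfEta hℓ hℓM k K), y = ihfDel k K d z - z := by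
  set τ := ihfTransCyc hc hp.out.pos with hτ
  set cor := (τ.sys (ihfGammaH_mono hc.le)).corPar k k with hcor
  set res := t2fResPar (ihfGammaH_mono hc.le) k k with hres
  have hδp : (ihfDel k K d) ^ p = 1 := by
    rw [ihfDel_pow]
    exact LinearMap.ext fun φ => ihfDel_of_mem hc.pow φ
  have hδη : ∀ x, ihfDel k K d (ihfEta hℓ hℓM k K x) = ihfEta hℓ hℓM k K (ihfDel k K d x) :=
    ihfEta_del hℓ hℓM d
  have hresη : ∀ x, res (ihfEta hℓ hℓM k K' x) = ihfEta hℓ hℓM k K (res x) :=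
    ihfEta_res hℓ hℓM hc.le
  have hcorη : ∀ x, cor (ihfEta hℓ hℓM k K x) = ihfEta hℓ hℓM k K' (cor x) := by
    intro x
    rw [ihfEta_apply, ihfEta_apply, map_sub, map_smul]
    congr 1
    exact ihf_cor_T hc.le τ π hπ h2 h3 hneg hℓ hℓM x
  have hrc : ∀ x, res (cor x) = ∑ j ∈ Finset.range p, ((ihfDel k K d) ^ j) x := by
    intro x
    apply Subtype.ext
    have h1 := ihf_res_cor hc.le τ x.1
    rw [← Fin.sum_univ_eq_sum_range (fun j => ((ihfDel k K d) ^ j) x) p]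
    show t2fRes (ihfGammaH_mono hc.le) k ((τ.sys (ihfGammaH_mono hc.le)).cor k x.1) = _
    rw [h1, Submodule.coe_sum]
    refine Finset.sum_congr rfl fun j _ => ?_
    rw [ihfDel_pow]
    rfl
  have hext : ∀ φ, ihfDel k K d φ = φ → ∃ ψ, res ψ = ihfEta hℓ hℓM k K φ :=
    ihf_cyc_ext hc hℓ hℓM hpar
  have hker : ∀ ψ, res ψ = 0 → ihfEta hℓ hℓM k K' ψ = 0 := ihfEta_eis hℓ hℓM hc.le
  have hδres : ∀ ψ, ihfDel k K d (res ψ) = res ψ := by
    intro ψ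
    rw [← ihfDel_res hc.le d ψ, ihfDel_of_mem hc.mem]
  exact ⟨ihf_step_finrank (ihfDel k K d) (ihfEta hℓ hℓM k K) (ihfEta hℓ hℓM k K') res cor
      hδp hδη hresη hcorη hrc hext hker hcorW hδres,
    fun y hy h0 => ihf_step_ker_cor (ihfDel k K d) (ihfEta hℓ hℓM k K) (ihfEta hℓ hℓM k K') res cor
      hδp hδη hresη hrc hext hker hcorW hδres hy h0⟩

end CycStep

/-! ### The trivial transversal -/

/-- the trivial transversal of `Γ` in `Γ` -/
def ihfTransRefl (Γ : Subgroup SL(2, ℤ)) : IhfTrans Γ Γ Unit where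
  c _ := 1
  mem _ := one_mem _
  ex g hg := ⟨(), by simpa using hg⟩
  uniq _ _ _ := rfl

theorem ihfTransRefl_cor (Γ : Subgroup SL(2, ℤ)) {A : Type*} [AddCommGroup A]
    (φ : Additive Γ →+ A) : ((ihfTransRefl Γ).sys le_rfl).cor A φ = φ := by
  refine AddMonoidHom.ext fun δ' => ?_
  obtain ⟨δ, rfl⟩ := Additive.ofMul.surjective δ'
  rw [T2fSys₂.cor_apply, Fintype.sum_unique]
  have h : (ihfTransRefl Γ).c () * (δ : SL(2, ℤ)) = (δ : SL(2, ℤ)) * (ihfTransRefl Γ).c () := by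
    show (1 : SL(2, ℤ)) * _ = _ * 1
    rw [one_mul, mul_one]
  rw [← ((ihfTransRefl Γ).sys_eq_of_mul le_rfl h).2]

/-! ### The induction -/

section Induction

variable {p M : ℕ} [NeZero M] [hp : Fact p.Prime] {H : Subgroup (ZMod M)ˣ} (hL : IhfLevel p M H)
  {ℓ : ℕ} (hℓ : ℓ.Prime) (hℓM : ¬ ℓ ∣ M)
  {𝒪 k : Type*} [CommRing 𝒪] [IsDomain 𝒪] [CharZero 𝒪] [Field k] [hk : CharP k p]
  (π : 𝒪 →+* k) (hπ : Function.Surjective π) (h2 : IsUnit (2 : 𝒪)) (h3 : IsUnit (3 : 𝒪))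

include hk in
theorem ihf_sub_one_pow_pow {V : Type*} [AddCommGroup V] [Module k V] (δ : V →ₗ[k] V) (n : ℕ) :
    (δ - 1) ^ p ^ n = δ ^ p ^ n - 1 := by
  induction n with
  | zero => rw [pow_zero, pow_one, pow_one]
  | succ n ih => rw [pow_succ, pow_mul, ih, ihf_sub_one_pow, ← pow_mul]

include hL hk in
theorem ihfDel_sub_one_nil {K : Subgroup (ZMod M)ˣ} (hHK : H ≤ K) (d : (ZMod M)ˣ) :
    ∃ n : ℕ, (ihfDel k K d - 1) ^ n = 0 := by
  obtain ⟨n, hn⟩ := hL.pgroup d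
  refine ⟨p ^ n, ?_⟩
  rw [ihf_sub_one_pow_pow, ihfDel_pow]
  have : ihfDel k K (d ^ p ^ n) = 1 := LinearMap.ext fun φ => ihfDel_of_mem (hHK hn) φ
  rw [this]
  exact LinearMap.ext fun φ => sub_self _

include hπ h2 h3 in
theorem ihfEta_cor {K K' : Subgroup (ZMod M)ˣ} (hle : K ≤ K') (hneg : (-1 : (ZMod M)ˣ) ∈ K)
    {I : Type} [Fintype I] (τ : IhfTrans (ihfGammaH M K) (ihfGammaH M K') I) (x : IhfH k k M K) :
    (τ.sys (ihfGammaH_mono hle)).corPar k k (ihfEta hℓ hℓM k K x)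
      = ihfEta hℓ hℓM k K' ((τ.sys (ihfGammaH_mono hle)).corPar k k x) := by
  rw [ihfEta_apply, ihfEta_apply, map_sub, map_smul]
  congr 1
  exact ihf_cor_T hle τ π hπ h2 h3 hneg hℓ hℓM x

include hπ h2 h3 in
theorem ihfDel_cor {K K' : Subgroup (ZMod M)ˣ} (hle : K ≤ K') (hneg : (-1 : (ZMod M)ˣ) ∈ K)
    {I : Type} [Fintype I] (τ : IhfTrans (ihfGammaH M K) (ihfGammaH M K') I) (d : (ZMod M)ˣ)
    (x : IhfH k k M K) :
    (τ.sys (ihfGammaH_mono hle)).corPar k k (ihfDel k K d x)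
      = ihfDel k K' d ((τ.sys (ihfGammaH_mono hle)).corPar k k x) :=
  ihf_cor_D hle τ π hπ h2 h3 hneg d x

include hk hπ h2 h3 in
/-- the transfer to the top level is onto on the non-Eisenstein parts (Tool B) -/
theorem ihf_corW_top {K : Subgroup (ZMod M)ˣ} (hneg : (-1 : (ZMod M)ˣ) ∈ K)
    {I : Type} [Fintype I] (τ : IhfTrans (ihfGammaH M K) (ihfGammaH M (⊤ : Subgroup (ZMod M)ˣ)) I)
    (x : IhfH k k M (⊤ : Subgroup (ZMod M)ˣ)) (hx : x ∈ ihfBij (ihfEta hℓ hℓM k ⊤)) :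
    ∃ y ∈ ihfBij (ihfEta hℓ hℓM k K), (τ.sys (ihfGammaH_mono le_top)).corPar k k y = x := by
  haveI := ihf_trans_nonempty τ
  obtain ⟨x', hx', rfl⟩ := ihf_eta_surj_bij hx
  obtain ⟨y, hy⟩ := ihf_toolB hneg hℓ hℓM p τ π hπ h2 h3 x'
  have hy' : (τ.sys (ihfGammaH_mono le_top)).corPar k k y = ihfEta hℓ hℓM k ⊤ x' := hy.symm
  have hmem : (τ.sys (ihfGammaH_mono le_top)).corPar k k y ∈ ihfBij (ihfEta hℓ hℓM k ⊤) := by
    rw [hy']; exact hx
  obtain ⟨y', hy'mem, e⟩ := ihf_bij_lift ((τ.sys (ihfGammaH_mono le_top)).corPar k k)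
    (ihfEta_cor hℓ hℓM π hπ h2 h3 le_top hneg τ) y hmem
  exact ⟨y', hy'mem, e.trans hy'⟩

theorem ihfDel_sub_one_eta {K : Subgroup (ZMod M)ˣ} (d : (ZMod M)ˣ) (x : IhfH k k M K) :
    (ihfDel k K d - 1) (ihfEta hℓ hℓM k K x) = ihfEta hℓ hℓM k K ((ihfDel k K d - 1) x) := by
  rw [LinearMap.sub_apply, LinearMap.sub_apply, Module.End.one_apply, Module.End.one_apply,
    map_sub, ihfEta_del]

theorem ihfDel_sub_one_mem {K : Subgroup (ZMod M)ˣ} (d : (ZMod M)ˣ) :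
    (ihfBij (ihfEta hℓ hℓM k K)).map (ihfDel k K d - 1) ≤ ihfBij (ihfEta hℓ hℓM k K) := by
  rintro _ ⟨y, hy, rfl⟩
  exact ihf_bij_map (ihfDel k K d - 1) (fun x => ihfDel_sub_one_eta hℓ hℓM d x) hy

open Classical in
include hL hk hπ h2 h3 in
/-- **the main induction**, relative to a top group `T₀`, given the surjectivity of the transfers to
`T₀` on the non-Eisenstein parts -/
theorem ihf_claim_rel (T₀ : Subgroup (ZMod M)ˣ)
    (hsurjTop : ∀ (K : Subgroup (ZMod M)ˣ), H ≤ K → ∀ (hKT : K ≤ T₀) (I : Type) [Fintype I]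
      (τ : IhfTrans (ihfGammaH M K) (ihfGammaH M T₀) I),
      ∀ x ∈ ihfBij (ihfEta hℓ hℓM k T₀), ∃ y ∈ ihfBij (ihfEta hℓ hℓM k K),
        (τ.sys (ihfGammaH_mono hKT)).corPar k k y = x) :
    ∀ (n : ℕ) (K : Subgroup (ZMod M)ˣ), H ≤ K → ∀ (hKT : K ≤ T₀), K.index = n →
    ∀ (I : Type) [Fintype I] (τ : IhfTrans (ihfGammaH M K) (ihfGammaH M T₀) I),
      finrank k ↥(ihfBij (ihfEta hℓ hℓM k K))
          = K.relIndex T₀ * finrank k ↥(ihfBij (ihfEta hℓ hℓM k T₀)) ∧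
      (∀ y ∈ ihfBij (ihfEta hℓ hℓM k K), (τ.sys (ihfGammaH_mono hKT)).corPar k k y = 0 →
        y ∈ ⨆ d ∈ (Finset.univ.filter (· ∈ T₀) : Finset (ZMod M)ˣ),
          (ihfBij (ihfEta hℓ hℓM k K)).map (ihfDel k K d - 1)) := by
  classical
  intro n
  induction n using Nat.strong_induction_on with
  | _ n ih =>
    intro K hHK hKT hKn I _ τ
    by_cases hK : K = T₀
    · subst hK
      refine ⟨by rw [Subgroup.relIndex_self, one_mul], ?_⟩
      intro y hy h0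
      have h1 : (τ.sys (ihfGammaH_mono hKT)).corPar k k y = y := by
        apply Subtype.ext
        show (τ.sys (ihfGammaH_mono hKT)).cor k y.1 = y.1
        rw [IhfTrans.cor_indep (ihfGammaH_mono hKT) (ihfTransRefl _) τ y.1]
        exact ihfTransRefl_cor _ y.1
      rw [h1] at h0
      rw [h0]
      exact Submodule.zero_mem _
    · obtain ⟨K', d, hc, hK'T⟩ := ihf_exists_cyc hL hHK hKT hK
      have hdT : d ∈ T₀ := hK'T hc.mem
      have hnegK : (-1 : (ZMod M)ˣ) ∈ K := hHK hL.neg_mem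
      have hnegK' : (-1 : (ZMod M)ˣ) ∈ K' := hc.le hnegK
      have hHK' : H ≤ K' := hHK.trans hc.le
      have hparK : ∀ γ : SL(2, ℤ), γ ∈ Gamma0 M →
          (γ : Matrix (Fin 2) (Fin 2) ℤ).trace ^ 2 = 4 → γ ∈ ihfGammaH M K :=
        fun γ h0 ht => ihfGammaH_mono hHK (hL.par γ h0 ht)
      have hidx : K.index = p * K'.index := by
        rw [← Subgroup.relIndex_mul_index hc.le, ihf_cyc_relindex hc hp.out.pos]
      have hrel : K.relIndex T₀ = p * K'.relIndex T₀ := by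
        rw [← Subgroup.relIndex_mul_relIndex K K' T₀ hc.le hK'T, ihf_cyc_relindex hc hp.out.pos]
      have hK'pos : K'.index ≠ 0 := Subgroup.index_ne_zero_of_finite
      have hlt : K'.index < n := by
        rw [← hKn, hidx]
        have := hp.out.two_le
        have h1 : 0 < K'.index := Nat.pos_of_ne_zero hK'pos
        nlinarith
      haveI : Fintype (↥T₀ ⧸ K'.subgroupOf T₀) := Fintype.ofFinite _
      set τ' := ihfTransRel hK'T with hτ'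
      obtain ⟨ha', hc'⟩ := ih K'.index hlt K' hHK' hK'T rfl _ τ'
      set τc := ihfTransCyc hc hp.out.pos with hτc
      set corc := (τc.sys (ihfGammaH_mono hc.le)).corPar k k with hcorc
      set cor' := (τ'.sys (ihfGammaH_mono hK'T)).corPar k k with hcor'
      set cor := (τ.sys (ihfGammaH_mono hKT)).corPar k k with hcor
      have hcomp : ∀ y, cor y = cor' (corc y) := by
        intro y
        apply Subtype.ext
        show (τ.sys (ihfGammaH_mono hKT)).cor k y.1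
          = (τ'.sys (ihfGammaH_mono hK'T)).cor k ((τc.sys (ihfGammaH_mono hc.le)).cor k y.1)
        rw [IhfTrans.cor_cor τc τ' (ihfGammaH_mono hc.le) (ihfGammaH_mono hK'T)]
        exact IhfTrans.cor_indep ((ihfGammaH_mono hc.le).trans (ihfGammaH_mono hK'T))
          (τc.mul τ' (ihfGammaH_mono hc.le) (ihfGammaH_mono hK'T)) τ y.1
      set WK := ihfBij (ihfEta hℓ hℓM k K) with hWK
      set WK' := ihfBij (ihfEta hℓ hℓM k K') with hWK'
      set WT := ihfBij (ihfEta hℓ hℓM k T₀) with hWT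
      set S : Finset (ZMod M)ˣ := Finset.univ.filter (· ∈ T₀) with hS
      have h1 : WK.map corc ≤ WK' := by
        rintro _ ⟨y, hy, rfl⟩
        exact ihf_bij_map corc (ihfEta_cor hℓ hℓM π hπ h2 h3 hc.le hnegK τc) hy
      have h2' : WK'.map cor' ≤ WT := by
        rintro _ ⟨y, hy, rfl⟩
        exact ihf_bij_map cor' (ihfEta_cor hℓ hℓM π hπ h2 h3 hK'T hnegK' τ') hy
      have hequiv : ∀ (d' : (ZMod M)ˣ) (y : IhfH k k M K),
          corc ((ihfDel k K d' - 1) y) = (ihfDel k K' d' - 1) (corc y) := by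
        intro d' y
        rw [LinearMap.sub_apply, LinearMap.sub_apply, Module.End.one_apply, Module.End.one_apply,
          map_sub, ihfDel_cor π hπ h2 h3 hc.le hnegK τc]
      have hsurj : WK' ≤ WK.map corc := by
        refine ihf_descent corc cor' WK WK' WT S (fun d' => ihfDel k K' d' - 1)
          (fun d' _ => ihfDel_sub_one_nil hL hHK' d') ?_ (fun d' _ => ihfDel_sub_one_mem hℓ hℓM d')
          ?_ h1 h2' (fun x hx h0 => hc' x hx h0) ?_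
        · intro i j x
          simp only [LinearMap.sub_apply, Module.End.one_apply, map_sub]
          rw [ihfDel_comm j i x]
          abel
        · intro x₂ hx₂
          obtain ⟨y, hy, e⟩ := hsurjTop K hHK hKT I τ x₂ hx₂
          exact ⟨y, hy, (hcomp y).symm.trans e⟩
        · rintro d' - _ ⟨_, ⟨y, hy, rfl⟩, rfl⟩
          exact ⟨(ihfDel k K d' - 1) y, ihfDel_sub_one_mem hℓ hℓM d' ⟨y, hy, rfl⟩, hequiv d' y⟩
      have hcorW : ∀ x ∈ WK', ∃ y ∈ WK, corc y = x := fun x hx => by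
        obtain ⟨y, hy, e⟩ := hsurj hx
        exact ⟨y, hy, e⟩
      obtain ⟨hfin, hkerc⟩ := ihf_cyc_step hc hℓ hℓM π hπ h2 h3 hnegK hparK hcorW
      refine ⟨by rw [hfin, ha', hrel, mul_assoc], ?_⟩
      intro y hy h0
      have hmain := ihf_ker_comp corc cor' WK WK' S (fun d' => ihfDel k K' d' - 1)
        (fun d' => ihfDel k K d' - 1) (ihfDel k K d) hequiv
        (fun d' _ => ihfDel_sub_one_mem hℓ hℓM d') hsurj h1 (fun x hx h0 => hc' x hx h0)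
        (fun y hy h0 => hkerc y hy h0) hy (by rw [← hcomp]; exact h0)
      refine SetLike.le_def.mp (sup_le le_rfl ?_) hmain
      exact le_iSup₂ (f := fun i (_ : i ∈ S) => WK.map (ihfDel k K i - 1)) d
        (Finset.mem_filter.mpr ⟨Finset.mem_univ d, hdT⟩)

open Classical in
include hL hk hπ h2 h3 in
/-- the claim relative to `⊤` -/
theorem ihf_claim_top (K : Subgroup (ZMod M)ˣ) (hHK : H ≤ K) (I : Type) [Fintype I]
    (τ : IhfTrans (ihfGammaH M K) (ihfGammaH M (⊤ : Subgroup (ZMod M)ˣ)) I) :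
    finrank k ↥(ihfBij (ihfEta hℓ hℓM k K))
        = K.relIndex ⊤ * finrank k ↥(ihfBij (ihfEta hℓ hℓM k ⊤)) ∧
    (∀ y ∈ ihfBij (ihfEta hℓ hℓM k K), (τ.sys (ihfGammaH_mono le_top)).corPar k k y = 0 →
      y ∈ ⨆ d ∈ (Finset.univ.filter (· ∈ (⊤ : Subgroup (ZMod M)ˣ)) : Finset (ZMod M)ˣ),
        (ihfBij (ihfEta hℓ hℓM k K)).map (ihfDel k K d - 1)) :=
  ihf_claim_rel hL hℓ hℓM π hπ h2 h3 ⊤
    (fun K' hHK' hKT I' _ τ' x hx =>
      ihf_corW_top hℓ hℓM π hπ h2 h3 (hHK' hL.neg_mem) τ' x hx)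
    K.index K hHK le_top rfl I τ

open Classical in
include hL hk hπ h2 h3 in
/-- the transfer `W_K → W_{T₀}` is onto -/
theorem ihf_corW_rel {K T₀ : Subgroup (ZMod M)ˣ} (hHK : H ≤ K) (hKT : K ≤ T₀) (I : Type)
    [Fintype I] (τ : IhfTrans (ihfGammaH M K) (ihfGammaH M T₀) I)
    (x : IhfH k k M T₀) (hx : x ∈ ihfBij (ihfEta hℓ hℓM k T₀)) :
    ∃ y ∈ ihfBij (ihfEta hℓ hℓM k K), (τ.sys (ihfGammaH_mono hKT)).corPar k k y = x := by
  have hHT : H ≤ T₀ := hHK.trans hKT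
  have hnegK : (-1 : (ZMod M)ˣ) ∈ K := hHK hL.neg_mem
  have hnegT : (-1 : (ZMod M)ˣ) ∈ T₀ := hHT hL.neg_mem
  haveI : Fintype (↥(⊤ : Subgroup (ZMod M)ˣ) ⧸ T₀.subgroupOf ⊤) := Fintype.ofFinite _
  set τ₂ := ihfTransRel (le_top : T₀ ≤ ⊤) with hτ₂
  set cor₁ := (τ.sys (ihfGammaH_mono hKT)).corPar k k with hcor₁
  set cor₂ := (τ₂.sys (ihfGammaH_mono le_top)).corPar k k with hcor₂
  obtain ⟨-, hkerT⟩ := ihf_claim_top hL hℓ hℓM π hπ h2 h3 T₀ hHT _ τ₂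
  set S : Finset (ZMod M)ˣ := Finset.univ.filter (· ∈ (⊤ : Subgroup (ZMod M)ˣ)) with hS
  have hequiv : ∀ (d' : (ZMod M)ˣ) (y : IhfH k k M K),
      cor₁ ((ihfDel k K d' - 1) y) = (ihfDel k T₀ d' - 1) (cor₁ y) := by
    intro d' y
    rw [LinearMap.sub_apply, LinearMap.sub_apply, Module.End.one_apply, Module.End.one_apply,
      map_sub, ihfDel_cor π hπ h2 h3 hKT hnegK τ]
  have hsurj : ihfBij (ihfEta hℓ hℓM k T₀) ≤ (ihfBij (ihfEta hℓ hℓM k K)).map cor₁ := by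
    refine ihf_descent cor₁ cor₂ (ihfBij (ihfEta hℓ hℓM k K)) (ihfBij (ihfEta hℓ hℓM k T₀))
      (ihfBij (ihfEta hℓ hℓM k ⊤)) S (fun d' => ihfDel k T₀ d' - 1)
      (fun d' _ => ihfDel_sub_one_nil hL hHT d') ?_ (fun d' _ => ihfDel_sub_one_mem hℓ hℓM d')
      ?_ ?_ ?_ (fun x hx h0 => hkerT x hx h0) ?_
    · intro i j x
      simp only [LinearMap.sub_apply, Module.End.one_apply, map_sub]
      rw [ihfDel_comm j i x]
      abel
    · intro x₂ hx₂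
      obtain ⟨y, hy, e⟩ := ihf_corW_top hℓ hℓM π hπ h2 h3 hnegK
        (τ.mul τ₂ (ihfGammaH_mono hKT) (ihfGammaH_mono le_top)) x₂ hx₂
      refine ⟨y, hy, ?_⟩
      rw [← e]
      apply Subtype.ext
      exact IhfTrans.cor_cor τ τ₂ (ihfGammaH_mono hKT) (ihfGammaH_mono le_top) y.1
    · rintro _ ⟨y, hy, rfl⟩
      exact ihf_bij_map cor₁ (ihfEta_cor hℓ hℓM π hπ h2 h3 hKT hnegK τ) hy
    · rintro _ ⟨y, hy, rfl⟩
      exact ihf_bij_map cor₂ (ihfEta_cor hℓ hℓM π hπ h2 h3 le_top hnegT τ₂) hy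
    · rintro d' - _ ⟨_, ⟨y, hy, rfl⟩, rfl⟩
      exact ⟨(ihfDel k K d' - 1) y, ihfDel_sub_one_mem hℓ hℓM d' ⟨y, hy, rfl⟩, hequiv d' y⟩
  obtain ⟨y, hy, e⟩ := hsurj hx
  exact ⟨y, hy, e⟩

open Classical in
include hL hk hπ h2 h3 in
/-- **the claim**, relative to an arbitrary `T₀ ≥ K ≥ H` -/
theorem ihf_claim {K T₀ : Subgroup (ZMod M)ˣ} (hHK : H ≤ K) (hKT : K ≤ T₀) (I : Type) [Fintype I]
    (τ : IhfTrans (ihfGammaH M K) (ihfGammaH M T₀) I) :
    finrank k ↥(ihfBij (ihfEta hℓ hℓM k K))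
        = K.relIndex T₀ * finrank k ↥(ihfBij (ihfEta hℓ hℓM k T₀)) ∧
    (∀ y ∈ ihfBij (ihfEta hℓ hℓM k K), (τ.sys (ihfGammaH_mono hKT)).corPar k k y = 0 →
      y ∈ ⨆ d ∈ (Finset.univ.filter (· ∈ T₀) : Finset (ZMod M)ˣ),
        (ihfBij (ihfEta hℓ hℓM k K)).map (ihfDel k K d - 1)) :=
  ihf_claim_rel hL hℓ hℓM π hπ h2 h3 T₀
    (fun K' hHK' hK'T I' _ τ' x hx => ihf_corW_rel hL hℓ hℓM π hπ h2 h3 hHK' hK'T I' τ' x hx)
    K.index K hHK hKT rfl I τ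

end Induction

end Fermat.Agent.Ihara
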