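/-
IHARA track, package [H4](ii) (helper1): **freeness of a non-Eisenstein summand over `𝒪[Δ]`**
(proof of `ihf_free`), assembled from the induction (`Fr/Ind`), the counting argument (`Fr/FreeK`)
and the reduction modulo the maximal ideal (`Fr/RedX`, `Fr/Dvr`).
-/
import Mathlib
import Fermat.Agent.Lib.Ihara.Fr.Ind
import Fermat.Agent.Lib.Ihara.Fr.FreeK
import Fermat.Agent.Lib.Ihara.Fr.Dvr
import Fermat.Agent.Lib.Ihara.Fr.RedX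

set_option autoImplicit false
set_option linter.unusedSectionVars false
set_option linter.unusedVariables false
set_option linter.style.haveILetI false

namespace Fermat.Agent.Ihara

open Matrix MatrixGroups CongruenceSubgroup ModularCurve ModularCurve.Period Module
open Fermat.Agent.DS Fermat.Agent.T1 Fermat.Agent.T1G Fermat.Agent.T2 Fermat.Agent.LR

/-! ### The residue field of `𝒪` -/

section Residue

variable {𝒪 : Type*} [CommRing 𝒪] [IsLocalRing 𝒪] {p : ℕ}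

theorem ihf_charP_residue (hp : p.Prime) (hp𝒪 : (p : 𝒪) ∈ IsLocalRing.maximalIdeal 𝒪) :
    CharP (IsLocalRing.ResidueField 𝒪) p := by
  have h0 : ((p : ℕ) : IsLocalRing.ResidueField 𝒪) = 0 := by
    rw [← map_natCast (IsLocalRing.residue 𝒪), IsLocalRing.residue_eq_zero_iff]
    exact hp𝒪
  haveI := ringChar.charP (IsLocalRing.ResidueField 𝒪)
  have h1 : ringChar (IsLocalRing.ResidueField 𝒪) ∣ p :=
    (CharP.cast_eq_zero_iff (IsLocalRing.ResidueField 𝒪) _ p).mp h0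
  rcases (Nat.dvd_prime hp).mp h1 with h | h
  · exact absurd h (CharP.ringChar_ne_one)
  · exact ringChar.of_eq h

theorem ihf_isUnit_natCast (hp : p.Prime) (hp𝒪 : (p : 𝒪) ∈ IsLocalRing.maximalIdeal 𝒪) (n : ℕ)
    (hn : 0 < n) (hnp : n < p) : IsUnit ((n : ℕ) : 𝒪) := by
  haveI := ihf_charP_residue hp hp𝒪
  by_contra h
  have h1 : ((n : ℕ) : 𝒪) ∈ IsLocalRing.maximalIdeal 𝒪 := (IsLocalRing.mem_maximalIdeal _).mpr h
  have h2 : ((n : ℕ) : IsLocalRing.ResidueField 𝒪) = 0 := by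
    rw [← map_natCast (IsLocalRing.residue 𝒪), IsLocalRing.residue_eq_zero_iff]
    exact h1
  have h3 : p ∣ n := (CharP.cast_eq_zero_iff (IsLocalRing.ResidueField 𝒪) p n).mp h2
  have := Nat.le_of_dvd hn h3
  omega

end Residue

/-! ### The `k`-level statement -/

section KLevel

variable {p M : ℕ} [NeZero M] [hp : Fact p.Prime] {H : Subgroup (ZMod M)ˣ} (hL : IhfLevel p M H)
  {ℓ : ℕ} (hℓ : ℓ.Prime) (hℓM : ¬ ℓ ∣ M)
  {𝒪 k : Type*} [CommRing 𝒪] [IsDomain 𝒪] [CharZero 𝒪] [Field k] [hk : CharP k p]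
  (π : 𝒪 →+* k) (hπ : Function.Surjective π) (h2 : IsUnit (2 : 𝒪)) (h3 : IsUnit (3 : 𝒪))

open Classical in
include hL hk hπ h2 h3 in
/-- a diamond-stable summand `U` of `Hom_par(Γ_H, k)` (with stable complement) contained in the
non-Eisenstein part has a basis of translates `⟨out ḡ⟩ z_i` -/
theorem ihf_free_k [Fintype ((ZMod M)ˣ ⧸ H)] (U Y : Submodule k (IhfH k k M H))
    (hU : ∀ d, ∀ x ∈ U, ihfDel k H d x ∈ U) (hY : ∀ d, ∀ x ∈ Y, ihfDel k H d x ∈ Y)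
    (hsup : U ⊔ Y = ⊤) (hinf : U ⊓ Y = ⊥) (hUW : U ≤ ihfBij (ihfEta hℓ hℓM k H)) :
    ∃ (n : ℕ) (z : Fin n → IhfH k k M H), (∀ i, z i ∈ U) ∧
      LinearIndependent k
        (fun x : Fin n × ((ZMod M)ˣ ⧸ H) => ihfDel k H (Quotient.out x.2) (z x.1)) ∧
      Submodule.span k (Set.range
        fun x : Fin n × ((ZMod M)ˣ ⧸ H) => ihfDel k H (Quotient.out x.2) (z x.1)) = U := by
  set W := ihfBij (ihfEta hℓ hℓM k H) with hW
  set Z := Y ⊓ W with hZ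
  have hWδ : ∀ d, ∀ x ∈ W, ihfDel k H d x ∈ W := fun d x hx =>
    ihf_bij_map (ihfDel k H d) (fun y => ihfEta_del hℓ hℓM d y) hx
  have hZδ : ∀ d, ∀ x ∈ Z, ihfDel k H d x ∈ Z := fun d x hx => ⟨hY d x hx.1, hWδ d x hx.2⟩
  have hsup' : U ⊔ Z = W := by
    rw [hZ, ← sup_inf_assoc_of_le Y hUW, hsup, top_inf_eq]
  have hinf' : U ⊓ Z = ⊥ := by
    rw [eq_bot_iff, ← hinf]
    exact inf_le_inf_left _ inf_le_left
  have hneg : (-1 : (ZMod M)ˣ) ∈ H := hL.neg_mem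
  set τ := ihfTransTop H with hτ
  set corT := (τ.sys (ihfGammaH_mono le_top)).corPar k k with hcorT
  obtain ⟨hdim, hker⟩ := ihf_claim hL hℓ hℓM π hπ h2 h3 (le_refl H) le_top _ τ
  refine ihf_free_count H (fun d => ihfDel k H d) (fun d d' x => ihfDel_mul d d' x)
    (fun h hh x => ihfDel_of_mem hh x) (fun d => ihfDel_sub_one_nil hL le_rfl d) W U Z hU hZδ
    hsup' hinf' corT ?_ ?_ ?_
  · intro d x
    rw [hcorT, ihfDel_cor π hπ h2 h3 le_top hneg τ d x]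
    exact ihfDel_of_mem (Subgroup.mem_top d) _
  · intro y hy h0
    refine SetLike.le_def.mp ?_ (hker y hy h0)
    exact iSup₂_le fun d _ => le_iSup₂ (f := fun d (_ : d ∈ (Finset.univ : Finset (ZMod M)ˣ)) =>
      W.map (ihfDel k H d - 1)) d (Finset.mem_univ d)
  · have hmap : W.map corT = ihfBij (ihfEta hℓ hℓM k ⊤) := by
      apply le_antisymm
      · rintro _ ⟨y, hy, rfl⟩
        exact ihf_bij_map corT (ihfEta_cor hℓ hℓM π hπ h2 h3 le_top hneg τ) hy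
      · intro x hx
        obtain ⟨y, hy, e⟩ := ihf_corW_top hℓ hℓM π hπ h2 h3 hneg τ x hx
        exact ⟨y, hy, e⟩
    rw [hmap, hdim, Subgroup.relIndex_top_right, Subgroup.index, Nat.card_eq_fintype_card]

end KLevel

/-! ### The reduction of a summand -/

section Bar

variable (Γ : Subgroup SL(2, ℤ)) {𝒪 k : Type*} [CommRing 𝒪] [Field k]
  (π : 𝒪 →+* k) (hπ : Function.Surjective π)

/-- the reduction of a submodule of `Hom_par(Γ, 𝒪)` -/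
def ihfBar (X : Submodule 𝒪 ↥(parabolicHoms 𝒪 Γ 𝒪)) : Submodule k ↥(parabolicHoms k Γ k) :=
  haveI : RingHomSurjective π := ⟨hπ⟩
  X.map (ihfRed Γ π)

theorem ihf_mem_bar {X : Submodule 𝒪 ↥(parabolicHoms 𝒪 Γ 𝒪)} {y : ↥(parabolicHoms k Γ k)} :
    y ∈ ihfBar Γ π hπ X ↔ ∃ x ∈ X, ihfRed Γ π x = y := by
  haveI : RingHomSurjective π := ⟨hπ⟩
  exact Submodule.mem_map

variable [Γ.FiniteIndex] [IsDomain 𝒪] [IsLocalRing 𝒪]

theorem ihfBar_homPar {ι : Type} [Fintype ι] (S : tdmCosetSys Γ ι)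
    (X : Submodule 𝒪 ↥(parabolicHoms 𝒪 Γ 𝒪)) (h : ∀ x ∈ X, S.homPar 𝒪 𝒪 x ∈ X) :
    ∀ y ∈ ihfBar Γ π hπ X, S.homPar k k y ∈ ihfBar Γ π hπ X := by
  intro y hy
  obtain ⟨x, hx, rfl⟩ := (ihf_mem_bar Γ π hπ).mp hy
  exact (ihf_mem_bar Γ π hπ).mpr ⟨_, h x hx, ihfRed_homPar Γ π S x⟩

include hπ in
theorem ihfRed_surjective [CharZero 𝒪] (hneg : (-1 : SL(2, ℤ)) ∈ Γ) (h2 : IsUnit (2 : 𝒪))
    (h3 : IsUnit (3 : 𝒪)) : Function.Surjective (ihfRed Γ π) := by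
  letI : Fintype (SL(2, ℤ) ⧸ Γ) := Subgroup.fintypeQuotientOfFiniteIndex
  intro ψ
  obtain ⟨φ, hφ, e⟩ := ihf_lift_par (lrdSysOf Γ hneg) π hπ h2 h3 ψ.1 ψ.2
  exact ⟨⟨φ, hφ⟩, Subtype.ext e⟩

theorem ihfBar_sup [CharZero 𝒪] (hneg : (-1 : SL(2, ℤ)) ∈ Γ) (h2 : IsUnit (2 : 𝒪))
    (h3 : IsUnit (3 : 𝒪)) (X Y : Submodule 𝒪 ↥(parabolicHoms 𝒪 Γ 𝒪)) (h : X ⊔ Y = ⊤) :
    ihfBar Γ π hπ X ⊔ ihfBar Γ π hπ Y = ⊤ := by
  rw [eq_top_iff]
  rintro ψ -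
  obtain ⟨φ, rfl⟩ := ihfRed_surjective Γ π hπ hneg h2 h3 ψ
  have hφ : φ ∈ X ⊔ Y := by rw [h]; exact Submodule.mem_top
  obtain ⟨x, hx, y, hy, rfl⟩ := Submodule.mem_sup.mp hφ
  rw [map_add]
  exact Submodule.add_mem_sup ((ihf_mem_bar Γ π hπ).mpr ⟨x, hx, rfl⟩)
    ((ihf_mem_bar Γ π hπ).mpr ⟨y, hy, rfl⟩)

variable (hπker : ∀ a, π a = 0 ↔ a ∈ IsLocalRing.maximalIdeal 𝒪)
  {ϖ : 𝒪} (hϖ : IsLocalRing.maximalIdeal 𝒪 = Ideal.span {ϖ}) (hϖ0 : ϖ ≠ 0)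

include hπker hϖ hϖ0 in
theorem ihfBar_inf (X Y : Submodule 𝒪 ↥(parabolicHoms 𝒪 Γ 𝒪)) (hXY : IsCompl X Y) :
    ihfBar Γ π hπ X ⊓ ihfBar Γ π hπ Y = ⊥ := by
  rw [eq_bot_iff]
  rintro ψ ⟨h1, h2⟩
  obtain ⟨x, hx, rfl⟩ := (ihf_mem_bar Γ π hπ).mp h1
  obtain ⟨y, hy, e⟩ := (ihf_mem_bar Γ π hπ).mp h2
  rw [Submodule.mem_bot]
  exact ihf_summand_disjoint Γ π hπker hϖ hϖ0 X Y hXY x y hx hy e.symm

end Bar

section BarEis

variable {M : ℕ} [NeZero M] {H : Subgroup (ZMod M)ˣ} {ℓ₀ : ℕ} (hℓ₀ : ℓ₀.Prime) (hℓ₀M : ¬ ℓ₀ ∣ M)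
  {𝒪 k : Type*} [CommRing 𝒪] [IsDomain 𝒪] [IsLocalRing 𝒪] [Field k]
  (π : 𝒪 →+* k) (hπ : Function.Surjective π)
  (hπker : ∀ a, π a = 0 ↔ a ∈ IsLocalRing.maximalIdeal 𝒪)
  {ϖ : 𝒪} (hϖ : IsLocalRing.maximalIdeal 𝒪 = Ideal.span {ϖ}) (hϖ0 : ϖ ≠ 0)

theorem ihfEta_red (x : IhfH 𝒪 𝒪 M H) :
    ihfEta hℓ₀ hℓ₀M k H (ihfRed (ihfGammaH M H) π x) = ihfRed (ihfGammaH M H) π
      ((ihfSysT M H hℓ₀ hℓ₀M).homPar 𝒪 𝒪 x - ((ℓ₀ : 𝒪) + 1) • x) := by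
  rw [ihfEta_apply, map_sub, map_smulₛₗ, ihfRed_homPar, map_add, map_natCast, map_one]

include hπker hϖ hϖ0 in
/-- the reduction of a non-Eisenstein summand lies in the part where `η` is bijective -/
theorem ihfBar_le_bij {X Y : Submodule 𝒪 (IhfH 𝒪 𝒪 M H)} (hX : IhfSummand M H hℓ₀ hℓ₀M X Y) :
    ihfBar (ihfGammaH M H) π hπ X ≤ ihfBij (ihfEta hℓ₀ hℓ₀M k H) := by
  apply ihf_le_bij_of_inj
  · intro y hy
    obtain ⟨x, hx, rfl⟩ := (ihf_mem_bar _ π hπ).mp hy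
    rw [ihfEta_red]
    exact (ihf_mem_bar _ π hπ).mpr
      ⟨_, X.sub_mem (hX.hecke_X x hx) (X.smul_mem _ hx), rfl⟩
  · intro y hy h0
    obtain ⟨x, hx, rfl⟩ := (ihf_mem_bar _ π hπ).mp hy
    rw [ihfEta_red] at h0
    have h1 := ihf_summand_ker' _ π hπker hϖ hϖ0 X Y hX.compl _
      (X.sub_mem (hX.hecke_X x hx) (X.smul_mem _ hx)) h0
    exact ihfRed_of_mem_smul _ π hπker X x (hX.nonEis x hx h1)

end BarEis

/-! ### The main theorem -/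

theorem ihf_free_main {𝒪 : Type*} [CommRing 𝒪] [IsDomain 𝒪] [IsDiscreteValuationRing 𝒪]
    [CharZero 𝒪] {p M : ℕ} [NeZero M] {H : Subgroup (ZMod M)ˣ} (hL : IhfLevel p M H)
    (hp𝒪 : (p : 𝒪) ∈ IsLocalRing.maximalIdeal 𝒪)
    {ℓ₀ : ℕ} (hℓ₀ : ℓ₀.Prime) (hℓ₀M : ¬ ℓ₀ ∣ M)
    (X Y : Submodule 𝒪 (IhfH 𝒪 𝒪 M H)) (hX : IhfSummand M H hℓ₀ hℓ₀M X Y) :
    ∃ (n : ℕ) (w : Fin n → IhfH 𝒪 𝒪 M H) (b : Module.Basis (Fin n × ((ZMod M)ˣ ⧸ H)) 𝒪 X),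
      ∀ (i : Fin n) (d : (ZMod M)ˣ),
        ((b (i, (d : (ZMod M)ˣ ⧸ H)) : X) : IhfH 𝒪 𝒪 M H)
          = (ihfSysD M H d).homPar 𝒪 𝒪 (w i) := by
  classical
  haveI : Fact p.Prime := ⟨hL.prime⟩
  haveI : CharP (IsLocalRing.ResidueField 𝒪) p := ihf_charP_residue hL.prime hp𝒪
  haveI : Fintype ((ZMod M)ˣ ⧸ H) := Fintype.ofFinite _
  have h5 := hL.five_le
  set k := IsLocalRing.ResidueField 𝒪 with hk
  set π : 𝒪 →+* k := IsLocalRing.residue 𝒪 with hπdef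
  have hπ : Function.Surjective π := IsLocalRing.residue_surjective
  have hπker : ∀ a, π a = 0 ↔ a ∈ IsLocalRing.maximalIdeal 𝒪 :=
    fun a => IsLocalRing.residue_eq_zero_iff a
  have h2 : IsUnit (2 : 𝒪) := by
    have := ihf_isUnit_natCast hL.prime hp𝒪 2 (by norm_num) (by omega)
    rwa [Nat.cast_ofNat] at this
  have h3 : IsUnit (3 : 𝒪) := by
    have := ihf_isUnit_natCast hL.prime hp𝒪 3 (by norm_num) (by omega)
    rwa [Nat.cast_ofNat] at this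
  obtain ⟨ϖ, hϖirr⟩ := IsDiscreteValuationRing.exists_irreducible 𝒪
  have hϖ : IsLocalRing.maximalIdeal 𝒪 = Ideal.span {ϖ} := hϖirr.maximalIdeal_eq
  have hϖ0 : ϖ ≠ 0 := hϖirr.ne_zero
  set Γ := ihfGammaH M H with hΓ
  have hnegΓ : (-1 : SL(2, ℤ)) ∈ Γ := ihf_neg_one_mem hL.neg_mem
  -- the `k`-level statement
  obtain ⟨n, z, hzU, hli, hspan⟩ := ihf_free_k hL hℓ₀ hℓ₀M π hπ h2 h3
    (ihfBar Γ π hπ X) (ihfBar Γ π hπ Y)
    (fun d => ihfBar_homPar Γ π hπ (ihfSysD M H d) X (hX.diam_X d))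
    (fun d => ihfBar_homPar Γ π hπ (ihfSysD M H d) Y (hX.diam_Y d))
    (ihfBar_sup Γ π hπ hnegΓ h2 h3 X Y hX.compl.sup_eq_top)
    (ihfBar_inf Γ π hπ hπker hϖ hϖ0 X Y hX.compl)
    (ihfBar_le_bij hℓ₀ hℓ₀M π hπ hπker hϖ hϖ0 hX)
  -- lift the generators
  choose w hwX hw using fun i => (ihf_mem_bar Γ π hπ).mp (hzU i)
  set b₁ : Fin n × ((ZMod M)ˣ ⧸ H) → IhfH 𝒪 𝒪 M H :=
    fun x => (ihfSysD M H (Quotient.out x.2)).homPar 𝒪 𝒪 (w x.1) with hb₁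
  have hb₁X : ∀ x, b₁ x ∈ X := fun x => hX.diam_X _ _ (hwX x.1)
  have hb₁red : (ihfRed Γ π) ∘ b₁
      = fun x : Fin n × ((ZMod M)ˣ ⧸ H) => ihfDel k H (Quotient.out x.2) (z x.1) := by
    funext x
    show ihfRed Γ π ((ihfSysD M H (Quotient.out x.2)).homPar 𝒪 𝒪 (w x.1)) = _
    rw [ihfRed_homPar, hw]
    rfl
  have htf : ∀ (a : 𝒪) (x : IhfH 𝒪 𝒪 M H), a ≠ 0 → a • x = 0 → x = 0 := by
    intro a x ha hax
    apply Subtype.ext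
    refine AddMonoidHom.ext fun γ => ?_
    have h1 : a • (x.1 γ) = 0 := DFunLike.congr_fun (congrArg Subtype.val hax) γ
    rw [smul_eq_mul] at h1
    exact (mul_eq_zero.mp h1).resolve_left ha
  have hli₁ : LinearIndependent 𝒪 b₁ :=
    ihf_linearIndependent_of_red π (fun a h => (hπker a).mp h) (ihfRed Γ π) htf b₁
      (by rw [hb₁red]; exact hli)
  have hXfg : X.FG := IsNoetherian.noetherian X
  have hsp₁ : X ≤ Submodule.span 𝒪 (Set.range b₁) := by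
    refine ihf_span_of_red π (fun a h => (hπker a).mp h) (ihfRed Γ π) hπ X hXfg
      (fun x hx h => ihf_summand_ker' Γ π hπker hϖ hϖ0 X Y hX.compl x hx h) b₁ hb₁X ?_
    intro x hx
    rw [hb₁red, hspan]
    exact (ihf_mem_bar Γ π hπ).mpr ⟨x, hx, rfl⟩
  set b₀ : Fin n × ((ZMod M)ˣ ⧸ H) → X := fun x => ⟨b₁ x, hb₁X x⟩ with hb₀
  have hli₀ : LinearIndependent 𝒪 b₀ := by
    apply LinearIndependent.of_comp X.subtype
    exact hli₁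
  have hsp₀ : ⊤ ≤ Submodule.span 𝒪 (Set.range b₀) := by
    rintro x -
    have h1 : (x : IhfH 𝒪 𝒪 M H) ∈ Submodule.span 𝒪 (Set.range b₁) := hsp₁ x.2
    have h2 : Set.range b₁ = X.subtype '' (Set.range b₀) := by
      rw [← Set.range_comp]
      rfl
    rw [h2, ← Submodule.map_span] at h1
    obtain ⟨y, hy, e⟩ := h1
    have : y = x := Subtype.ext e
    rwa [this] at hy
  refine ⟨n, w, Module.Basis.mk hli₀ hsp₀, fun i d => ?_⟩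
  rw [Module.Basis.mk_apply]
  show (ihfSysD M H (Quotient.out (d : (ZMod M)ˣ ⧸ H))).homPar 𝒪 𝒪 (w i) = _
  obtain ⟨h, hh⟩ := QuotientGroup.mk_out_eq_mul H d
  apply Subtype.ext
  show (ihfSysD M H (Quotient.out (d : (ZMod M)ˣ ⧸ H))).hom 𝒪 (w i).1 = (ihfSysD M H d).hom 𝒪 (w i).1
  rw [hh, ihfSysD_hom_mul, ihfSysD_hom_of_mem M H h h.2]


end Fermat.Agent.Ihara
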