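/-
IHARA track, package [H4](ii) (helper1): **Tool B** — the image of the transfer modulo `p`.

Abstract part: `L`, `L'` lattices with unimodular pairings `B`, `B'`, `res : L → L'` and
`cor : L' → L` adjoint, `η` self-adjoint on `L`, and `res z ∈ p L' → η z ∈ p L`.  Then
`η L ⊆ cor L' + p L` (`ihf_pair_abstract`).
-/
import Mathlib

set_option autoImplicit false
set_option linter.unusedSectionVars false
set_option linter.unusedVariables false

namespace Fermat.Agent.Ihara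

/-! ### Divisibility from unimodularity -/

section Unimod

variable {L' : Type*} [AddCommGroup L'] [Module.Free ℤ L'] [Module.Finite ℤ L']
  (B' : L' →ₗ[ℤ] L' →ₗ[ℤ] ℤ) (hU : ∀ f : L' →ₗ[ℤ] ℤ, ∃ w, ∀ y, B' w y = f y)

include hU in
theorem ihf_unimod_inj : Function.Injective B' := by
  classical
  let b := Module.Free.chooseBasis ℤ L'
  let e : L' ≃ₗ[ℤ] Module.Dual ℤ L' := b.toDualEquiv
  have hsurj : Function.Surjective B' := by
    intro f
    obtain ⟨w, hw⟩ := hU f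
    exact ⟨w, LinearMap.ext hw⟩
  have h1 : Function.Surjective (B'.comp e.symm.toLinearMap) :=
    hsurj.comp e.symm.surjective
  have h2 : Function.Injective (B'.comp e.symm.toLinearMap) :=
    OrzechProperty.injective_of_surjective_endomorphism _ h1
  intro x y hxy
  have : (B'.comp e.symm.toLinearMap) (e x) = (B'.comp e.symm.toLinearMap) (e y) := by
    simpa using hxy
  exact e.injective (h2 this)

include hU in
/-- if `p ∣ B'(w, y)` for all `y` then `w ∈ p L'` -/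
theorem ihf_unimod_div (p : ℤ) (hp : p ≠ 0) (w : L') (h : ∀ y, p ∣ B' w y) :
    ∃ w₁, w = p • w₁ := by
  choose c hc using h
  have hadd : ∀ y y', c (y + y') = c y + c y' := by
    intro y y'
    apply mul_left_cancel₀ hp
    rw [mul_add, ← hc, ← hc, ← hc, map_add]
  have hsmul : ∀ (a : ℤ) (y : L'), c (a • y) = a • c y := by
    intro a y
    apply mul_left_cancel₀ hp
    rw [← hc, map_smul, hc y, smul_eq_mul, smul_eq_mul]
    ring
  let f : L' →ₗ[ℤ] ℤ := { toFun := c, map_add' := hadd, map_smul' := hsmul }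
  obtain ⟨w₁, hw₁⟩ := hU f
  refine ⟨w₁, ihf_unimod_inj B' hU ?_⟩
  refine LinearMap.ext fun y => ?_
  rw [map_smul, LinearMap.smul_apply, hw₁ y, hc y, smul_eq_mul]
  rfl

end Unimod

/-! ### The abstract statement -/

section Abstract

variable {L L' : Type*} [AddCommGroup L] [AddCommGroup L'] [Module.Free ℤ L] [Module.Finite ℤ L]
  (B : L →ₗ[ℤ] L →ₗ[ℤ] ℤ) (B' : L' →ₗ[ℤ] L' →ₗ[ℤ] ℤ)
  (res : L →ₗ[ℤ] L') (cor : L' →ₗ[ℤ] L) (η : L →ₗ[ℤ] L) (p : ℕ) [hp : Fact p.Prime]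
  (hU : ∀ f : L →ₗ[ℤ] ℤ, ∃ z, ∀ y, B z y = f y)
  (hU' : ∀ w : L', (∀ y', (p : ℤ) ∣ B' w y') → ∃ w₁, w = (p : ℤ) • w₁)
  (hadj : ∀ z y', B' (res z) y' = B z (cor y'))
  (hsa : ∀ x z, B (η z) x = B z (η x))
  (hE : ∀ z w₁, res z = (p : ℤ) • w₁ → ∃ z₁, η z = (p : ℤ) • z₁)

include hU hU' hadj hsa hE in
/-- **`η L ⊆ cor L' + p L`** -/
theorem ihf_pair_abstract (x : L) : ∃ y' z, η x = cor y' + (p : ℤ) • z := by
  classical
  set C : Submodule ℤ L := LinearMap.range cor ⊔ LinearMap.range ((p : ℤ) • (LinearMap.id : L →ₗ[ℤ] L))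
    with hC
  by_cases hx : η x ∈ C
  · obtain ⟨a, ⟨y', rfl⟩, b, ⟨z, rfl⟩, hab⟩ := Submodule.mem_sup.mp hx
    exact ⟨y', z, hab.symm⟩
  exfalso
  have hpC : ∀ y : L, (p : ℤ) • y ∈ C := fun y =>
    Submodule.mem_sup_right ⟨y, rfl⟩
  have hcorC : ∀ y' : L', cor y' ∈ C := fun y' => Submodule.mem_sup_left ⟨y', rfl⟩
  have hQ : ∀ q : L ⧸ C, p • q = 0 := by
    intro q
    induction q using Submodule.Quotient.induction_on with
    | H y =>
      rw [← Submodule.Quotient.mk_smul, Submodule.Quotient.mk_eq_zero]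
      have := hpC y
      rwa [natCast_zsmul] at this
  have instQ : Module (ZMod p) (L ⧸ C) := AddCommGroup.zmodModule hQ
  set v : L ⧸ C := Submodule.Quotient.mk (η x) with hv
  have hv0 : v ≠ 0 := by
    rw [hv, Ne, Submodule.Quotient.mk_eq_zero]
    exact hx
  obtain ⟨φ, hφ⟩ : ∃ φ : (L ⧸ C) →ₗ[ZMod p] ZMod p, φ v ≠ 0 := by
    by_contra hcon
    push Not at hcon
    exact hv0 ((Module.forall_dual_apply_eq_zero_iff (ZMod p) v).mp hcon)
  -- the functional on `L` with values in `ZMod p`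
  let g : L →ₗ[ℤ] ZMod p :=
    (φ.toAddMonoidHom.comp (C.mkQ.toAddMonoidHom)).toIntLinearMap
  have hg : ∀ y, g y = φ (Submodule.Quotient.mk y) := fun y => rfl
  let f : ℤ →ₗ[ℤ] ZMod p := (Int.castAddHom (ZMod p)).toIntLinearMap
  have hf : Function.Surjective f := ZMod.intCast_surjective
  obtain ⟨h, hh⟩ := Module.projective_lifting_property f g hf
  have hh' : ∀ y, ((h y : ℤ) : ZMod p) = g y := fun y => LinearMap.congr_fun hh y
  obtain ⟨z₀, hz₀⟩ := hU h
  -- `res z₀ ∈ p L'`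
  have h1 : ∀ y', (p : ℤ) ∣ B' (res z₀) y' := by
    intro y'
    rw [hadj, hz₀, ← ZMod.intCast_zmod_eq_zero_iff_dvd, hh', hg,
      (Submodule.Quotient.mk_eq_zero C).mpr (hcorC y'), map_zero]
  obtain ⟨w₁, hw₁⟩ := hU' (res z₀) h1
  obtain ⟨z₁, hz₁⟩ := hE z₀ w₁ hw₁
  apply hφ
  rw [hv, ← hg, ← hh', ← hz₀, ← hsa, hz₁, map_smul, LinearMap.smul_apply, smul_eq_mul]
  push_cast
  rw [ZMod.natCast_self, zero_mul]

end Abstract

end Fermat.Agent.Ihara
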