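/-
IHARA track, package [H4](ii) (helper1): **reduction of a complemented summand** of
`Hom_par(Γ, 𝒪)` modulo the maximal ideal of a DVR `𝒪`.
-/
import Mathlib
import Fermat.Agent.Lib.Ihara.Fr.Red

set_option autoImplicit false
set_option linter.unusedSectionVars false
set_option linter.unusedVariables false
set_option linter.style.haveILetI false

namespace Fermat.Agent.Ihara

open Matrix MatrixGroups CongruenceSubgroup ModularCurve ModularCurve.Period Module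
open Fermat.Agent.DS Fermat.Agent.T1 Fermat.Agent.T1G Fermat.Agent.T2 Fermat.Agent.LR

/-! ### Division -/

theorem ihf_div_hom_gen {R : Type*} [CommRing R] [IsDomain R] {Γ : Subgroup SL(2, ℤ)} (p : R)
    (hp : p ≠ 0) (φ : ↥(parabolicHoms R Γ R)) (h : ∀ γ, p ∣ φ.1 γ) :
    ∃ φ₁ : ↥(parabolicHoms R Γ R), φ = p • φ₁ := by
  choose c hc using h
  have hadd : ∀ γ δ, c (γ + δ) = c γ + c δ := by
    intro γ δ
    apply mul_left_cancel₀ hp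
    rw [mul_add, ← hc, ← hc, ← hc, map_add]
  have h0 : c 0 = 0 := by
    apply mul_left_cancel₀ hp
    rw [← hc, map_zero, mul_zero]
  let φ₁ : Additive Γ →+ R := { toFun := c, map_zero' := h0, map_add' := hadd }
  have hφ₁ : IsParabolicHom Γ φ₁ := by
    intro γ hγ
    apply mul_left_cancel₀ hp
    show p * c (Additive.ofMul γ) = p * 0
    rw [← hc, φ.2 γ hγ, mul_zero]
  refine ⟨⟨φ₁, hφ₁⟩, Subtype.ext (AddMonoidHom.ext fun γ => ?_)⟩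
  show φ.1 γ = p • c γ
  rw [hc γ, smul_eq_mul]

section

variable (Γ : Subgroup SL(2, ℤ)) [Γ.FiniteIndex]
  {𝒪 k : Type*} [CommRing 𝒪] [IsDomain 𝒪] [IsLocalRing 𝒪] [Field k]
  (π : 𝒪 →+* k) (hπ : Function.Surjective π)
  (hπker : ∀ a, π a = 0 ↔ a ∈ IsLocalRing.maximalIdeal 𝒪)

/-! ### Naturality -/

theorem ihfRed_homPar {ι : Type} [Fintype ι] (S : tdmCosetSys Γ ι) (φ : ↥(parabolicHoms 𝒪 Γ 𝒪)) :
    ihfRed Γ π (S.homPar 𝒪 𝒪 φ) = S.homPar k k (ihfRed Γ π φ) :=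
  Subtype.ext (S.hom_comp (π : 𝒪 →+ k) φ.1).symm

theorem ihfRed_corPar {Γ' : Subgroup SL(2, ℤ)} {ι : Type} [Fintype ι] (C : T2fSys₂ Γ Γ' ι)
    (φ : ↥(parabolicHoms 𝒪 Γ 𝒪)) :
    ihfRed Γ' π (C.corPar 𝒪 𝒪 φ) = C.corPar k k (ihfRed Γ π φ) :=
  Subtype.ext (ihf_cor_comp C (π : 𝒪 →+ k) φ.1).symm

theorem ihfRed_resPar {Γ' : Subgroup SL(2, ℤ)} (hle : Γ ≤ Γ') (φ : ↥(parabolicHoms 𝒪 Γ' 𝒪)) :
    ihfRed Γ π (t2fResPar hle 𝒪 𝒪 φ) = t2fResPar hle k k (ihfRed Γ' π φ) := rfl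

include hπker in
theorem ihfRed_of_mem_smul (X : Submodule 𝒪 ↥(parabolicHoms 𝒪 Γ 𝒪)) (x : ↥(parabolicHoms 𝒪 Γ 𝒪))
    (hx : x ∈ (IsLocalRing.maximalIdeal 𝒪) • X) : ihfRed Γ π x = 0 := by
  refine Submodule.smul_induction_on hx ?_ ?_
  · intro a ha y _
    rw [map_smulₛₗ, (hπker a).mpr ha, zero_smul]
  · intro y z hy hz
    rw [map_add, hy, hz, add_zero]

variable {ϖ : 𝒪} (hϖ : IsLocalRing.maximalIdeal 𝒪 = Ideal.span {ϖ}) (hϖ0 : ϖ ≠ 0)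

include hπker hϖ hϖ0 in
/-- the kernel of the reduction is `ϖ Hom_par(Γ, 𝒪)` -/
theorem ihfRed_eq_zero (φ : ↥(parabolicHoms 𝒪 Γ 𝒪)) (h : ihfRed Γ π φ = 0) :
    ∃ φ' : ↥(parabolicHoms 𝒪 Γ 𝒪), φ = ϖ • φ' := by
  apply ihf_div_hom_gen ϖ hϖ0
  intro γ
  have h1 : π (φ.1 γ) = 0 := DFunLike.congr_fun (congrArg Subtype.val h) γ
  have h2 := (hπker _).mp h1
  rwa [hϖ, Ideal.mem_span_singleton] at h2

variable (X Y : Submodule 𝒪 ↥(parabolicHoms 𝒪 Γ 𝒪)) (hXY : IsCompl X Y)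

include hπker hϖ hϖ0 hXY in
/-- on a complemented summand `X`, the kernel of the reduction is `𝔪 X` -/
theorem ihf_summand_ker (x : ↥(parabolicHoms 𝒪 Γ 𝒪)) (hx : x ∈ X) (h : ihfRed Γ π x = 0) :
    ∃ x' ∈ X, x = ϖ • x' := by
  obtain ⟨φ', hφ'⟩ := ihfRed_eq_zero Γ π hπker hϖ hϖ0 x h
  have htop : φ' ∈ X ⊔ Y := by rw [hXY.sup_eq_top]; exact Submodule.mem_top
  obtain ⟨x', hx', y', hy', e⟩ := Submodule.mem_sup.mp htop
  have h1 : x - ϖ • x' = ϖ • y' := by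
    rw [hφ', ← e, smul_add]
    abel
  have h2 : x - ϖ • x' ∈ X ⊓ Y :=
    ⟨X.sub_mem hx (X.smul_mem _ hx'), h1 ▸ Y.smul_mem _ hy'⟩
  rw [hXY.inf_eq_bot, Submodule.mem_bot] at h2
  exact ⟨x', hx', sub_eq_zero.mp h2⟩

include hπker hϖ hϖ0 hXY in
theorem ihf_summand_ker' (x : ↥(parabolicHoms 𝒪 Γ 𝒪)) (hx : x ∈ X) (h : ihfRed Γ π x = 0) :
    x ∈ (IsLocalRing.maximalIdeal 𝒪) • X := by
  obtain ⟨x', hx', rfl⟩ := ihf_summand_ker Γ π hπker hϖ hϖ0 X Y hXY x hx h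
  refine Submodule.smul_mem_smul ?_ hx'
  rw [hϖ]
  exact Ideal.mem_span_singleton_self ϖ

include hπker hϖ hϖ0 hXY in
/-- the reductions of `X` and `Y` are disjoint -/
theorem ihf_summand_disjoint (x y : ↥(parabolicHoms 𝒪 Γ 𝒪)) (hx : x ∈ X) (hy : y ∈ Y)
    (h : ihfRed Γ π x = ihfRed Γ π y) : ihfRed Γ π x = 0 := by
  have h0 : ihfRed Γ π (x - y) = 0 := by rw [map_sub, h, sub_self]
  obtain ⟨φ', hφ'⟩ := ihfRed_eq_zero Γ π hπker hϖ hϖ0 (x - y) h0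
  have htop : φ' ∈ X ⊔ Y := by rw [hXY.sup_eq_top]; exact Submodule.mem_top
  obtain ⟨x', hx', y', hy', e⟩ := Submodule.mem_sup.mp htop
  have h1 : x - ϖ • x' = y + ϖ • y' := by
    have : x - y = ϖ • x' + ϖ • y' := by rw [hφ', ← e, smul_add]
    have h2 : x = y + (ϖ • x' + ϖ • y') := by rw [← this]; abel
    rw [h2]; abel
  have h2 : x - ϖ • x' ∈ X ⊓ Y :=
    ⟨X.sub_mem hx (X.smul_mem _ hx'), h1 ▸ Y.add_mem hy (Y.smul_mem _ hy')⟩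
  rw [hXY.inf_eq_bot, Submodule.mem_bot] at h2
  have h3 : x = ϖ • x' := sub_eq_zero.mp h2
  rw [h3, map_smulₛₗ, (hπker ϖ).mpr (by rw [hϖ]; exact Ideal.mem_span_singleton_self ϖ), zero_smul]

end

end Fermat.Agent.Ihara
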