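/-
IHARA track, package [H4](ii) (helper1): **Tool B, concrete form**.

For `K ≤ (ℤ/M)ˣ` containing `-1`, `Γ_K ≤ Γ_⊤ = Γ₀(M)`, `η = T_ℓ - (ℓ + 1)`:
* `ihf_toolB_int`: `η Hom_par(Γ_⊤, ℤ) ⊆ cor Hom_par(Γ_K, ℤ) + p Hom_par(Γ_⊤, ℤ)`;
* `ihf_toolB`: over a field `k` of characteristic `p` (quotient of a characteristic zero domain in
  which `6` is invertible): `η Hom_par(Γ_⊤, k) ⊆ cor Hom_par(Γ_K, k)`.
-/
import Mathlib
import Fermat.Agent.Lib.Ihara.Fr.Pair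
import Fermat.Agent.Lib.Ihara.Fr.Red
import Fermat.Agent.Lib.Ihara.Fr.Step
import Fermat.Agent.Lib.Ihara.Fr.Cor
import Fermat.Agent.Lib.LR.HeckeLat
import Fermat.Agent.Lib.LR.Dual.Main

set_option autoImplicit false
set_option linter.unusedSectionVars false
set_option linter.unusedVariables false
set_option linter.style.haveILetI false

namespace Fermat.Agent.Ihara

open Matrix MatrixGroups CongruenceSubgroup ModularCurve ModularCurve.Period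
open Fermat.Agent.DS Fermat.Agent.T1 Fermat.Agent.T1G Fermat.Agent.T2 Fermat.Agent.LR

/-! ### Division of integral homomorphisms -/

theorem ihf_div_hom {Γ : Subgroup SL(2, ℤ)} (p : ℤ) (hp : p ≠ 0) (φ : ↥(tgeL Γ))
    (h : ∀ γ, p ∣ φ.1 γ) : ∃ φ₁ : ↥(tgeL Γ), φ = p • φ₁ := by
  choose c hc using h
  have hadd : ∀ γ δ, c (γ + δ) = c γ + c δ := by
    intro γ δ
    apply mul_left_cancel₀ hp
    rw [mul_add, ← hc, ← hc, ← hc, map_add]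
  have h0 : c 0 = 0 := by
    apply mul_left_cancel₀ hp
    rw [← hc, map_zero, mul_zero]
  let φ₁ : Additive Γ →+ ℤ := { toFun := c, map_zero' := h0, map_add' := hadd }
  have hφ₁ : IsParabolicHom Γ φ₁ := by
    intro γ hγ
    apply mul_left_cancel₀ hp
    show p * c (Additive.ofMul γ) = p * 0
    rw [← hc, φ.2 γ hγ, mul_zero]
  refine ⟨⟨φ₁, hφ₁⟩, Subtype.ext (AddMonoidHom.ext fun γ => ?_)⟩
  show φ.1 γ = p • c γ
  rw [hc γ, smul_eq_mul]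

/-! ### Self-adjointness of `T_ℓ` on `Γ_⊤ = Γ₀(M)` -/

section SelfAdj

variable {M : ℕ} [NeZero M] {ℓ : ℕ} (hℓ : ℓ.Prime) (hℓM : ¬ ℓ ∣ M)

theorem ihf_T_selfadj_aux (Γ : Subgroup SL(2, ℤ)) (hΓ : Γ = Gamma0 M) {ι : Type} [Fintype ι]
    (D : LrdSys Γ ι) (S : tdmCosetSys Γ (Option (Fin ℓ))) (hS : S.rep = tgmRepT M hℓ hℓM)
    (x y : ↥(parabolicHoms ℤ Γ ℤ)) :
    lrdB D (S.homPar ℤ ℤ x) y = lrdB D x (S.homPar ℤ ℤ y) := by
  subst hΓ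
  haveI : Fact ℓ.Prime := ⟨hℓ⟩
  letI : Fintype (SL(2, ℤ) ⧸ Gamma0 M) := Subgroup.fintypeQuotientOfFiniteIndex
  have hT : ∀ x : ↥(parabolicHoms ℤ (Gamma0 M) ℤ), S.homPar ℤ ℤ x = lrhT M ℓ hℓ hℓM x := by
    intro x
    apply Subtype.ext
    refine AddMonoidHom.ext fun δ' => ?_
    obtain ⟨δ, rfl⟩ := Additive.ofMul.surjective δ'
    show S.hom ℤ x.1 (Additive.ofMul δ) = (tdmSysT M ℓ hℓ hℓM).hom ℤ x.1 (Additive.ofMul δ)
    have := tdmCosetSys.hom_twist S (tdmSysT M ℓ hℓ hℓM) (MonoidHom.id _) id (fun _ _ => rfl)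
      (fun _ => rfl) (Equiv.refl _)
      (fun i => match i with
        | none => ⟨tgmGammaP M hℓ hℓM, tgmGammaP_mem M hℓ hℓM⟩
        | some _ => 1)
      (fun i => by
        rw [hS]
        rcases i with _ | b
        · rfl
        · show tgmRepT M hℓ hℓM (some b) = ((1 : SL(2, ℤ)) : Matrix (Fin 2) (Fin 2) ℤ) * _
          rw [Matrix.SpecialLinearGroup.coe_one, Matrix.one_mul]
          rfl)
      x.1 δ
    exact this.symm
  rw [hT, hT, lrdr_indep D (lrdzSys M), lrdr_indep D (lrdzSys M)]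
  exact lrh_T_selfadj_of M ℓ hℓM (lrdBN M) (lrdBN (M * ℓ)) (lrdBN_alt M) (lrdBN_alt (M * ℓ))
    (lrdBN_res_cor M ℓ hℓM) (lrdBN_w M ℓ hℓM) x y

/-- **`T_ℓ` is self-adjoint on `Hom_par(Γ_⊤, ℤ)`** for the pairing of any coset system -/
theorem ihf_T_selfadj {ι : Type} [Fintype ι] (D : LrdSys (ihfGammaH M (⊤ : Subgroup (ZMod M)ˣ)) ι)
    (x y : ↥(tgeL (ihfGammaH M (⊤ : Subgroup (ZMod M)ˣ)))) :
    lrdB D ((ihfSysT M ⊤ hℓ hℓM).homPar ℤ ℤ x) y = lrdB D x ((ihfSysT M ⊤ hℓ hℓM).homPar ℤ ℤ y) :=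
  ihf_T_selfadj_aux hℓ hℓM _ ihfGammaH_top D _ rfl x y

end SelfAdj

/-! ### The Eisenstein input -/

section Eis

variable {M : ℕ} [NeZero M] {K K' : Subgroup (ZMod M)ˣ} {ℓ : ℕ} (hℓ : ℓ.Prime) (hℓM : ¬ ℓ ∣ M)
  (p : ℕ) [hp : Fact p.Prime]

/-- if `res z ∈ p L_K` then `(T_ℓ - (ℓ + 1)) z ∈ p L_{K'}` -/
theorem ihf_eis_int (hle : K ≤ K') (z : ↥(tgeL (ihfGammaH M K'))) (w₁ : ↥(tgeL (ihfGammaH M K)))
    (h : t2fResPar (ihfGammaH_mono hle) ℤ ℤ z = (p : ℤ) • w₁) :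
    ∃ z₁ : ↥(tgeL (ihfGammaH M K')),
      (ihfSysT M K' hℓ hℓM).homPar ℤ ℤ z - ((ℓ : ℤ) + 1) • z = (p : ℤ) • z₁ := by
  apply ihf_div_hom (p : ℤ) (by exact_mod_cast hp.out.ne_zero)
  intro γ
  set zb : Additive (ihfGammaH M K') →+ ZMod p := (Int.castAddHom (ZMod p)).comp z.1 with hzb
  have h0 : t2fRes (ihfGammaH_mono hle) (ZMod p) zb = 0 := by
    refine AddMonoidHom.ext fun δ' => ?_
    obtain ⟨δ, rfl⟩ := Additive.ofMul.surjective δ'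
    show ((z.1 (Additive.ofMul (Subgroup.inclusion (ihfGammaH_mono hle) δ)) : ℤ) : ZMod p) = 0
    have h1 := congrArg (fun f : ↥(tgeL (ihfGammaH M K)) => f.1 (Additive.ofMul δ)) h
    have h2 : z.1 (Additive.ofMul (Subgroup.inclusion (ihfGammaH_mono hle) δ))
        = (p : ℤ) * w₁.1 (Additive.ofMul δ) := h1
    rw [h2]
    push_cast
    rw [ZMod.natCast_self, zero_mul]
  have h1 := ihf_step_eis hℓ hℓM hle zb h0
  have h2 := (ihfSysT M K' hℓ hℓM).hom_comp (Int.castAddHom (ZMod p)) z.1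
  rw [← hzb, h1] at h2
  have h3 := DFunLike.congr_fun h2 γ
  rw [← ZMod.intCast_zmod_eq_zero_iff_dvd]
  show (((((ihfSysT M K' hℓ hℓM).hom ℤ z.1) γ - ((ℓ : ℤ) + 1) • z.1 γ : ℤ)) : ZMod p) = 0
  have h4 : (((ihfSysT M K' hℓ hℓM).hom ℤ z.1 γ : ℤ) : ZMod p) = (ℓ + 1) • ((z.1 γ : ℤ) : ZMod p) :=
    h3.symm
  push_cast
  rw [h4]
  simp only [nsmul_eq_mul, smul_eq_mul]
  push_cast
  ring

end Eis

/-! ### Tool B -/

section Main

variable {M : ℕ} [NeZero M] {K : Subgroup (ZMod M)ˣ} (hneg : (-1 : (ZMod M)ˣ) ∈ K)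
  {ℓ : ℕ} (hℓ : ℓ.Prime) (hℓM : ¬ ℓ ∣ M) (p : ℕ) [hp : Fact p.Prime]
  {I : Type} [Fintype I] [Nonempty I]
  (τ : IhfTrans (ihfGammaH M K) (ihfGammaH M (⊤ : Subgroup (ZMod M)ˣ)) I)

include hneg in
/-- **Tool B, integrally**: `η L_⊤ ⊆ cor L_K + p L_⊤` -/
theorem ihf_toolB_int (x : ↥(tgeL (ihfGammaH M (⊤ : Subgroup (ZMod M)ˣ)))) :
    ∃ (y : ↥(tgeL (ihfGammaH M K))) (z : ↥(tgeL (ihfGammaH M (⊤ : Subgroup (ZMod M)ˣ)))),
      (ihfSysT M ⊤ hℓ hℓM).homPar ℤ ℤ x - ((ℓ : ℤ) + 1) • x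
        = (τ.sys (ihfGammaH_mono le_top)).corPar ℤ ℤ y + (p : ℤ) • z := by
  letI : Fintype (SL(2, ℤ) ⧸ ihfGammaH M K) := Subgroup.fintypeQuotientOfFiniteIndex
  letI : Fintype (SL(2, ℤ) ⧸ ihfGammaH M (⊤ : Subgroup (ZMod M)ˣ)) :=
    Subgroup.fintypeQuotientOfFiniteIndex
  set DK := lrdSysOf (ihfGammaH M K) (ihf_neg_one_mem hneg) with hDK
  set DT := lrdSysOf (ihfGammaH M (⊤ : Subgroup (ZMod M)ˣ))
    (ihf_neg_one_mem (Subgroup.mem_top _)) with hDT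
  set η : ↥(tgeL (ihfGammaH M (⊤ : Subgroup (ZMod M)ˣ)))
      →ₗ[ℤ] ↥(tgeL (ihfGammaH M (⊤ : Subgroup (ZMod M)ˣ))) :=
    (ihfSysT M ⊤ hℓ hℓM).homPar ℤ ℤ - ((ℓ : ℤ) + 1) • LinearMap.id with hη
  have hmain := ihf_pair_abstract (lrdB DT) (lrdB DK)
    (t2fResPar (ihfGammaH_mono (le_top : K ≤ ⊤)) ℤ ℤ)
    ((τ.sys (ihfGammaH_mono le_top)).corPar ℤ ℤ) η p
    (fun f => lrdB_unimodular DT f)
    (fun w hw => ihf_unimod_div (lrdB DK) (fun f => lrdB_unimodular DK f) (p : ℤ)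
      (by exact_mod_cast hp.out.ne_zero) w hw)
    (fun z y' => lrdr_res_cor (ihfGammaH_mono le_top) DK DT (τ.sys (ihfGammaH_mono le_top))
      (fun i => ⟨τ.c i, τ.mem i, rfl⟩) z y')
    (fun x z => by
      simp only [hη, LinearMap.sub_apply, LinearMap.smul_apply, LinearMap.id_apply, map_sub,
        map_smul]
      rw [ihf_T_selfadj hℓ hℓM DT z x])
    (fun z w₁ hz => by
      obtain ⟨z₁, hz₁⟩ := ihf_eis_int hℓ hℓM p le_top z w₁ hz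
      exact ⟨z₁, hz₁⟩) x
  exact hmain

variable {𝒪 k : Type*} [CommRing 𝒪] [IsDomain 𝒪] [CharZero 𝒪] [Field k] [hk : CharP k p]
  (π : 𝒪 →+* k) (hπ : Function.Surjective π) (h2 : IsUnit (2 : 𝒪)) (h3 : IsUnit (3 : 𝒪))

include hneg hπ h2 h3 hp hk in
/-- **Tool B** over `k`: `η Hom_par(Γ_⊤, k) ⊆ cor Hom_par(Γ_K, k)` -/
theorem ihf_toolB (x : ↥(parabolicHoms k (ihfGammaH M (⊤ : Subgroup (ZMod M)ˣ)) k)) :
    ∃ y : ↥(parabolicHoms k (ihfGammaH M K) k),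
      (ihfSysT M ⊤ hℓ hℓM).homPar k k x - ((ℓ : k) + 1) • x
        = (τ.sys (ihfGammaH_mono le_top)).corPar k k y := by
  have hx : x ∈ Submodule.span k
      (Set.range (tgeCastL (ihfGammaH M (⊤ : Subgroup (ZMod M)ˣ)) k)) := by
    rw [ihf_span_top _ π (ihf_neg_one_mem (Subgroup.mem_top _)) hπ h2 h3]
    exact Submodule.mem_top
  induction hx using Submodule.span_induction with
  | mem x hx =>
    obtain ⟨x₀, rfl⟩ := hx
    obtain ⟨y, z, h⟩ := ihf_toolB_int hneg hℓ hℓM p τ x₀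
    refine ⟨tgeCastL _ k y, ?_⟩
    rw [ihf_cast_homPar, ihf_cast_corPar]
    have h1 := congrArg (tgeCastL (ihfGammaH M (⊤ : Subgroup (ZMod M)ˣ)) k) h
    rw [map_sub, map_add, map_smul, map_smul] at h1
    have h2 : ((p : ℤ) • tgeCastL (ihfGammaH M (⊤ : Subgroup (ZMod M)ˣ)) k z) = 0 := by
      rw [← Int.cast_smul_eq_zsmul k, Int.cast_natCast, CharP.cast_eq_zero, zero_smul]
    rw [h2, add_zero, ← Int.cast_smul_eq_zsmul k] at h1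
    rw [← h1]
    push_cast
    rfl
  | zero => exact ⟨0, by simp⟩
  | add x x' _ _ hx hx' =>
    obtain ⟨y, hy⟩ := hx
    obtain ⟨y', hy'⟩ := hx'
    refine ⟨y + y', ?_⟩
    rw [map_add, map_add, smul_add, ← hy, ← hy']
    abel
  | smul a x _ hx =>
    obtain ⟨y, hy⟩ := hx
    refine ⟨a • y, ?_⟩
    rw [map_smul, map_smul, ← hy, smul_sub, smul_comm]

end Main

end Fermat.Agent.Ihara
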